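import Mathlib
import Fermat.Agent.LT.General.Geom.Local.InertBridge
import Fermat.Agent.LT.General.Geom.Local.Torus
import Fermat.Agent.LT.General.Level.Trace
import Fermat.Agent.LT.Descent.Geom.Local.TameAlgebra
import Fermat.Agent.LT.Descent.Geom.Local.Generalities

set_option autoImplicit false

/-!
# The completion at a place fixed by the Galois group, ramified or not

The descent of fixed points, of boundedness and of units, and the absolute value over `K`.
-/

noncomputable section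

open NumberField IsDedekindDomain WithZero Filter Topology
open scoped MatrixGroups

namespace FermatAgent.LTG

open FermatAgent.LT (galPlace loc GLv BddMod BddAt piLoc valued_piLoc)

variable {S : Setup} {σ : S.F ≃+* S.F} (hσ : S.IsGalGen σ) {v : HeightOneSpectrum (𝓞 S.K)}
  (w : S.OverK v) (hfix : galPlace σ w.1 = w.1)

set_option quotPrecheck false
local notation "Fw" => HeightOneSpectrum.adicCompletion (↥(Setup.F S)) (Subtype.val w)
local notation "Kv" => HeightOneSpectrum.adicCompletion (↥(Setup.K S)) v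

include hσ hfix in
theorem exists_fixLoc_ne : ∃ x, fixLoc hσ hfix x ≠ x := by
  obtain ⟨z, hz⟩ : ∃ z, σ z ≠ z := by
    by_contra! h
    exact hσ.1 (RingEquiv.ext h)
  refine ⟨loc w.1 z, ?_⟩
  rw [fixLoc_apply, fixLocHom_loc]
  exact fun h => hz ((loc w.1).injective h)

include hσ hfix in
theorem subsingleton_overK_fixed : Subsingleton (S.OverK v) :=
  ⟨fun a b => Subtype.ext ((eq_of_galPlace_fixed hσ hfix (a.2.trans w.2.symm)).trans
    (eq_of_galPlace_fixed hσ hfix (b.2.trans w.2.symm)).symm)⟩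

include hσ in
theorem ramAt_ne_zero' : S.ramAt w.1 ≠ 0 := (ramAt_odd hσ w.1).pos.ne'

include hσ in
theorem valued_incl_le_iff (x : Kv) (n : ℤ) :
    Valued.v (S.inclOver w x) ≤ exp (S.ramAt w.1 * n) ↔ Valued.v x ≤ exp n := by
  rw [valued_inclOver_pow, ← nsmul_eq_mul, WithZero.exp_nsmul,
    pow_le_pow_iff_left₀ zero_le zero_le (ramAt_ne_zero' hσ w)]

include hσ in
theorem valued_incl_le_one_iff (x : Kv) : Valued.v (S.inclOver w x) ≤ 1 ↔ Valued.v x ≤ 1 := by
  rw [valued_inclOver_pow, pow_le_one_iff_of_nonneg zero_le (ramAt_ne_zero' hσ w)]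

include hσ hfix in
/-- The fixed elements of the completion come from `K`. -/
theorem exists_inclOver_of_fixed {x : Fw} (hx : fixLoc hσ hfix x = x) :
    ∃ y, S.inclOver w y = x := by
  set f : Kv →+* Fw := S.inclOver w
  set e := S.ramAt w.1
  have he : e ≠ 0 := ramAt_ne_zero' hσ w
  have hv' : ∀ y, Valued.v (f y) = Valued.v y ^ e := valued_inclOver_pow w
  have hclosed : IsClosed (Set.range f) := by
    have hcomap : Filter.comap f (𝓝 0) = 𝓝 0 := by
      refine le_antisymm ?_ ((map_zero f ▸ (S.continuous_inclOver _).tendsto 0).le_comap)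
      intro s hs
      rw [Valued.mem_nhds_zero] at hs
      obtain ⟨γ, hγ⟩ := hs
      obtain ⟨a, b, ha, hb, hab⟩ := Valuation.restrict_exists_div_eq
        (Valued.v (R := Kv)) γ
      have hne : Valued.v.restrict (f (a / b)) ≠ 0 := by
        rw [ne_eq, Valuation.restrict_eq_zero_iff, hv', map_div₀]
        exact pow_ne_zero _ (div_ne_zero ha.ne' hb.ne')
      refine mem_comap.mpr ⟨_, Valued.mem_nhds_zero.mpr ⟨Units.mk0 _ hne, subset_rfl⟩,
        fun y hy => hγ ?_⟩
      simp only [Set.mem_preimage, Set.mem_ofPred_eq, Units.val_mk0, Valuation.restrict_lt_iff,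
        hv', pow_lt_pow_iff_left₀ zero_le zero_le he] at hy
      rw [Set.mem_ofPred_eq, ← hab, ← map_div₀, Valuation.restrict_lt_iff]
      exact hy
    have hind : IsUniformInducing f := ⟨by
      rw [uniformity_eq_comap_nhds_zero Kv, uniformity_eq_comap_nhds_zero Fw, ← hcomap,
        comap_comap, comap_comap]
      congr 1
      funext p
      simp [Function.comp_apply]⟩
    exact hind.isComplete_range.isClosed
  let g : Fw → Fw := fun y =>
    (y + fixLocHom hfix y + fixLocHom hfix (fixLocHom hfix y)) / 3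
  have hgc : Continuous g :=
    ((continuous_id.add (continuous_fixLocHom hfix)).add
      ((continuous_fixLocHom hfix).comp (continuous_fixLocHom hfix))).div_const _
  have hrange : Set.range (loc w.1 : S.F → Fw) ⊆ g ⁻¹' Set.range f := by
    rintro _ ⟨z, rfl⟩
    obtain ⟨y, hy⟩ := hσ.exists_of_fixed (x := (z + σ z + σ (σ z)) / 3) (by
      rw [map_div₀, map_add, map_add, map_ofNat, hσ.cube]; ring)
    refine ⟨loc v y, ?_⟩
    show f (loc v y) = g (loc w.1 z)
    rw [show f (loc v y) = loc w.1 (S.inclKF y) from S.inclOver_loc _ y, hy]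
    simp only [g, fixLocHom_loc, map_div₀, map_add, map_ofNat]
  have hmem : x ∈ g ⁻¹' Set.range f :=
    (closure_minimal hrange (hclosed.preimage hgc))
      (HeightOneSpectrum.denseRange_algebraMap (K := S.F) w.1 x)
  have h3 : (3 : Fw) ≠ 0 := by
    rw [← map_ofNat (loc w.1) 3]; simp
  have hgx : g x = x := by
    rw [fixLoc_apply] at hx
    simp only [g, hx]
    field_simp
    ring
  obtain ⟨y, hy⟩ := hmem
  exact ⟨y, hy.trans hgx⟩

include hσ hfix in
theorem exists_inclGL_of_fixed {g : GLv w.1}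
    (hg : Matrix.GeneralLinearGroup.map (fixLoc hσ hfix).toRingHom g = g) :
    ∃ g₀, inclGL w g₀ = g := by
  choose A hA using fun i j => exists_inclOver_of_fixed hσ w hfix (x := g.val i j)
    (congrArg (fun N : GLv w.1 => N.val i j) hg)
  have e : (Matrix.of A).map (S.inclOver w) = g.val := Matrix.ext fun i j => hA i j
  have hdet : (Matrix.of A).det ≠ 0 := fun h0 => g.det_ne_zero (by
    rw [← e, ← RingHom.mapMatrix_apply, ← RingHom.map_det, h0, map_zero])
  exact ⟨Matrix.GeneralLinearGroup.mkOfDetNeZero _ hdet,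
    Matrix.GeneralLinearGroup.ext fun i j => hA i j⟩

theorem fixLoc_three (x : Fw) :
    fixLoc hσ hfix (fixLoc hσ hfix (fixLoc hσ hfix x)) = x := fixLocHom_cube hσ hfix x

include hσ hfix in
/-- A fixed projective class over the completion comes from `K`. -/
theorem exists_inclGL_of_pgl {x : PGL(2, Fw)}
    (hx : LT.Classes.pGal (fixLoc hσ hfix) x = x) :
    ∃ g, Matrix.ProjGenLinGroup.mk (inclGL w g) = x := by
  obtain ⟨B, hB, rfl⟩ := LT.Cyc.exists_fixed_lift _ (fixLoc_three hσ w hfix)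
    (exists_fixLoc_ne hσ w hfix) hx
  obtain ⟨g, hg⟩ := exists_inclGL_of_fixed hσ w hfix hB
  exact ⟨g, by rw [hg]⟩

theorem inclGL_fixLoc (g : GLv v) :
    Matrix.GeneralLinearGroup.map (fixLoc hσ hfix).toRingHom (inclGL w g) = inclGL w g :=
  Matrix.GeneralLinearGroup.ext fun _ _ => fixLoc_inclOver hσ hfix w.2 _

theorem center_of_inclGL {g : GLv v} (hg : inclGL w g ∈ Subgroup.center (GLv w.1)) :
    g ∈ Subgroup.center (GLv v) :=
  Subgroup.mem_center_iff.mpr fun y => inclGL_injective w (by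
    rw [map_mul, map_mul, Subgroup.mem_center_iff.mp hg])

include hσ in
/-- Units descend. -/
theorem isUnitElt_of_incl {g : GLv v} (h : IsUnitElt w.1 (inclGL w g)) : IsUnitElt v g := by
  obtain ⟨c, h1, h2⟩ := h
  have hdet : (inclGL w g).val.det = S.inclOver w g.val.det :=
    ((S.inclOver w).map_det g.val).symm
  have htr : (inclGL w g).val.trace = S.inclOver w g.val.trace :=
    (AddMonoidHom.map_trace (S.inclOver w).toAddMonoidHom _).symm
  have hc : c ≠ 0 := by rintro rfl; simp at h1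
  rw [hdet, map_mul, map_pow, valued_inclOver_pow] at h1
  rw [htr, map_mul, valued_inclOver_pow] at h2
  set e := S.ramAt w.1
  set d := log (Valued.v g.val.det)
  have hdd : Valued.v g.val.det = exp d :=
    (exp_log ((Valuation.ne_zero_iff _).mpr g.det_ne_zero)).symm
  set k := log (Valued.v c)
  have hck : Valued.v c = exp k := (exp_log ((Valuation.ne_zero_iff _).mpr hc)).symm
  rw [hdd, hck, ← WithZero.exp_nsmul, ← WithZero.exp_nsmul, ← exp_add, ← exp_zero, exp_inj,
    nsmul_eq_mul, nsmul_eq_mul, Nat.cast_ofNat] at h1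
  obtain ⟨i, hi⟩ := ramAt_odd hσ w.1
  have hie : (e : ℤ) = 2 * i + 1 := by simp only [e, hi]; push_cast; ring
  obtain ⟨j, hj⟩ : ∃ j : ℤ, d = 2 * j := ⟨-k - (i : ℤ) * d, by rw [hie] at h1; linarith⟩
  have hp : Valued.v ((piLoc v : Kv) ^ j) = exp (-j) := by
    rw [map_zpow₀, valued_piLoc, ← WithZero.exp_zsmul]; simp
  refine ⟨(piLoc v : Kv) ^ j, ?_, ?_⟩
  · rw [map_mul, map_pow, hp, hdd, ← WithZero.exp_nsmul, ← exp_add, ← exp_zero, hj]
    congr 1
    simp only [nsmul_eq_mul, Nat.cast_ofNat]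
    ring
  · have hk : Valued.v c = Valued.v ((piLoc v : Kv) ^ j) ^ e := by
      rw [hp, hck, ← WithZero.exp_nsmul, nsmul_eq_mul]
      congr 1
      rw [hj] at h1
      linarith
    rw [hk, ← mul_pow, ← map_mul] at h2
    exact (pow_le_one_iff_of_nonneg zero_le (ramAt_ne_zero' hσ w)).mp h2

include hσ in
/-- Boundedness descends. -/
theorem bddMod_of_incl {N : ℤ} {g : GLv v} (h : BddMod N (inclGL w g)) :
    BddMod (|N| + 3 * S.ramAt w.1) g := by
  obtain ⟨c, hc, h1, h2⟩ := LT.exists_smul_of_bddMod h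
  set e := S.ramAt w.1
  have he : (1 : ℤ) ≤ e := by exact_mod_cast (ramAt_odd hσ w.1).pos
  set k := log (Valued.v c)
  have hck : Valued.v c = exp k := (exp_log ((Valuation.ne_zero_iff _).mpr hc)).symm
  set j := -(k / (e : ℤ))
  have hp : Valued.v ((piLoc v : Kv) ^ j) = exp (k / (e : ℤ)) := by
    rw [map_zpow₀, valued_piLoc, ← WithZero.exp_zsmul]; simp [j]
  have hkd := Int.mul_ediv_add_emod k (e : ℤ)
  have hr0 := Int.emod_nonneg k (show (e : ℤ) ≠ 0 by omega)
  have hr1 := Int.emod_lt_of_pos k (show (0 : ℤ) < e by omega)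
  set p := (piLoc v : Kv) ^ j
  have hp0 : p ≠ 0 := zpow_ne_zero _ (piLoc v).ne_zero
  set z : GLv v := Matrix.GeneralLinearGroup.scalar (Fin 2) (Units.mk0 p hp0)
  have hz : z ∈ Subgroup.center (GLv v) := by
    rw [Matrix.GeneralLinearGroup.center_eq_range_scalar]; exact ⟨_, rfl⟩
  have hval : (z * g).val = p • g.val := by
    rw [Units.val_mul]
    show Matrix.scalar (Fin 2) p * g.val = p • g.val
    rw [Matrix.scalar_apply, ← Matrix.smul_eq_diagonal_mul]
  have hN := le_abs_self N
  have hNe : |N| ≤ (e : ℤ) * |N| := le_mul_of_one_le_left (abs_nonneg N) he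
  refine ⟨z, hz, fun i i' => ?_, ?_⟩
  · rw [hval, Matrix.smul_apply, smul_eq_mul, ← valued_incl_le_iff hσ w, map_mul, map_mul,
      valued_inclOver_pow w p, hp, ← WithZero.exp_nsmul, nsmul_eq_mul]
    have hh := h1 i i'
    rw [map_mul, hck] at hh
    rcases eq_or_ne (Valued.v (S.inclOver w (g.val i i'))) 0 with h0 | h0
    · rw [h0, mul_zero]; exact zero_le
    obtain ⟨a, ha⟩ : ∃ a, Valued.v (S.inclOver w (g.val i i')) = exp a := ⟨_, (exp_log h0).symm⟩
    rw [show (inclGL w g).val i i' = S.inclOver w (g.val i i') from rfl, ha, ← exp_add,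
      exp_le_exp] at hh
    rw [ha, ← exp_add, exp_le_exp, mul_add]
    nlinarith
  · have hdet : (inclGL w g).val.det = S.inclOver w g.val.det :=
      ((S.inclOver w).map_det g.val).symm
    rw [hval, Matrix.det_smul, Fintype.card_fin, map_mul, map_pow, hp]
    rw [hdet, map_mul, map_pow, hck, valued_inclOver_pow] at h2
    obtain ⟨d, hd⟩ : ∃ d, Valued.v g.val.det = exp d :=
      ⟨_, (exp_log ((Valuation.ne_zero_iff _).mpr g.det_ne_zero)).symm⟩
    rw [hd, ← WithZero.exp_nsmul, ← exp_add, exp_le_exp, nsmul_eq_mul]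
    rw [hd, ← WithZero.exp_nsmul, ← WithZero.exp_nsmul, ← exp_add, exp_le_exp, nsmul_eq_mul,
      nsmul_eq_mul] at h2
    push_cast at h2 ⊢
    refine le_of_mul_le_mul_left ?_ (show (0 : ℤ) < e by omega)
    nlinarith

set_option linter.deprecated false in
include hσ hfix in
theorem absNorm_pow_ramAt :
    Ideal.absNorm w.1.asIdeal ^ S.ramAt w.1 = Ideal.absNorm v.asIdeal ^ 3 := by
  classical
  let _ : Algebra S.K S.F := S.inclKF.toRingHom.toAlgebra
  let _ : Algebra (𝓞 S.K) (𝓞 S.F) := S.inclInt.toAlgebra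
  have : IsScalarTower (𝓞 S.K) S.K S.F := IsScalarTower.of_algebraMap_eq fun _ => rfl
  have : IsScalarTower (𝓞 S.K) (𝓞 S.F) S.F := IsScalarTower.of_algebraMap_eq fun _ => rfl
  have : IsScalarTower ℚ S.K S.F := IsScalarTower.of_algebraMap_eq' (Subsingleton.elim _ _)
  have := S.isGalois_F
  have : IsGalois S.K S.F := IsGalois.tower_top_of_isGalois ℚ S.K S.F
  have : FiniteDimensional S.K S.F := FiniteDimensional.right ℚ S.K S.F
  let s : S.F ≃ₐ[S.K] S.F := AlgEquiv.ofRingEquiv (f := σ) hσ.2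
  have huniv : (Finset.univ : Finset (S.F ≃ₐ[S.K] S.F)) = {1, s, s * s} := by
    refine (Finset.eq_univ_of_forall fun τ => ?_).symm
    simp only [Finset.mem_insert, Finset.mem_singleton]
    rcases Setup.IsGalGen.cases S hσ (τ := (τ : S.F ≃+* S.F)) (fun y => τ.commutes y) with h | h | h
    · exact Or.inl (AlgEquiv.ext fun y => RingEquiv.congr_fun h y)
    · exact Or.inr (Or.inl (AlgEquiv.ext fun y => RingEquiv.congr_fun h y))
    · exact Or.inr (Or.inr (AlgEquiv.ext fun y => RingEquiv.congr_fun h y))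
  have h1 : (1 : S.F ≃ₐ[S.K] S.F) ≠ s := fun h =>
    hσ.1 (RingEquiv.ext fun y => (AlgEquiv.congr_fun h y).symm)
  have h2 : (1 : S.F ≃ₐ[S.K] S.F) ≠ s * s := fun h =>
    Setup.IsGalGen.sq_ne_refl hσ (RingEquiv.ext fun y => (AlgEquiv.congr_fun h y).symm)
  have h3 : s ≠ s * s := fun h =>
    Setup.IsGalGen.trans_ne hσ (RingEquiv.ext fun y => (AlgEquiv.congr_fun h y).symm)
  have hfin : Module.finrank S.K S.F = 3 := by
    rw [← IsGalois.card_aut_eq_finrank, Nat.card_eq_fintype_card, ← Finset.card_univ, huniv,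
      Finset.card_insert_of_notMem (by simp [h1, h2]), Finset.card_insert_of_notMem (by simp [h3]),
      Finset.card_singleton]
  have : Module.IsTorsionFree (𝓞 S.K) (𝓞 S.F) :=
    Module.isTorsionFree_iff_algebraMap_injective.mpr S.inclInt_injective
  have : Algebra.IsIntegral (𝓞 S.K) (𝓞 S.F) := Algebra.IsIntegral.tower_top (R := ℤ)
  have : IsIntegralClosure (𝓞 S.F) (𝓞 S.K) S.F :=
    IsIntegralClosure.of_isIntegrallyClosed (𝓞 S.F) (𝓞 S.K) S.F
  have : Module.Finite (𝓞 S.K) (𝓞 S.F) :=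
    IsIntegralClosure.finite (𝓞 S.K) S.K S.F (𝓞 S.F)
  have hv0 : v.asIdeal ≠ ⊥ := v.ne_bot
  have hmax : v.asIdeal.IsMaximal := v.isMaximal
  have hlies : w.1.asIdeal.LiesOver v.asIdeal := ⟨by
    conv_lhs => rw [← w.2]
    rfl⟩
  have hset : IsDedekindDomain.primesOverFinset v.asIdeal (𝓞 S.F) = {w.1.asIdeal} := by
    refine Finset.ext fun P => ?_
    rw [IsDedekindDomain.mem_primesOverFinset_iff hv0, Finset.mem_singleton]
    refine ⟨fun ⟨hP, hPo⟩ => ?_, fun h => h ▸ ⟨w.1.isPrime, hlies⟩⟩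
    have hP0 : P ≠ ⊥ := fun h => hv0 (by
      rw [hPo.over, h]
      exact Ideal.comap_bot_of_injective _ S.inclInt_injective)
    have := eq_of_galPlace_fixed hσ hfix (w' := ⟨P, hP, hP0⟩)
      ((HeightOneSpectrum.ext hPo.over.symm).trans w.2.symm)
    exact congrArg HeightOneSpectrum.asIdeal this
  have hsum := Ideal.sum_ramification_inertia (𝓞 S.F) S.K S.F (p := v.asIdeal) hv0
  rw [hset, Finset.sum_singleton, hfin] at hsum
  have hr : v.asIdeal.ramificationIdx' w.1.asIdeal = S.ramAt w.1 := by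
    unfold Setup.ramAt
    rw [w.2]
  rw [hr] at hsum
  rw [Ideal.absNorm_eq_pow_inertiaDeg'_of_liesOver w.1.asIdeal v.asIdeal v.isPrime hv0, ← pow_mul,
    mul_comm, hsum]

include hσ hfix in
theorem norm_inclOver_fixed (x : Kv) : ‖S.inclOver w x‖ = ‖x‖ ^ 3 := by
  have hN := absNorm_pow_ramAt hσ w hfix
  have hreal : (Ideal.absNorm w.1.asIdeal : ℝ) ^ S.ramAt w.1 =
      (Ideal.absNorm v.asIdeal : ℝ) ^ 3 := by exact_mod_cast hN
  rw [FinitePlace.norm_def, FinitePlace.norm_def, valued_inclOver_pow, map_pow]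
  rcases eq_or_ne (Valued.v x) 0 with h | h
  · simp [h, ramAt_ne_zero' hσ w]
  rw [WithZeroMulInt.toNNReal_neg_apply _ h, WithZeroMulInt.toNNReal_neg_apply _ h]
  push_cast
  rw [← zpow_natCast, ← zpow_natCast (_ ^ _) 3, ← zpow_mul, ← zpow_mul, mul_comm, zpow_mul,
    zpow_natCast, hreal, ← zpow_natCast, ← zpow_mul, mul_comm]

end FermatAgent.LTG

end
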