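import Mathlib
import Fermat.Agent.LT.General.Local.Fixed.Char
import Fermat.Agent.LT.General.Level.SplitBox
import Fermat.Agent.LT.General.Level.Residue
import Fermat.Agent.LT.General.Geom.Local.Fixed.Field

set_option autoImplicit false

/-!
# The local character of the level at a fixed place over `m`
-/

noncomputable section

open NumberField IsDedekindDomain WithZero

namespace FermatAgent.LTG

open FermatAgent.LT (galInt galPlace loc galPlace_injective)
open FermatAgent.LTG.Fixed (LocChar small_zero_iff)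

namespace Setup.Level

variable {S : Setup} (D : S.Level) {σ : S.F ≃+* S.F} (w : HeightOneSpectrum (𝓞 S.F))

/-- The exponent of a natural number at the place. -/
def ordW (n : ℕ) : ℕ := (-log (Valued.v (loc w ((n : 𝓞 S.F) : S.F)))).toNat

theorem valued_natCast_eq {n : ℕ} (hn : n ≠ 0) :
    Valued.v (loc w ((n : 𝓞 S.F) : S.F)) = exp (-(ordW w n : ℤ)) := by
  have h1 : Valued.v (loc w ((n : 𝓞 S.F) : S.F)) ≤ 1 := LT.CO.valued_int_le_one _
  have h0 : Valued.v (loc w ((n : 𝓞 S.F) : S.F)) ≠ 0 := by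
    rw [Valuation.ne_zero_iff, map_ne_zero]
    simpa using hn
  rw [← exp_log h0, ← exp_zero, exp_le_exp] at h1
  rw [ordW, Int.toNat_of_nonneg (by omega), neg_neg, exp_log h0]

theorem valued_natCast_pow (j : ℕ) :
    Valued.v (loc w (((S.m ^ j : ℕ) : 𝓞 S.F) : S.F)) = exp (-((j * ordW w S.m : ℕ) : ℤ)) := by
  have h : Valued.v (loc w (((S.m ^ j : ℕ) : 𝓞 S.F) : S.F)) =
      Valued.v (loc w ((S.m : 𝓞 S.F) : S.F)) ^ j := by
    simp [map_pow]
  rw [h, valued_natCast_eq w S.m_ne_zero, ← WithZero.exp_nsmul]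
  congr 1
  push_cast
  ring

theorem valued_three_eq :
    Valued.v (3 : w.adicCompletion S.F) = exp (-(ordW w 3 : ℤ)) := by
  rw [← valued_natCast_eq w (n := 3) (by norm_num)]
  show _ = Valued.v (loc w (algebraMap (𝓞 S.F) S.F ((3 : ℕ) : 𝓞 S.F)))
  rw [map_natCast, map_natCast]
  norm_num

theorem one_le_ordW (hm : (S.m : 𝓞 S.F) ∈ w.asIdeal) : 1 ≤ ordW w S.m := by
  have h : Valued.v (loc w ((S.m : 𝓞 S.F) : S.F)) < 1 := by
    rw [LT.valued_loc_int, HeightOneSpectrum.intValuation_lt_one_iff_mem]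
    exact hm
  rw [valued_natCast_eq w S.m_ne_zero, ← exp_zero, exp_lt_exp] at h
  omega

theorem ordW_three_le : ordW w 3 ≤ ordW w S.m := by
  have h := valued_natCast_le_of_dvd (L := S.F) (Setup.three_dvd_m (S := S)) w
  rw [valued_natCast_eq w S.m_ne_zero, valued_natCast_eq w (by norm_num), exp_le_exp] at h
  omega

theorem lvl_eq : LT.CO.lvl (D.levelIdeal S.F) w = (D.l + 2) * ordW w S.m := by
  have h := Box.valued_natCast_N (⟨⊥, ⊥, 0, 0, D.lvl⟩ : Box S.F) D.lvl_pos w
  rw [show ((⟨⊥, ⊥, 0, 0, D.lvl⟩ : Box S.F).N) = S.m ^ (D.l + 2) from rfl, valued_natCast_pow,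
    exp_inj, neg_inj, Nat.cast_inj] at h
  exact h.symm

open Classical in
/-- An integer near an integral element of the completion. -/
def apx (x : w.adicCompletion S.F) : 𝓞 S.F :=
  if h : Valued.v x ≤ 1 then
    (LT.exists_int_close w h (LT.CO.lvl (D.levelIdeal S.F) w)).choose else 0

theorem apx_spec {x : w.adicCompletion S.F} (h : Fixed.Small 0 x) :
    Valued.v (x - loc w (D.apx w x : S.F)) ≤ exp (-(LT.CO.lvl (D.levelIdeal S.F) w : ℤ)) := by
  rw [apx, dif_pos (small_zero_iff.mp h)]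
  exact (LT.exists_int_close w (small_zero_iff.mp h) _).choose_spec

variable (σ)

/-- The character at the place. -/
def psiAt (x : w.adicCompletion S.F) : ℂ :=
  ratChar D.M₁ (Algebra.trace ℤ (𝓞 S.F) ((D.boxF σ).placeIdem w * D.apx w x))

variable {σ}

theorem psiAt_eq {x : w.adicCompletion S.F} (hx : Fixed.Small 0 x) {o : 𝓞 S.F}
    (h : Fixed.Small (4 * D.k * ordW w S.m) (x - loc w (o : S.F))) :
    D.psiAt σ w x = ratChar D.M₁ (Algebra.trace ℤ (𝓞 S.F) ((D.boxF σ).placeIdem w * o)) := by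
  refine (D.boxF σ).ratChar_idem_congr D.lvl_pos D.M₁_dvd_lvl w ?_
  show _ ≤ Valued.v (loc w (((S.m ^ (4 * D.k) : ℕ) : 𝓞 S.F) : S.F))
  rw [valued_natCast_pow, RingOfIntegers.coe_eq_algebraMap, map_sub, map_sub,
    ← RingOfIntegers.coe_eq_algebraMap, ← RingOfIntegers.coe_eq_algebraMap,
    show loc w (D.apx w x : S.F) - loc w (o : S.F) =
      (x - loc w (o : S.F)) - (x - loc w (D.apx w x : S.F)) by ring]
  refine (Valuation.map_sub _ _ _).trans (max_le h ((D.apx_spec w hx).trans ?_))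
  rw [exp_le_exp, D.lvl_eq]
  have := D.l_ge
  exact neg_le_neg (Int.ofNat_le.mpr (Nat.mul_le_mul_right _ (by omega)))

variable (hσ : S.IsGalGen σ) (hfix : galPlace σ w = w)
include hσ hfix

omit hσ in
theorem valued_galInt_fixed (z : 𝓞 S.F) :
    Valued.v (loc w ((galInt σ z : 𝓞 S.F) : S.F)) = Valued.v (loc w (z : S.F)) := by
  have h : ∀ w' : HeightOneSpectrum (𝓞 S.F), w' = w →
      Valued.v (loc w' (z : S.F)) = Valued.v (loc w (z : S.F)) := fun w' h => by rw [h]
  rw [valued_galInt, h _ hfix]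

omit hσ in
theorem valued_galInt_away {e : 𝓞 S.F}
    (he : ∀ u, u ≠ w → Valued.v (loc u (e : S.F)) ≤ exp (-(LT.CO.lvl (D.levelIdeal S.F) u : ℤ)))
    {u : HeightOneSpectrum (𝓞 S.F)} (hu : u ≠ w) :
    Valued.v (loc u ((galInt σ e : 𝓞 S.F) : S.F)) ≤ exp (-(LT.CO.lvl (D.levelIdeal S.F) u : ℤ)) := by
  rw [valued_galInt, ← D.exp_lvl_galPlace (σ := σ) u]
  exact he _ fun h => hu (galPlace_injective σ (h.trans hfix.symm))

omit hσ in
theorem galInt_placeIdem_sub :
    galInt σ ((D.boxF σ).placeIdem w) - (D.boxF σ).placeIdem w ∈ (D.boxF σ).lvlIdeal := by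
  have hs := Box.placeIdem_spec (P := D.boxF σ) D.lvl_pos w
  refine (Box.mem_lvlIdeal_iff (P := D.boxF σ) D.lvl_pos).mpr fun u => ?_
  rw [RingOfIntegers.coe_eq_algebraMap, map_sub, map_sub, ← RingOfIntegers.coe_eq_algebraMap,
    ← RingOfIntegers.coe_eq_algebraMap]
  rcases eq_or_ne u w with rfl | hu
  · rw [← sub_sub_sub_cancel_right _ _ (1 : u.adicCompletion S.F)]
    refine (Valuation.map_sub _ _ _).trans (max_le ?_ hs.1)
    have h := valued_galInt_fixed u hfix ((D.boxF σ).placeIdem u - 1)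
    rw [map_sub, map_one] at h
    simp only [RingOfIntegers.coe_eq_algebraMap, map_sub, map_one] at h ⊢
    rw [h]
    exact hs.1
  · exact (Valuation.map_sub _ _ _).trans
      (max_le (D.valued_galInt_away w hfix hs.2 hu) (hs.2 u hu))

theorem fixLoc_loc_int (z : 𝓞 S.F) :
    fixLoc hσ hfix (loc w (z : S.F)) = loc w ((galInt σ z : 𝓞 S.F) : S.F) := by
  rw [fixLoc_apply, fixLocHom_loc, LT.galInt_coe]

theorem small_fix {n : ℕ} {x : w.adicCompletion S.F} (hx : Fixed.Small n x) :
    Fixed.Small n (fixLoc hσ hfix x) := by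
  rw [Fixed.Small, fixLoc_apply, valued_fixLocHom]; exact hx

theorem psiAt_gal {x : w.adicCompletion S.F} (hx : Fixed.Small 0 x) :
    D.psiAt σ w (fixLoc hσ hfix x) = D.psiAt σ w x := by
  have hx' := small_fix w hσ hfix hx
  have h : Fixed.Small (4 * D.k * ordW w S.m)
      (fixLoc hσ hfix x - loc w ((galInt σ (D.apx w x) : 𝓞 S.F) : S.F)) := by
    rw [← fixLoc_loc_int w hσ hfix, ← map_sub]
    refine small_fix w hσ hfix ((D.apx_spec w hx).trans (exp_le_exp.mpr ?_))
    rw [D.lvl_eq]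
    have := D.l_ge
    exact neg_le_neg (Int.ofNat_le.mpr (Nat.mul_le_mul_right _ (by omega)))
  rw [D.psiAt_eq w hx' h, psiAt]
  set e := (D.boxF σ).placeIdem w
  rw [show ratChar D.M₁ (Algebra.trace ℤ (𝓞 S.F) (e * galInt σ (D.apx w x))) =
      ratChar D.M₁ (Algebra.trace ℤ (𝓞 S.F) (galInt σ e * galInt σ (D.apx w x))) from
    Box.ratChar_congr_mem (P := D.boxF σ) D.M₁_dvd_lvl (by
      rw [← sub_mul, ← neg_sub (galInt σ e) e, neg_mul]
      exact neg_mem (Ideal.mul_mem_right _ _ (D.galInt_placeIdem_sub w hfix))),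
    ← map_mul, trace_galInt]

theorem psiAt_tr {x : w.adicCompletion S.F} (hx : Fixed.Small 0 x)
    (ht : Fixed.Small (ordW w 3) (x + fixLoc hσ hfix x + fixLoc hσ hfix (fixLoc hσ hfix x))) :
    D.psiAt σ w x =
      D.psiAt σ w ((x + fixLoc hσ hfix x + fixLoc hσ hfix (fixLoc hσ hfix x)) / 3) := by
  set s := fixLoc hσ hfix
  set y := (x + s x + s (s x)) / 3
  have h3v := valued_three_eq w
  have h30 : (3 : w.adicCompletion S.F) ≠ 0 := fun h => by
    rw [h, map_zero] at h3v; exact exp_ne_zero h3v.symm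
  have hy : Fixed.Small 0 y := by
    rw [small_zero_iff, map_div₀, h3v, div_le_one₀ (zero_lt_iff.mpr exp_ne_zero)]
    exact ht
  have hxa := D.apx_spec w hx
  have hya := D.apx_spec w hy
  set o := D.apx w x
  set oy := D.apx w y
  have hs := Box.placeIdem_spec (P := D.boxF σ) D.lvl_pos w
  set e := (D.boxF σ).placeIdem w
  set n := LT.CO.lvl (D.levelIdeal S.F) w
  obtain ⟨r, hr, htr⟩ := IsGalGen.trace_int hσ (e * o)
  have hcong : S.inclInt r - 3 * (e * oy) ∈ (D.boxF σ).lvlIdeal := by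
    refine (Box.mem_lvlIdeal_iff (P := D.boxF σ) D.lvl_pos).mpr fun u => ?_
    rw [hr]
    rcases eq_or_ne u w with rfl | hu
    · have he : ∀ {z : 𝓞 S.F} {a : u.adicCompletion S.F},
          Valued.v (a - loc u (z : S.F)) ≤ exp (-(n : ℤ)) →
          Valued.v (loc u ((e * z : 𝓞 S.F) : S.F) - a) ≤ exp (-(n : ℤ)) := by
        intro z a h
        rw [show loc u ((e * z : 𝓞 S.F) : S.F) - a =
          (loc u (e : S.F) - 1) * loc u (z : S.F) - (a - loc u (z : S.F)) by
          simp only [RingOfIntegers.coe_eq_algebraMap, map_mul]; ring]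
        refine (Valuation.map_sub _ _ _).trans (max_le ?_ h)
        rw [map_mul]
        exact mul_le_of_le_of_le_one hs.1 (LT.CO.valued_int_le_one _)
      have d1 := he hxa
      have d2 := he hya
      rw [show loc u ((e * o + galInt σ (e * o) + galInt σ (galInt σ (e * o)) - 3 * (e * oy) :
            𝓞 S.F) : S.F) =
          (loc u ((e * o : 𝓞 S.F) : S.F) - x) + s (loc u ((e * o : 𝓞 S.F) : S.F) - x) +
            s (s (loc u ((e * o : 𝓞 S.F) : S.F) - x)) -
            3 * (loc u ((e * oy : 𝓞 S.F) : S.F) - y) by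
        simp only [map_sub, s, fixLoc_loc_int u hσ hfix]
        have hy3 : 3 * y = x + s x + s (s x) := mul_div_cancel₀ _ h30
        simp only [map_add, map_mul, map_ofNat]
        linear_combination -hy3]
      refine (Valuation.map_sub _ _ _).trans (max_le ((Valuation.map_add _ _ _).trans (max_le
        ((Valuation.map_add _ _ _).trans (max_le d1 (small_fix u hσ hfix d1)))
          (small_fix u hσ hfix (small_fix u hσ hfix d1)))) ?_)
      rw [map_mul, h3v]
      exact mul_le_of_le_one_of_le (by rw [← exp_zero, exp_le_exp]; omega) d2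
    · have hoff : ∀ z, ∀ u', u' ≠ w → Valued.v (loc u' ((e * z : 𝓞 S.F) : S.F)) ≤
          exp (-(LT.CO.lvl (D.levelIdeal S.F) u' : ℤ)) := fun z u' hu' => by
        rw [RingOfIntegers.coe_eq_algebraMap, map_mul, map_mul, map_mul,
          ← RingOfIntegers.coe_eq_algebraMap]
        exact mul_le_of_le_of_le_one (hs.2 u' hu') (LT.CO.valued_int_le_one _)
      have e1 := hoff o
      have e2 := fun u' hu' => D.valued_galInt_away w hfix e1 (u := u') hu'
      have e3 := D.valued_galInt_away w hfix e2 hu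
      simp only [map_sub, map_add]
      simp only [← RingOfIntegers.coe_eq_algebraMap]
      refine (Valuation.map_sub _ _ _).trans (max_le ((Valuation.map_add _ _ _).trans (max_le
        ((Valuation.map_add _ _ _).trans (max_le (e1 u hu) (e2 u hu))) e3)) ?_)
      rw [show (3 : 𝓞 S.F) * (e * oy) = e * (3 * oy) by ring]
      exact hoff _ u hu
  obtain ⟨c, hc⟩ := Ideal.mem_span_singleton.mp hcong
  have h1 : Algebra.trace ℤ (𝓞 S.F) (S.inclInt r - 3 * (e * oy)) =
      3 * (Algebra.trace ℤ (𝓞 S.F) (e * o) - Algebra.trace ℤ (𝓞 S.F) (e * oy)) := by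
    rw [map_sub, IsGalGen.trace_inclInt hσ, ← htr, mul_sub,
      show (3 : 𝓞 S.F) * (e * oy) = (3 : ℕ) • (e * oy) by simp [nsmul_eq_mul], map_nsmul,
      nsmul_eq_mul]
    norm_num
  rw [hc, ← nsmul_eq_mul, map_nsmul, nsmul_eq_mul] at h1
  refine ratChar_congr ?_
  have h3d : 3 * D.M₁ ∣ D.lvl := by
    refine (mul_dvd_mul_right (Setup.three_dvd_m (S := S)) _).trans ?_
    rw [M₁, ← pow_succ']
    have := D.l_ge
    exact pow_dvd_pow _ (by omega)
  obtain ⟨d, hd⟩ := Int.natCast_dvd_natCast.mpr h3d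
  refine ⟨d * Algebra.trace ℤ (𝓞 S.F) c, mul_left_cancel₀ (three_ne_zero (α := ℤ)) ?_⟩
  rw [← h1, hd]
  push_cast
  ring

/-- The local character of the level. -/
def fixChar (hm : (S.m : 𝓞 S.F) ∈ w.asIdeal) : LocChar w where
  M := loc w (((S.m ^ D.l : ℕ) : 𝓞 S.F) : S.F) / 3
  e1 := 4 * D.k * ordW w S.m
  eA := (3 * D.k - 1) * ordW w S.m
  eH := (3 * D.k - 2) * ordW w S.m
  e3 := ordW w 3
  e2 := D.l * ordW w S.m - ordW w 3
  val_M := by
    have h3 := valued_three_eq w
    rw [map_div₀, valued_natCast_pow, h3, ← exp_sub]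
    congr 1
    have := ordW_three_le w
    have : ordW w S.m ≤ D.l * ordW w S.m := Nat.le_mul_of_pos_left _ (by
      have := D.l_ge; have := D.two_le; omega)
    omega
  val_three := valued_three_eq w
  one_le_eH := by
    have h2 := D.two_le
    exact Nat.one_le_iff_ne_zero.mpr (Nat.mul_ne_zero (by omega) (by
      have := one_le_ordW w hm; omega))
  eH_add_e3 := by
    have h2 := D.two_le
    have hq := ordW_three_le w
    set p := ordW w S.m
    obtain ⟨j, hj⟩ : ∃ j, 3 * D.k = j + 2 := ⟨3 * D.k - 2, by omega⟩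
    rw [hj, show j + 2 - 2 = j from rfl, show j + 2 - 1 = j + 1 from rfl, add_mul, one_mul]
    omega
  e1_le := by
    have h2 := D.two_le
    rw [← mul_assoc]
    exact Nat.mul_le_mul_right _ (by omega)
  eA_le_e1 := Nat.mul_le_mul_right _ (by omega)
  e3_le_eH := by
    have h2 := D.two_le
    exact (ordW_three_le w).trans (Nat.le_mul_of_pos_left _ (by omega))
  e1_add := by
    have h2 := D.two_le
    have hq := ordW_three_le w
    have h := Nat.mul_le_mul_right (ordW w S.m) (show 4 * D.k + 2 ≤ 2 * (3 * D.k - 1) by omega)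
    rw [add_mul, mul_assoc 2] at h
    omega
  e1_le_e2 := by
    have h2 := D.two_le
    have hl := D.l_ge
    have hq := ordW_three_le w
    have h := Nat.mul_le_mul_right (ordW w S.m) (show 4 * D.k + 3 ≤ D.l by omega)
    rw [add_mul] at h
    omega
  two_eA_le := by
    have h2 := D.two_le
    have hl := D.l_ge
    have hq := ordW_three_le w
    have h := Nat.mul_le_mul_right (ordW w S.m) (show 2 * (3 * D.k - 1) + 1 ≤ D.l by omega)
    rw [add_mul, one_mul, mul_assoc 2] at h
    omega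
  two_e3_le := by
    have h2 := D.two_le
    have hq := ordW_three_le w
    exact le_trans (Nat.mul_le_mul_left 2 hq) (Nat.mul_le_mul_right _ (by omega))
  two_e3_le_eH := by
    have h2 := D.two_le
    have hq := ordW_three_le w
    exact le_trans (Nat.mul_le_mul_left 2 hq) (Nat.mul_le_mul_right _ (by omega))
  s := fixLoc hσ hfix
  s_three := fixLocHom_cube hσ hfix
  s_val := valued_fixLocHom hfix
  s_M := by
    rw [map_div₀, map_ofNat, show ((((S.m ^ D.l : ℕ) : 𝓞 S.F)) : S.F) = ((S.m ^ D.l : ℕ) : S.F)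
      from map_natCast (algebraMap (𝓞 S.F) S.F) _, map_natCast (loc w), map_natCast]
  psi := D.psiAt σ w
  psi_add x y hx hy := by
    have hxy : Fixed.Small 0 (x + y) := hx.add hy
    have h : Fixed.Small (4 * D.k * ordW w S.m)
        (x + y - loc w ((D.apx w x + D.apx w y : 𝓞 S.F) : S.F)) := by
      rw [show x + y - loc w ((D.apx w x + D.apx w y : 𝓞 S.F) : S.F) =
        (x - loc w (D.apx w x : S.F)) + (y - loc w (D.apx w y : S.F)) by
        simp only [RingOfIntegers.coe_eq_algebraMap, map_add]; ring]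
      have hl := D.l_ge
      refine ((Valuation.map_add _ _ _).trans (max_le (D.apx_spec w hx) (D.apx_spec w hy))).trans
        (exp_le_exp.mpr ?_)
      rw [D.lvl_eq]
      exact neg_le_neg (Int.ofNat_le.mpr (Nat.mul_le_mul_right _ (by omega)))
    rw [D.psiAt_eq w hxy h, mul_add, map_add, ratChar_add]
    rfl
  psi_small x hx := by
    rw [D.psiAt_eq w (hx.anti (Nat.zero_le _)) (o := 0) (by simpa using hx), mul_zero, map_zero,
      ratChar_zero]
  psi_gal x hx := D.psiAt_gal w hσ hfix hx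
  psi_tr x hx h := D.psiAt_tr w hσ hfix hx h
  dual_small z hz h := by
    have hs := Box.placeIdem_spec (P := D.boxF σ) D.lvl_pos w
    set e := (D.boxF σ).placeIdem w
    have hza := D.apx_spec w hz
    set o := D.apx w z
    have hl := D.l_ge
    have h2 := D.two_le
    have hq := ordW_three_le w
    have hM : D.M₁ ≠ 0 := pow_ne_zero _ S.m_ne_zero
    have hdvd : ∀ o' : 𝓞 S.F, (D.M₁ : ℤ) ∣ Algebra.trace ℤ (𝓞 S.F) (e * o * o') := fun o' => by
      rw [← ratChar_eq_one_iff hM, mul_assoc e o o',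
        ← D.psiAt_eq w (o := o * o') (x := z * loc w (o' : S.F))
          (by simpa using hz.mul (small_zero_iff.mpr (LT.CO.valued_int_le_one o'))) ?_]
      · exact h _ (small_zero_iff.mpr (LT.CO.valued_int_le_one o'))
      · rw [show z * loc w (o' : S.F) - loc w ((o * o' : 𝓞 S.F) : S.F) =
          (z - loc w (o : S.F)) * loc w (o' : S.F) by
          simp only [RingOfIntegers.coe_eq_algebraMap, map_mul]; ring, Fixed.Small, map_mul]
        refine mul_le_of_le_of_le_one (hza.trans (exp_le_exp.mpr ?_))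
          (LT.CO.valued_int_le_one _)
        rw [D.lvl_eq]
        exact neg_le_neg (Int.ofNat_le.mpr (Nat.mul_le_mul_right _ (by omega)))
    obtain ⟨c, hc⟩ := D.dual_dvd hdvd
    have h1 : Fixed.Small (3 * D.k * ordW w S.m) (loc w ((e * o : 𝓞 S.F) : S.F)) := by
      rw [hc, RingOfIntegers.coe_eq_algebraMap, map_mul, map_mul, Fixed.Small, map_mul,
        ← RingOfIntegers.coe_eq_algebraMap, valued_natCast_pow]
      exact mul_le_of_le_one_right' (LT.CO.valued_int_le_one _)
    have hle : 3 * D.k * ordW w S.m ≤ LT.CO.lvl (D.levelIdeal S.F) w := by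
      rw [D.lvl_eq]; exact Nat.mul_le_mul_right _ (by omega)
    have h4 : Fixed.Small (3 * D.k * ordW w S.m) z := by
      rw [show z = (z - loc w (o : S.F)) + (loc w ((e * o : 𝓞 S.F) : S.F) -
        (loc w (e : S.F) - 1) * loc w (o : S.F)) by
        simp only [RingOfIntegers.coe_eq_algebraMap, map_mul]; ring]
      refine Fixed.Small.add (hza.trans (exp_le_exp.mpr (by omega))) (h1.sub ?_)
      rw [Fixed.Small, map_mul]
      exact mul_le_of_le_of_le_one (hs.1.trans (exp_le_exp.mpr (show -(LT.CO.lvl (D.levelIdeal S.F) w : ℤ) ≤ _ by omega)))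
        (LT.CO.valued_int_le_one _)
    refine h4.anti ?_
    obtain ⟨j, hj⟩ : ∃ j, 3 * D.k = j + 1 := ⟨3 * D.k - 1, by omega⟩
    rw [hj, show j + 1 - 1 = j from rfl, add_mul, one_mul]
    omega

end Setup.Level

end FermatAgent.LTG

end
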