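import Mathlib
import Fermat.Agent.LT.General.Geom.Local.Fixed.Place
import Fermat.Agent.LT.General.Local.Fixed.Proj
import Fermat.Agent.LT.General.Level.Kernel

set_option autoImplicit false

/-!
# The boxes of the level on `F` at a fixed place over `m`
-/

noncomputable section

open NumberField IsDedekindDomain WithZero Matrix
open scoped MatrixGroups

namespace FermatAgent.LTG

open FermatAgent.LT (galInt galPlace loc GLv galPlace_injective)
open FermatAgent.LTG.Fixed (LocChar small_zero_iff small_zero')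

namespace Setup.Level

local notation "Pm" => Matrix.ProjGenLinGroup.mk

variable {S : Setup} (D : S.Level) {σ : S.F ≃+* S.F} (hσ : S.IsGalGen σ)
  (w : HeightOneSpectrum (𝓞 S.F)) (hfix : galPlace σ w = w) (hm : (S.m : 𝓞 S.F) ∈ w.asIdeal)

theorem small_of_lvl {j : ℕ} {x : w.adicCompletion S.F}
    (hj : j ≤ (D.l + 2) * ordW w S.m)
    (hx : Valued.v x ≤ exp (-(LT.CO.lvl (D.levelIdeal S.F) w : ℤ))) : Fixed.Small j x :=
  hx.trans (exp_le_exp.mpr (by rw [D.lvl_eq]; exact neg_le_neg (Int.ofNat_le.mpr hj)))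

theorem e1_le_lvl : (D.fixChar w hσ hfix hm).e1 ≤ (D.l + 2) * ordW w S.m :=
  Nat.mul_le_mul_right _ (by have := D.l_ge; omega)

theorem e3_le_lvl : (D.fixChar w hσ hfix hm).e3 ≤ (D.l + 2) * ordW w S.m :=
  (ordW_three_le w).trans (Nat.le_mul_of_pos_left _ (by omega))

/-- An element of the level ideal at the place lies in every box. -/
theorem boxes_of_lvl {x : w.adicCompletion S.F}
    (hx : Valued.v x ≤ exp (-(LT.CO.lvl (D.levelIdeal S.F) w : ℤ))) :
    x ∈ (D.fixChar w hσ hfix hm).boxA ∧ x ∈ (D.fixChar w hσ hfix hm).boxB₀ ∧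
      x / (D.fixChar w hσ hfix hm).M ∈ (D.fixChar w hσ hfix hm).boxC := by
  refine ⟨LocChar.small_e1_mem_boxA _ (D.small_of_lvl w (D.e1_le_lvl hσ w hfix hm) hx),
    LocChar.small_e3_mem_boxB₀ _ (D.small_of_lvl w (D.e3_le_lvl hσ w hfix hm) hx),
    LocChar.small_two_e3_mem_boxC _ ?_⟩
  refine (D.fixChar w hσ hfix hm).small_div_M (D.small_of_lvl w le_rfl hx) ?_
  show 2 * ordW w 3 + (D.l * ordW w S.m - ordW w 3) ≤ _
  have h1 := ordW_three_le w
  rw [add_mul]
  omega

theorem psi_loc {x : w.adicCompletion S.F} {b : 𝓞 S.F}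
    (h : Valued.v (x - loc w (b : S.F)) ≤ exp (-(LT.CO.lvl (D.levelIdeal S.F) w : ℤ))) :
    (D.fixChar w hσ hfix hm).psi x =
      ratChar D.M₁ (Algebra.trace ℤ (𝓞 S.F) ((D.boxF σ).placeIdem w * b)) := by
  refine D.psiAt_eq w ?_ (D.small_of_lvl w (D.e1_le_lvl hσ w hfix hm) h)
  rw [show x = (x - loc w (b : S.F)) + loc w (b : S.F) by ring]
  exact Fixed.Small.add (D.small_of_lvl w (Nat.zero_le _) h)
    (small_zero_iff.mpr (LT.CO.valued_int_le_one b))

theorem loc_tr (b : 𝓞 S.F) :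
    (D.fixChar w hσ hfix hm).tr (loc w (b : S.F)) =
      loc w ((b + galInt σ b + galInt σ (galInt σ b) : 𝓞 S.F) : S.F) := by
  show loc w (b : S.F) + fixLoc hσ hfix (loc w (b : S.F)) +
    fixLoc hσ hfix (fixLoc hσ hfix (loc w (b : S.F))) = _
  rw [fixLoc_loc_int w hσ hfix, fixLoc_loc_int w hσ hfix]
  simp only [RingOfIntegers.coe_eq_algebraMap, map_add]

theorem valued_three_int :
    Valued.v (loc w ((3 : 𝓞 S.F) : S.F)) = exp (-((D.fixChar w hσ hfix hm).e3 : ℤ)) := by
  rw [← (D.fixChar w hσ hfix hm).val_three, RingOfIntegers.coe_eq_algebraMap, map_ofNat, map_ofNat]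

theorem loc_mem_boxB {b : 𝓞 S.F} (hb : b ∈ S.boxBF σ) :
    loc w (b : S.F) ∈ (D.fixChar w hσ hfix hm).boxB := by
  refine (LocChar.mem_boxB _).mpr ⟨small_zero_iff.mpr (LT.CO.valued_int_le_one b), ?_⟩
  have h := (mem_boxBF_iff b).mp hb w ((S.mem_badPlaces_iff _ w).mpr hm)
    ((IsGalGen.isFixed_iff hσ w).mpr hfix)
  rw [D.loc_tr, Fixed.Small]
  rwa [D.valued_three_int hσ w hfix hm] at h

theorem exists_boxBF {x : w.adicCompletion S.F} (hx : x ∈ (D.fixChar w hσ hfix hm).boxB) :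
    ∃ b ∈ S.boxBF σ,
      Valued.v (x - loc w (b : S.F)) ≤ exp (-(LT.CO.lvl (D.levelIdeal S.F) w : ℤ)) := by
  have hs := Box.placeIdem_spec (P := D.boxF σ) D.lvl_pos w
  have hxa := D.apx_spec w hx.1
  set o := D.apx w x
  set e := (D.boxF σ).placeIdem w
  have hnear : Valued.v (x - loc w ((e * o : 𝓞 S.F) : S.F)) ≤
      exp (-(LT.CO.lvl (D.levelIdeal S.F) w : ℤ)) := by
    rw [show x - loc w ((e * o : 𝓞 S.F) : S.F) =
      (x - loc w (o : S.F)) - (loc w (e : S.F) - 1) * loc w (o : S.F) by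
      simp only [RingOfIntegers.coe_eq_algebraMap, map_mul]; ring]
    refine (Valuation.map_sub _ _ _).trans (max_le hxa ?_)
    rw [map_mul]
    exact mul_le_of_le_of_le_one hs.1 (LT.CO.valued_int_le_one _)
  refine ⟨e * o, (mem_boxBF_iff _).mpr fun u hu hf => ?_, hnear⟩
  rcases eq_or_ne u w with rfl | hne
  · rw [D.valued_three_int hσ u hfix hm, ← D.loc_tr hσ u hfix hm]
    have h1 : Fixed.Small (D.fixChar u hσ hfix hm).e3
        ((D.fixChar u hσ hfix hm).tr (x - loc u ((e * o : 𝓞 S.F) : S.F))) :=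
      LocChar.small_tr _ (D.small_of_lvl u (D.e3_le_lvl hσ u hfix hm) hnear)
    have h2 := Fixed.Small.sub hx.2 h1
    rwa [map_sub, sub_sub_cancel] at h2
  · have hfu := IsGalGen.galPlace_of_isFixed hσ hf
    have he : ∀ u', u' ≠ w → Valued.v (loc u' ((e * o : 𝓞 S.F) : S.F)) ≤
        exp (-(LT.CO.lvl (D.levelIdeal S.F) u' : ℤ)) := fun u' hu' => by
      rw [RingOfIntegers.coe_eq_algebraMap, map_mul, map_mul, map_mul,
        ← RingOfIntegers.coe_eq_algebraMap]
      exact mul_le_of_le_of_le_one (hs.2 u' hu') (LT.CO.valued_int_le_one _)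
    have he1 := fun u' hu' => D.valued_galInt_away w hfix he (u := u') hu'
    refine le_trans ?_ (D.exp_lvl_le_three u)
    simp only [map_add]
    simp only [← RingOfIntegers.coe_eq_algebraMap]
    exact (Valuation.map_add _ _ _).trans (max_le ((Valuation.map_add _ _ _).trans
      (max_le (he u hne) (he1 u hne))) (D.valued_galInt_away w hfix he1 hne))

theorem loc_mem_boxA {a : 𝓞 S.F} (ha : a ∈ D.boxAF σ) :
    loc w (a : S.F) ∈ (D.fixChar w hσ hfix hm).boxA := by
  refine (LocChar.mem_boxA _).mpr ⟨small_zero_iff.mpr (LT.CO.valued_int_le_one a), fun x hx => ?_⟩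
  obtain ⟨b, hb, hxb⟩ := D.exists_boxBF hσ w hfix hm hx
  rw [D.psi_loc hσ w hfix hm (b := a * b) ?_]
  · refine ratChar_of_dvd ?_
    rw [mul_left_comm]
    exact ha _ (D.idem_mul_mem_boxBF hσ
      ((Box.placeIdem_spec (P := D.boxF σ) D.lvl_pos w).isIdem D.lvl_pos) hb)
  · rw [show loc w (a : S.F) * x - loc w ((a * b : 𝓞 S.F) : S.F) =
      loc w (a : S.F) * (x - loc w (b : S.F)) by
      simp only [RingOfIntegers.coe_eq_algebraMap, map_mul]; ring, map_mul]
    exact mul_le_of_le_one_of_le (LT.CO.valued_int_le_one a) hxb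

theorem exists_boxAF {x : w.adicCompletion S.F} (hx : x ∈ (D.fixChar w hσ hfix hm).boxA) :
    ∃ a ∈ D.boxAF σ,
      Valued.v (x - loc w (a : S.F)) ≤ exp (-(LT.CO.lvl (D.levelIdeal S.F) w : ℤ)) := by
  have hs := Box.placeIdem_spec (P := D.boxF σ) D.lvl_pos w
  have hxa := D.apx_spec w hx.1
  set o := D.apx w x
  set e := (D.boxF σ).placeIdem w
  refine ⟨e * o, fun b hb => ?_, ?_⟩
  · have h := hx.2 _ (D.loc_mem_boxB hσ w hfix hm hb)
    rw [D.psi_loc hσ w hfix hm (b := o * b) ?_] at h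
    · rw [mul_assoc]
      exact (ratChar_eq_one_iff (pow_ne_zero _ S.m_ne_zero)).mp h
    · rw [show x * loc w (b : S.F) - loc w ((o * b : 𝓞 S.F) : S.F) =
        (x - loc w (o : S.F)) * loc w (b : S.F) by
        simp only [RingOfIntegers.coe_eq_algebraMap, map_mul]; ring, map_mul]
      exact mul_le_of_le_of_le_one hxa (LT.CO.valued_int_le_one b)
  · rw [show x - loc w ((e * o : 𝓞 S.F) : S.F) =
      (x - loc w (o : S.F)) - (loc w (e : S.F) - 1) * loc w (o : S.F) by
      simp only [RingOfIntegers.coe_eq_algebraMap, map_mul]; ring]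
    refine (Valuation.map_sub _ _ _).trans (max_le hxa ?_)
    rw [map_mul]
    exact mul_le_of_le_of_le_one hs.1 (LT.CO.valued_int_le_one _)

theorem loc_pow_eq :
    loc w (((S.m ^ D.l : ℕ) : 𝓞 S.F) : S.F) = 3 * (D.fixChar w hσ hfix hm).M :=
  (mul_div_cancel₀ _ (D.fixChar w hσ hfix hm).three_ne_zero).symm

/-- An element meeting the box on `F` lies in the group of the level, with the value of its
character. -/
theorem pJ_of_meetsBox {g : GLv w} {c : ℂ} (h : (D.boxF σ).MeetsBox w g c) :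
    Pm g ∈ (D.fixChar w hσ hfix hm).pJ ∧ (D.fixChar w hσ hfix hm).chiP (Pm g) = c := by
  obtain ⟨a, ha, b, hb, x, hx, d, hd, z, hz, -, hnear, rfl⟩ := h
  set C := D.fixChar w hσ hfix hm
  set k := z * g
  have hn : ∀ i j, Valued.v (k.val i j - loc w ((D.boxF σ).oBox a b x d i j : S.F)) ≤
      exp (-(LT.CO.lvl (D.levelIdeal S.F) w : ℤ)) := fun i j => hnear i j
  have key := fun i j => D.boxes_of_lvl hσ w hfix hm (hn i j)
  have n00 := (key 0 0).1
  have n01 := (key 0 1).2.1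
  have n10 := (key 1 0).2.2
  have n11 := (key 1 1).1
  simp only [Box.oBox, Matrix.of_apply, Matrix.cons_val', Matrix.cons_val_zero,
    Matrix.cons_val_one, Matrix.empty_val', Matrix.cons_val_fin_one,
    RingOfIntegers.coe_eq_algebraMap, map_add, map_one, map_mul] at n00 n01 n10 n11
  simp only [← RingOfIntegers.coe_eq_algebraMap, D.loc_pow_eq hσ w hfix hm] at n00 n01 n10 n11
  have hxB := D.loc_mem_boxB hσ w hfix hm hx
  have hk : k ∈ C.grpJ := by
    refine ⟨?_, ?_, ⟨(k.val 1 0 - 3 * C.M * loc w (x : S.F)) / C.M + 3 * loc w (x : S.F),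
      add_mem n10 ?_, ?_⟩, ?_⟩
    · rw [Matrix.sub_apply, Matrix.one_apply_eq]
      convert add_mem n00 (D.loc_mem_boxA hσ w hfix hm ha) using 1
      ring
    · rw [Matrix.sub_apply, Matrix.one_apply_ne (by decide), sub_zero]
      convert add_mem (LocChar.boxB₀_le_boxB _ n01) (D.loc_mem_boxB hσ w hfix hm hb) using 1
      ring
    · refine (C.mem_boxC).mpr ⟨C.small_three.mul_le hxB.1 (Nat.le_add_right _ _), ?_⟩
      rw [C.tr_mul_fixed (map_ofNat C.s 3)]
      exact C.small_three.mul_le hxB.2 (two_mul _).le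
    · rw [Matrix.sub_apply, Matrix.one_apply_ne (by decide), sub_zero, mul_add,
        mul_div_cancel₀ _ C.M_ne_zero]
      ring
    · rw [Matrix.sub_apply, Matrix.one_apply_eq]
      convert add_mem n11 (D.loc_mem_boxA hσ w hfix hm hd) using 1
      ring
  have e : Pm g = Pm k := by rw [map_mul, Matrix.ProjGenLinGroup.mk_eq_one.mpr hz, one_mul]
  rw [e]
  refine ⟨⟨k, hk, rfl⟩, ?_⟩
  rw [C.chiP_mk hk]
  refine D.psi_loc hσ w hfix hm ?_
  simpa [Box.oBox] using hn 0 1

/-- An element of the group of the level meets the box on `F`. -/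
theorem meetsBox_of_pJ {g : GLv w} (h : Pm g ∈ (D.fixChar w hσ hfix hm).pJ) :
    ∃ c, (D.boxF σ).MeetsBox w g c := by
  set C := D.fixChar w hσ hfix hm
  obtain ⟨k, hk, hkg⟩ := h
  obtain ⟨h00, h01, ⟨c, hc, h10⟩, h11⟩ := id hk
  rw [Matrix.sub_apply, Matrix.one_apply_eq] at h00 h11
  rw [Matrix.sub_apply, Matrix.one_apply_ne (by decide), sub_zero] at h01 h10
  obtain ⟨a, ha, hxa⟩ := D.exists_boxAF hσ w hfix hm h00
  obtain ⟨b, hb, hxb⟩ := D.exists_boxBF hσ w hfix hm h01
  obtain ⟨d, hd, hxd⟩ := D.exists_boxAF hσ w hfix hm h11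
  have hc3 : c / 3 ∈ C.boxB := by
    refine (C.mem_boxB).mpr ⟨C.small_div_three hc.1 (by omega), ?_⟩
    rw [div_eq_inv_mul, C.tr_mul_fixed (by rw [map_inv₀, map_ofNat]), ← div_eq_inv_mul]
    exact C.small_div_three hc.2 (by omega)
  obtain ⟨x, hx, hxx⟩ := D.exists_boxBF hσ w hfix hm hc3
  have hz : k * g⁻¹ ∈ Subgroup.center (GLv w) := by
    rw [← Matrix.ProjGenLinGroup.mk_eq_one, map_mul, map_inv, hkg, mul_inv_cancel]
  refine ⟨_, a, ha, b, hb, x, hx, d, hd, k * g⁻¹, hz, ?_, ?_, rfl⟩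
  · rw [inv_mul_cancel_right]
    exact Fixed.Radii.mem_locInt_of_mem C.isBox_J hk
  · rw [inv_mul_cancel_right]
    intro i j
    show Valued.v (k.val i j - loc w ((D.boxF σ).oBox a b x d i j : S.F)) ≤ _
    fin_cases i <;> fin_cases j <;>
      simp only [Box.oBox, Matrix.of_apply, Matrix.cons_val', Matrix.cons_val_zero,
        Matrix.cons_val_one, Matrix.empty_val', Matrix.cons_val_fin_one, Fin.zero_eta, Fin.mk_one,
        RingOfIntegers.coe_eq_algebraMap, map_add, map_one, map_mul] <;>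
      simp only [← RingOfIntegers.coe_eq_algebraMap]
    · rw [show k.val 0 0 - (1 + loc w (a : S.F)) = k.val 0 0 - 1 - loc w (a : S.F) by ring]
      exact hxa
    · exact hxb
    · rw [D.loc_pow_eq hσ w hfix hm, h10,
        show C.M * c - 3 * C.M * loc w (x : S.F) = 3 * C.M * (c / 3 - loc w (x : S.F)) by
          field_simp [C.three_ne_zero], map_mul]
      refine mul_le_of_le_one_of_le ?_ hxx
      rw [← D.loc_pow_eq hσ w hfix hm]
      exact LT.CO.valued_int_le_one _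
    · rw [show k.val 1 1 - (1 + loc w (d : S.F)) = k.val 1 1 - 1 - loc w (d : S.F) by ring]
      exact hxd

open Classical in
/-- The kernel of the level on `F` at the place. -/
theorem lKer_locOp_fixed (a b : GLv w) :
    LT.lKer ((D.boxF σ).locOp w) (a : LT.LCos (D.levelIdeal S.F) w)
        (b : LT.LCos (D.levelIdeal S.F) w) =
      if Pm (a⁻¹ * b) ∈ (D.fixChar w hσ hfix hm).pJ then
        ((D.fixChar w hσ hfix hm).chiP (Pm (a⁻¹ * b)))⁻¹ * (D.boxF σ).locCst w
      else 0 := by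
  obtain ⟨h1, h2⟩ := (D.isSplit_boxF hσ).lKer_locOp_entries w a b
  split_ifs with h
  · obtain ⟨c, hc⟩ := D.meetsBox_of_pJ hσ w hfix hm h
    obtain ⟨c', hc', hval⟩ := h2 c hc
    rw [hval, (D.pJ_of_meetsBox hσ w hfix hm hc').2]
  · by_contra hne
    obtain ⟨c, hc⟩ := h1 hne
    exact h (D.pJ_of_meetsBox hσ w hfix hm hc).1

end Setup.Level

end FermatAgent.LTG

end
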