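import Mathlib
import Fermat.Agent.LT.General.Geom.Local.Fixed.Boxes

set_option autoImplicit false

/-!
# The boxes of the level on `K` inside those of `F` at a fixed place over `m`

The box of `K` goes to the cubes of the fixed part of the deep group.
-/

noncomputable section

open NumberField IsDedekindDomain WithZero Matrix
open scoped MatrixGroups

namespace FermatAgent.LTG

open FermatAgent.LT (galInt galPlace loc GLv LCos lKer)
open FermatAgent.LTG.Fixed (LocChar small_zero_iff small_zero')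

namespace Fixed.LocChar

variable {L : Type*} [Field L] [NumberField L] {u : HeightOneSpectrum (𝓞 L)} (c : LocChar u)

/-- The character of a cube, a third of it. -/
theorem psi_cube {g : GLv u} (hg : g ∈ c.grpU) :
    c.psi (((3 : u.adicCompletion L)⁻¹ • ((g * g * g).val - 1)) 0 1) = c.psi (g.val 0 1) := by
  obtain ⟨a, b, ⟨x, hx, ex⟩, d⟩ := id hg
  set X := g.val - 1
  have ha := c.small_boxA a
  have hd := c.small_boxA d
  have hb : Fixed.Small 0 (X 0 1) := b.1.1
  have hx0 : Fixed.Small 0 x := Fixed.Small.anti (Nat.zero_le _) hx.1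
  have hb' : g.val 0 1 = X 0 1 := by simp [X, Matrix.one_apply_ne (show (0 : Fin 2) ≠ 1 by decide)]
  have r1 := c.e1_add
  have r2 := c.e1_le_e2
  have r3 := c.two_e3_le
  have r4 := c.eA_le_e1
  set t := (3 : u.adicCompletion L)⁻¹ *
    ((X 0 0 * X 0 0 + X 0 1 * (c.M * x)) * X 0 1 + (X 0 0 * X 0 1 + X 0 1 * X 1 1) * X 1 1)
  have e : ((3 : u.adicCompletion L)⁻¹ • ((g * g * g).val - 1)) 0 1 =
      X 0 1 + (X 0 0 * X 0 1 + X 1 1 * X 0 1) + t := by
    rw [Units.val_mul, Units.val_mul, show g.val = 1 + X from (add_sub_cancel _ _).symm,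
      Radii.cube_eq (r := c.toRadii), add_sub_cancel_left, smul_smul,
      inv_mul_cancel₀ c.three_ne_zero, one_smul]
    simp only [t, Matrix.add_apply, Matrix.smul_apply, smul_eq_mul, Matrix.mul_apply,
      Fin.sum_univ_two, ex]
    ring
  have ht : Fixed.Small c.e1 t := by
    simp only [t, inv_mul_eq_div]
    exact c.small_div_three (m := c.e1 + c.e3)
      (((((ha.mul_le ha (by omega) : Fixed.Small (c.e1 + c.e3) _)).add
        (hb.mul_le (c.small_M.mul hx0) (by omega))).mul_le hb le_rfl).add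
        (((ha.mul_le hb (k := c.eA) (by omega)).add (hb.mul_le hd (by omega))).mul_le hd
          (by omega))) le_rfl
  have h0 : Fixed.Small 0 (X 0 0 * X 0 1) := a.1.mul hb
  have h1 : Fixed.Small 0 (X 1 1 * X 0 1) := d.1.mul hb
  rw [e, c.psi_add _ _ (hb.add (h0.add h1)) (ht.anti (Nat.zero_le _)), c.psi_small _ ht, mul_one,
    c.psi_add _ _ hb (h0.add h1), c.psi_add _ _ h0 h1, a.2 _ b.1, d.2 _ b.1, mul_one, mul_one, hb']

end Fixed.LocChar

namespace Setup.Level

local notation "Pm" => Matrix.ProjGenLinGroup.mk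

variable {S : Setup} (D : S.Level)

theorem exp_lvl_incl {v : HeightOneSpectrum (𝓞 S.K)} (w : S.OverK v) :
    exp (-(LT.CO.lvl (D.levelIdeal S.F) w.1 : ℤ)) =
      exp (-(LT.CO.lvl (D.levelIdeal S.K) v : ℤ)) ^ S.ramAt w.1 := by
  have hF := Box.valued_natCast_N (⟨⊥, ⊥, 0, 0, D.lvl⟩ : Box S.F) D.lvl_pos w.1
  have hK := Box.valued_natCast_N (⟨⊥, ⊥, 0, 0, D.lvl⟩ : Box S.K) D.lvl_pos v
  rw [show exp (-(LT.CO.lvl (D.levelIdeal S.F) w.1 : ℤ)) = _ from hF.symm,
    show exp (-(LT.CO.lvl (D.levelIdeal S.K) v : ℤ)) = _ from hK.symm, ← valued_inclOver_pow,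
    S.inclOver_loc]
  simp

theorem valued_incl_lvl_iff {σ : S.F ≃+* S.F} (hσ : S.IsGalGen σ) {v : HeightOneSpectrum (𝓞 S.K)}
    (w : S.OverK v) (x : v.adicCompletion S.K) :
    Valued.v (S.inclOver w x) ≤ exp (-(LT.CO.lvl (D.levelIdeal S.F) w.1 : ℤ)) ↔
      Valued.v x ≤ exp (-(LT.CO.lvl (D.levelIdeal S.K) v : ℤ)) := by
  rw [D.exp_lvl_incl w, valued_inclOver_pow,
    pow_le_pow_iff_left₀ zero_le zero_le (ramAt_ne_zero' hσ w)]

variable {σ : S.F ≃+* S.F} (hσ : S.IsGalGen σ) {v : HeightOneSpectrum (𝓞 S.K)}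
  (w : S.OverK v) (hfix : galPlace σ w.1 = w.1) (hm : (S.m : 𝓞 S.F) ∈ w.1.asIdeal)

theorem s_inclOver (x : v.adicCompletion S.K) :
    (D.fixChar w.1 hσ hfix hm).s (S.inclOver w x) = S.inclOver w x :=
  fixLoc_inclOver hσ hfix w.2 x

theorem inclOver_loc_int (x : 𝓞 S.K) :
    S.inclOver w (loc v (x : S.K)) = loc w.1 ((S.inclInt x : 𝓞 S.F) : S.F) := by
  rw [S.inclOver_loc, coe_inclInt]

/-- The character of an element of `K`. -/
theorem psi_incl {y : v.adicCompletion S.K} (hy : Valued.v y ≤ 1) {r : 𝓞 S.K}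
    (hr : Valued.v (loc v (r : S.K) - 3 * y) ≤ exp (-(LT.CO.lvl (D.levelIdeal S.K) v : ℤ))) :
    (D.fixChar w.1 hσ hfix hm).psi (S.inclOver w y) =
      ratChar D.M₁ (Algebra.trace ℤ (𝓞 S.K) (D.boxK.placeIdem v * r)) := by
  obtain ⟨b, hb⟩ := LT.exists_int_close v hy (LT.CO.lvl (D.levelIdeal S.K) v)
  have hb' : Valued.v (S.inclOver w y - loc w.1 ((S.inclInt b : 𝓞 S.F) : S.F)) ≤
      exp (-(LT.CO.lvl (D.levelIdeal S.F) w.1 : ℤ)) := by
    rw [← inclOver_loc_int, ← map_sub, D.valued_incl_lvl_iff hσ]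
    exact hb
  rw [D.psi_loc hσ w.1 hfix hm hb']
  have hs := Box.placeIdem_spec (P := D.boxF σ) D.lvl_pos w.1
  have hsK := Box.placeIdem_spec (P := D.boxK) D.lvl_pos v
  set e := (D.boxF σ).placeIdem w.1
  set eK := D.boxK.placeIdem v
  obtain ⟨r', hr', htr⟩ := IsGalGen.trace_int hσ (e * S.inclInt b)
  rw [htr]
  refine Box.ratChar_congr_mem (P := D.boxK) D.M₁_dvd_lvl ?_
  refine (Box.mem_lvlIdeal_iff (P := D.boxK) D.lvl_pos).mpr fun v' => ?_
  rcases eq_or_ne v' v with rfl | hv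
  · rw [← D.valued_incl_lvl_iff hσ w, inclOver_loc_int w, map_sub S.inclInt, hr']
    set z := e * S.inclInt b
    have hd : Valued.v (loc w.1 (z : S.F) - S.inclOver w y) ≤
        exp (-(LT.CO.lvl (D.levelIdeal S.F) w.1 : ℤ)) := by
      rw [show loc w.1 (z : S.F) - S.inclOver w y =
        (loc w.1 (e : S.F) - 1) * loc w.1 ((S.inclInt b : 𝓞 S.F) : S.F) -
          (S.inclOver w y - loc w.1 ((S.inclInt b : 𝓞 S.F) : S.F)) by
        simp only [z, RingOfIntegers.coe_eq_algebraMap, map_mul]; ring]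
      refine (Valuation.map_sub _ _ _).trans (max_le ?_ hb')
      rw [map_mul]
      exact mul_le_of_le_of_le_one hs.1 (LT.CO.valued_int_le_one _)
    have hr2 : Valued.v (loc w.1 ((S.inclInt (eK * r) : 𝓞 S.F) : S.F) - 3 * S.inclOver w y) ≤
        exp (-(LT.CO.lvl (D.levelIdeal S.F) w.1 : ℤ)) := by
      rw [← inclOver_loc_int, ← map_ofNat (S.inclOver w) 3, ← map_mul, ← map_sub,
        D.valued_incl_lvl_iff hσ, show loc v' ((eK * r : 𝓞 S.K) : S.K) - 3 * y =
          (loc v' (eK : S.K) - 1) * loc v' (r : S.K) + (loc v' (r : S.K) - 3 * y) by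
        simp only [RingOfIntegers.coe_eq_algebraMap, map_mul]; ring]
      refine (Valuation.map_add _ _ _).trans (max_le ?_ hr)
      rw [map_mul]
      exact mul_le_of_le_of_le_one hsK.1 (LT.CO.valued_int_le_one _)
    set d := loc w.1 (z : S.F) - S.inclOver w y
    set s := fixLoc hσ hfix
    have hsy : s (S.inclOver w y) = S.inclOver w y := fixLoc_inclOver hσ hfix w.2 y
    rw [show loc w.1 ((z + galInt σ z + galInt σ (galInt σ z) - S.inclInt (eK * r) : 𝓞 S.F) : S.F) =
      d + s d + s (s d) -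
        (loc w.1 ((S.inclInt (eK * r) : 𝓞 S.F) : S.F) - 3 * S.inclOver w y) by
      simp only [d, map_sub, hsy, s, fixLoc_loc_int w.1 hσ hfix]
      simp only [RingOfIntegers.coe_eq_algebraMap, map_add]
      ring]
    exact (Valuation.map_sub _ _ _).trans (max_le ((Valuation.map_add _ _ _).trans (max_le
      ((Valuation.map_add _ _ _).trans (max_le hd (small_fix w.1 hσ hfix hd)))
        (small_fix w.1 hσ hfix (small_fix w.1 hσ hfix hd)))) hr2)
  · obtain ⟨u⟩ := exists_overK_place S v'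
    have hu : u.1 ≠ w.1 := fun h => hv (by rw [← u.2, h, w.2])
    have e1 : ∀ u', u' ≠ w.1 → Valued.v (loc u' ((e * S.inclInt b : 𝓞 S.F) : S.F)) ≤
        exp (-(LT.CO.lvl (D.levelIdeal S.F) u' : ℤ)) := fun u' hu' => by
      rw [RingOfIntegers.coe_eq_algebraMap, map_mul, map_mul, map_mul,
        ← RingOfIntegers.coe_eq_algebraMap]
      exact mul_le_of_le_of_le_one (hs.2 u' hu') (LT.CO.valued_int_le_one _)
    have e2 := fun u' hu' => D.valued_galInt_away w.1 hfix e1 (u := u') hu'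
    have h1 : Valued.v (loc v' (r' : S.K)) ≤ exp (-(LT.CO.lvl (D.levelIdeal S.K) v' : ℤ)) := by
      rw [← D.valued_incl_lvl_iff hσ u, inclOver_loc_int u, hr']
      simp only [map_add]
      simp only [← RingOfIntegers.coe_eq_algebraMap]
      exact (Valuation.map_add _ _ _).trans (max_le ((Valuation.map_add _ _ _).trans (max_le
        (e1 _ hu) (e2 _ hu))) (D.valued_galInt_away w.1 hfix e2 hu))
    have h2 : Valued.v (loc v' ((eK * r : 𝓞 S.K) : S.K)) ≤
        exp (-(LT.CO.lvl (D.levelIdeal S.K) v' : ℤ)) := by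
      rw [RingOfIntegers.coe_eq_algebraMap, map_mul, map_mul, map_mul,
        ← RingOfIntegers.coe_eq_algebraMap]
      exact mul_le_of_le_of_le_one (hsK.2 v' hv) (LT.CO.valued_int_le_one _)
    rw [RingOfIntegers.coe_eq_algebraMap, map_sub, map_sub, ← RingOfIntegers.coe_eq_algebraMap,
      ← RingOfIntegers.coe_eq_algebraMap]
    exact (Valuation.map_sub _ _ _).trans (max_le h1 h2)

include hσ hfix hm in
theorem isFixed_bad : v ∈ S.badPlaces S.K ∧ S.IsFixed v := by
  constructor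
  · rw [S.mem_badPlaces_iff, ← w.2, S.natCast_mem_underK]
    exact hm
  · rw [← w.2]
    exact (IsGalGen.isFixed_iff hσ w.1).mpr hfix

theorem incl_three :
    S.inclOver w (loc v ((3 : 𝓞 S.K) : S.K)) = 3 := by
  rw [RingOfIntegers.coe_eq_algebraMap, map_ofNat, map_ofNat, map_ofNat]

theorem small_incl_boxBK {b : 𝓞 S.K} (hb : b ∈ S.boxBK) :
    Fixed.Small (D.fixChar w.1 hσ hfix hm).e3 (S.inclOver w (loc v (b : S.K))) := by
  obtain ⟨h1, h2⟩ := isFixed_bad hσ w hfix hm
  have h := (mem_boxBK_iff b).mp hb v h1 h2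
  rw [Fixed.Small, ← (D.fixChar w.1 hσ hfix hm).val_three, ← incl_three w, valued_inclOver_pow,
    valued_inclOver_pow]
  exact pow_le_pow_left₀ zero_le h _

theorem third_boxBK_mem {b : 𝓞 S.K} (hb : b ∈ S.boxBK) :
    S.inclOver w (loc v (b : S.K) / 3) ∈ (D.fixChar w.1 hσ hfix hm).boxB₀ := by
  refine LocChar.fixed_mem_boxB₀ _ ?_ (D.s_inclOver hσ w hfix hm _)
  rw [map_div₀, map_ofNat]
  exact (D.fixChar w.1 hσ hfix hm).small_div_three (D.small_incl_boxBK hσ w hfix hm hb)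
    (by rw [zero_add])

include hσ in
theorem small_incl_boxAK {a : 𝓞 S.K} (ha : a ∈ D.boxAK) :
    Fixed.Small (3 * D.k * ordW w.1 S.m) (S.inclOver w (loc v (a : S.K))) := by
  obtain ⟨c, hc⟩ := D.dual_dvd (y := S.inclInt a) fun o => by
    obtain ⟨r, hr, htr⟩ := IsGalGen.trace_int hσ (S.inclInt a * o)
    obtain ⟨s, hs, -⟩ := IsGalGen.trace_int hσ o
    have he : r = a * s := S.inclInt_injective (by
      rw [hr, map_mul S.inclInt, hs]
      simp only [map_mul, IsGalGen.galInt_inclInt hσ]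
      ring)
    rw [htr, he]
    exact ha s
  rw [inclOver_loc_int, hc, RingOfIntegers.coe_eq_algebraMap, map_mul, map_mul, Fixed.Small,
    map_mul, ← RingOfIntegers.coe_eq_algebraMap, valued_natCast_pow]
  exact mul_le_of_le_one_right' (LT.CO.valued_int_le_one c)

theorem third_boxAK_mem {a : 𝓞 S.K} (ha : a ∈ D.boxAK) :
    S.inclOver w (loc v (a : S.K) / 3) ∈ (D.fixChar w.1 hσ hfix hm).boxA := by
  set C := D.fixChar w.1 hσ hfix hm
  set x := S.inclOver w (loc v (a : S.K) / 3) with hx_def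
  have hsx : C.s x = x := D.s_inclOver hσ w hfix hm _
  have hxs : Fixed.Small C.e3 x := by
    rw [hx_def, map_div₀, map_ofNat]
    refine C.small_div_three (D.small_incl_boxAK hσ w ha) ?_
    show ordW w.1 3 + ordW w.1 3 ≤ _
    have h2 := D.two_le
    refine le_trans (by have := ordW_three_le w.1; omega : _ ≤ 2 * ordW w.1 S.m)
      (Nat.mul_le_mul_right _ (by omega))
  have hx0 : Fixed.Small 0 x := hxs.anti (Nat.zero_le _)
  refine (C.mem_boxA).mpr ⟨hx0, fun b hb => ?_⟩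
  obtain ⟨hy0, hys⟩ := C.tr_third_fixed_small hb
  obtain ⟨y, hy⟩ := exists_inclOver_of_fixed hσ w hfix hys
  rw [C.psi_tr _ (hx0.mul hb.1) (by
      rw [← C.tr_apply, C.tr_mul_fixed hsx]; exact hxs.mul_le (C.small_tr hb.1) le_self_add),
    ← C.tr_apply, C.tr_mul_fixed hsx, mul_div_assoc, ← hy, hx_def, ← map_mul]
  have hy1 : Valued.v y ≤ 1 := by
    rw [← valued_incl_le_one_iff hσ w, hy]; exact small_zero_iff.mp hy0
  obtain ⟨o, ho⟩ := LT.exists_int_close v hy1 (LT.CO.lvl (D.levelIdeal S.K) v)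
  rw [D.psi_incl hσ w hfix hm (r := a * o) ?_ ?_]
  · refine ratChar_of_dvd ?_
    rw [mul_left_comm]
    exact ha _
  · rw [← valued_incl_le_one_iff hσ w, map_mul, map_mul]
    exact mul_le_one' (small_zero_iff.mp hx0) ((valued_incl_le_one_iff hσ w y).mpr hy1)
  · have h30 : (3 : v.adicCompletion S.K) ≠ 0 := by rw [← map_ofNat (loc v) 3]; simp
    rw [show loc v ((a * o : 𝓞 S.K) : S.K) - 3 * (loc v (a : S.K) / 3 * y) =
      -(loc v (a : S.K) * (y - loc v (o : S.K))) by
      simp only [RingOfIntegers.coe_eq_algebraMap, map_mul]; field_simp; ring, Valuation.map_neg,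
      map_mul]
    exact mul_le_of_le_one_of_le (LT.CO.valued_int_le_one a) ho

set_option maxHeartbeats 500000 in
/-- An element meeting the box on `K` is the cube of a fixed element of the deep group. -/
theorem cube_of_meetsBox {g : GLv v} {c : ℂ} (h : D.boxK.MeetsBox v g c) :
    ∃ x ∈ (D.fixChar w.1 hσ hfix hm).pU,
      (D.fixChar w.1 hσ hfix hm).pS x = x ∧ x * x * x = Pm (inclGL w g) ∧
        (D.fixChar w.1 hσ hfix hm).chiP x = c := by
  obtain ⟨a, ha, b, hb, x, hx, d, hd, z, hz, hint, hnear, rfl⟩ := h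
  set C := D.fixChar w.1 hσ hfix hm
  set k := z * g
  have hz' : Pm (inclGL w z) = 1 := by
    rw [Matrix.ProjGenLinGroup.mk_eq_one]
    exact Matrix.GeneralLinearGroup.map_center_le _ hz
  have hn : ∀ i j, Valued.v (k.val i j - loc v (D.boxK.oBox a b x d i j : S.K)) ≤
      exp (-(LT.CO.lvl (D.levelIdeal S.K) v : ℤ)) := fun i j => hnear i j
  have hwn : ∀ i j,
      S.inclOver w (k.val i j - loc v (D.boxK.oBox a b x d i j : S.K)) / 3 ∈ C.boxA ∧
      S.inclOver w (k.val i j - loc v (D.boxK.oBox a b x d i j : S.K)) / 3 ∈ C.boxB₀ ∧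
      S.inclOver w (k.val i j - loc v (D.boxK.oBox a b x d i j : S.K)) / 3 / C.M ∈ C.boxC := by
    intro i j
    have hs := D.small_of_lvl w.1 (le_refl _) ((D.valued_incl_lvl_iff hσ w _).mpr (hn i j))
    have hl := D.l_ge
    have hq := ordW_three_le w.1
    refine ⟨C.small_e1_mem_boxA (C.small_div_three hs ?_),
      C.small_e3_mem_boxB₀ (C.small_div_three hs ?_),
      C.small_two_e3_mem_boxC (C.small_div_M (m := 2 * C.e3 + C.e2) (C.small_div_three hs ?_)
        le_rfl)⟩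
    · show 4 * D.k * _ + ordW w.1 3 ≤ _
      refine le_trans (Nat.add_le_add_left hq _) ?_
      rw [← Nat.succ_mul]
      exact Nat.mul_le_mul_right _ (by omega)
    · show ordW w.1 3 + ordW w.1 3 ≤ _
      refine le_trans (Nat.add_le_add hq hq) ?_
      rw [← two_mul]
      exact Nat.mul_le_mul_right _ (by omega)
    · show 2 * ordW w.1 3 + (D.l * _ - ordW w.1 3) + ordW w.1 3 ≤ _
      have : ordW w.1 S.m ≤ D.l * ordW w.1 S.m := Nat.le_mul_of_pos_left _ (by
        have := D.two_le; omega)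
      rw [add_mul]
      omega
  have hsplit : ∀ i j, S.inclOver w (k.val i j) / 3 =
      S.inclOver w (k.val i j - loc v (D.boxK.oBox a b x d i j : S.K)) / 3 +
        S.inclOver w (loc v (D.boxK.oBox a b x d i j : S.K)) / 3 := fun i j => by
    rw [map_sub]; ring
  have hM : S.inclOver w (loc v (((S.m ^ D.l : ℕ) : 𝓞 S.K) : S.K)) = 3 * C.M := by
    rw [inclOver_loc_int, map_natCast]
    exact D.loc_pow_eq hσ w.1 hfix hm
  have h3 : ∀ {y : v.adicCompletion S.K}, S.inclOver w (y / 3) = S.inclOver w y / 3 := fun {y} => by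
    rw [map_div₀, map_ofNat]
  have hb3 := D.third_boxBK_mem hσ w hfix hm hb
  rw [h3] at hb3
  have hka : ∀ {e : 𝓞 S.K}, e ∈ D.boxAK → ∀ i, D.boxK.oBox a b x d i i = 1 + e →
      S.inclOver w (k.val i i - 1) / 3 ∈ C.boxA := fun {e} he i hi => by
    have h1 := D.third_boxAK_mem hσ w hfix hm he
    rw [h3] at h1
    have h2 := add_mem (hwn i i).1 h1
    rw [hi] at h2
    convert h2 using 1
    simp only [RingOfIntegers.coe_eq_algebraMap, map_add, map_one, map_sub]
    ring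
  have hX : C.InBox C.boxA C.boxB₀ C.boxC
      ((3 : w.1.adicCompletion S.F)⁻¹ • ((inclGL w k).val - 1)) := by
    refine ⟨?_, ?_, ⟨S.inclOver w (k.val 1 0 - loc v (D.boxK.oBox a b x d 1 0 : S.K)) / 3 / C.M +
      S.inclOver w (loc v (x : S.K)), add_mem (hwn 1 0).2.2 ?_, ?_⟩, ?_⟩
    · convert hka ha 0 rfl using 1
      simp [inclGL, inv_mul_eq_div, map_sub]
    · convert add_mem (hwn 0 1).2.1 hb3 using 1
      simp [inclGL, inv_mul_eq_div, map_sub, sub_div, Box.oBox]
    · have hxs := D.small_incl_boxBK hσ w hfix hm hx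
      refine (C.mem_boxC).mpr ⟨hxs, ?_⟩
      rw [C.tr_fixed (D.s_inclOver hσ w hfix hm _)]
      exact C.small_three.mul_le hxs (two_mul _).le
    · rw [mul_add, mul_div_cancel₀ _ C.M_ne_zero]
      have e10 : S.inclOver w (loc v (D.boxK.oBox a b x d 1 0 : S.K)) / 3 =
          C.M * S.inclOver w (loc v (x : S.K)) := by
        simp only [Box.oBox, Matrix.of_apply, Matrix.cons_val', Matrix.cons_val_zero,
          Matrix.cons_val_one, Matrix.empty_val', Matrix.cons_val_fin_one,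
          RingOfIntegers.coe_eq_algebraMap, map_mul]
        simp only [← RingOfIntegers.coe_eq_algebraMap, hM]
        field_simp [C.three_ne_zero]
      rw [← e10, ← hsplit]
      simp [inclGL, inv_mul_eq_div]
    · convert hka hd 1 rfl using 1
      simp [inclGL, inv_mul_eq_div, map_sub]
  obtain ⟨r, hr, hr3⟩ := Fixed.Radii.exists_cube_root_grp C.isBox_J₀ (fun _ => C.small_boxA) hX
  have hsr : C.sMap r = r := Fixed.Radii.cube_unique_grp C.isBox_J₀ (fun _ => C.small_boxA)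
    (C.sMap_grpU hr) hr (by rw [← map_mul, ← map_mul, hr3]; exact inclGL_fixLoc hσ w hfix k)
  refine ⟨Pm r, ⟨r, hr, rfl⟩, by rw [C.pS_mk, hsr], ?_, ?_⟩
  · rw [← map_mul, ← map_mul, hr3]
    simp only [k, map_mul, hz', one_mul]
  · rw [C.chiP_mk (C.grpU_le_grpJ hr), ← C.psi_cube hr, hr3]
    rw [show ((3 : w.1.adicCompletion S.F)⁻¹ • ((inclGL w k).val - 1)) 0 1 =
        S.inclOver w (k.val 0 1 / 3) by simp [inclGL, inv_mul_eq_div, map_ofNat]]
    refine D.psi_incl hσ w hfix hm ?_ ?_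
    · have h := hX.2.1.1.1
      rw [show ((3 : w.1.adicCompletion S.F)⁻¹ • ((inclGL w k).val - 1)) 0 1 =
        S.inclOver w (k.val 0 1 / 3) by simp [inclGL, inv_mul_eq_div, map_ofNat]] at h
      exact (valued_incl_le_one_iff hσ w _).mp (small_zero_iff.mp h)
    · have h30 : (3 : v.adicCompletion S.K) ≠ 0 := by rw [← map_ofNat (loc v) 3]; simp
      rw [mul_div_cancel₀ _ h30, Valuation.map_sub_swap]
      simpa [Box.oBox] using hn 0 1

set_option maxHeartbeats 500000 in
/-- A cube of a fixed element of the deep group meets the box on `K`. -/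
theorem meetsBox_of_cube {g : GLv v} {x : PGL(2, w.1.adicCompletion S.F)}
    (hx : x ∈ (D.fixChar w.1 hσ hfix hm).pU) (hs : (D.fixChar w.1 hσ hfix hm).pS x = x)
    (h3g : x * x * x = Pm (inclGL w g)) : ∃ c, D.boxK.MeetsBox v g c := by
  set C := D.fixChar w.1 hσ hfix hm
  obtain ⟨r₀, hr₀, rfl⟩ := hx
  rw [C.pS_mk] at hs
  obtain ⟨r, hr, hrr, hrs⟩ := C.exists_fixed_rep C.isBox_J₀ hr₀ hs
  obtain ⟨r', rfl⟩ := exists_inclGL_of_fixed hσ w hfix hrs
  rw [← hrr, ← map_mul, ← map_mul, ← map_mul, ← map_mul] at h3g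
  set k := r' * r' * r'
  have hz : k * g⁻¹ ∈ Subgroup.center (GLv v) := center_of_inclGL w (by
    rw [← Matrix.ProjGenLinGroup.mk_eq_one, map_mul, map_mul, h3g, map_inv, map_inv,
      mul_inv_cancel])
  have hX : C.InBox C.boxA C.boxB₀ C.boxC
      ((3 : w.1.adicCompletion S.F)⁻¹ • ((inclGL w k).val - 1)) := by
    simp only [k, map_mul]
    exact Fixed.Radii.cube_sub_one C.isBox_J₀ (fun _ => C.small_boxA) hr
  have hint : k ∈ LT.CO.locCongr v 0 := by
    have h1 := Fixed.Radii.mem_locInt_of_mem C.isBox_J₀ (pow_mem hr 3)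
    rw [show (inclGL w r') ^ 3 = inclGL w k by simp [k, pow_three']] at h1
    refine LT.CO.mem_locCongr_zero_of_det (LT.CO.smallM_of_le_one fun i j => ?_) ?_
    · rw [← valued_incl_le_one_iff hσ w]
      exact (LT.CO.smallM_of_mem h1).le_one i j
    · have h2 := LT.CO.valued_det_eq_one h1
      rw [show (inclGL w k).val.det = S.inclOver w k.val.det from ((S.inclOver w).map_det _).symm,
        valued_inclOver_pow] at h2
      exact (pow_eq_one_iff_of_nonneg zero_le (ramAt_ne_zero' hσ w)).mp h2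
  obtain ⟨h00, h01, ⟨c, hc, h10⟩, h11⟩ := hX
  have hent : ∀ i j, ((3 : w.1.adicCompletion S.F)⁻¹ • ((inclGL w k).val - 1)) i j =
      S.inclOver w ((k.val i j - (1 : Matrix (Fin 2) (Fin 2) (v.adicCompletion S.K)) i j) / 3) :=
    fun i j => by
      fin_cases i <;> fin_cases j <;> simp [inclGL, inv_mul_eq_div, map_sub, map_ofNat]
  rw [hent] at h00 h01 h10 h11
  have hsK := Box.placeIdem_spec (P := D.boxK) D.lvl_pos v
  set eK := D.boxK.placeIdem v
  have h30 : (3 : v.adicCompletion S.K) ≠ 0 := by rw [← map_ofNat (loc v) 3]; simp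
  -- integers near the entries
  have happ : ∀ y : v.adicCompletion S.K, Fixed.Small 0 (S.inclOver w y) →
      ∃ o : 𝓞 S.K, Valued.v (3 * y - loc v ((eK * o : 𝓞 S.K) : S.K)) ≤
        exp (-(LT.CO.lvl (D.levelIdeal S.K) v : ℤ)) ∧ Valued.v y ≤ 1 := by
    intro y hy
    have hy1 : Valued.v y ≤ 1 := (valued_incl_le_one_iff hσ w y).mp (small_zero_iff.mp hy)
    have h3y : Valued.v (3 * y) ≤ 1 := by
      rw [map_mul]
      refine mul_le_one' ?_ hy1
      rw [← map_ofNat (loc v) 3]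
      exact_mod_cast LT.CO.valued_int_le_one (L := S.K) (v := v) 3
    obtain ⟨o, ho⟩ := LT.exists_int_close v h3y (LT.CO.lvl (D.levelIdeal S.K) v)
    refine ⟨o, ?_, hy1⟩
    rw [show 3 * y - loc v ((eK * o : 𝓞 S.K) : S.K) =
      (3 * y - loc v (o : S.K)) - (loc v (eK : S.K) - 1) * loc v (o : S.K) by
      simp only [RingOfIntegers.coe_eq_algebraMap, map_mul]; ring]
    refine (Valuation.map_sub _ _ _).trans (max_le ho ?_)
    rw [map_mul]
    exact mul_le_of_le_of_le_one hsK.1 (LT.CO.valued_int_le_one _)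
  have hA : ∀ y : v.adicCompletion S.K, S.inclOver w y ∈ C.boxA →
      ∃ a ∈ D.boxAK, Valued.v (3 * y - loc v (a : S.K)) ≤
        exp (-(LT.CO.lvl (D.levelIdeal S.K) v : ℤ)) := by
    intro y hy
    obtain ⟨o, ho, hy1⟩ := happ y hy.1
    refine ⟨eK * o, fun o' => ?_, ho⟩
    have h := hy.2 (S.inclOver w (loc v (o' : S.K))) (C.fixed_mem_boxB
      (small_zero_iff.mpr ((valued_incl_le_one_iff hσ w _).mpr (LT.CO.valued_int_le_one o')))
      (D.s_inclOver hσ w hfix hm _))
    rw [← map_mul, D.psi_incl hσ w hfix hm (r := eK * o * o') (by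
      rw [map_mul]; exact mul_le_one' hy1 (LT.CO.valued_int_le_one _)) (by
      rw [show loc v ((eK * o * o' : 𝓞 S.K) : S.K) - 3 * (y * loc v (o' : S.K)) =
        -((3 * y - loc v ((eK * o : 𝓞 S.K) : S.K)) * loc v (o' : S.K)) by
        simp only [RingOfIntegers.coe_eq_algebraMap, map_mul]; ring, Valuation.map_neg, map_mul]
      exact mul_le_of_le_of_le_one ho (LT.CO.valued_int_le_one _))] at h
    have h' := (ratChar_eq_one_iff (pow_ne_zero _ S.m_ne_zero)).mp h
    have hi := hsK.isIdem D.lvl_pos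
    obtain ⟨q, hq⟩ := Ideal.mem_span_singleton.mp
      (Ideal.mul_mem_right (o * o') _ hi : (eK * eK - eK) * (o * o') ∈ D.boxK.lvlIdeal)
    have h'' : (D.M₁ : ℤ) ∣ Algebra.trace ℤ (𝓞 S.K) (eK * (eK * o * o')) -
        Algebra.trace ℤ (𝓞 S.K) (eK * o * o') := by
      rw [← map_sub, show eK * (eK * o * o') - eK * o * o' = (eK * eK - eK) * (o * o') by ring, hq]
      exact dvd_trace_natCast_mul D.M₁_dvd_lvl q
    exact (dvd_sub_right h').mp h''
  have hB : ∀ y : v.adicCompletion S.K, Fixed.Small 0 (S.inclOver w y) →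
      ∃ b ∈ S.boxBK, Valued.v (3 * y - loc v (b : S.K)) ≤
        exp (-(LT.CO.lvl (D.levelIdeal S.K) v : ℤ)) := by
    intro y hy
    obtain ⟨o, ho, hy1⟩ := happ y hy
    refine ⟨eK * o, (mem_boxBK_iff _).mpr fun v' _ _ => ?_, ho⟩
    rcases eq_or_ne v' v with rfl | hv
    · rw [show loc v' ((eK * o : 𝓞 S.K) : S.K) =
        3 * y - (3 * y - loc v' ((eK * o : 𝓞 S.K) : S.K)) by ring]
      refine (Valuation.map_sub _ _ _).trans (max_le ?_ (ho.trans (D.exp_lvl_le_three v')))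
      rw [map_mul, show loc v' ((3 : 𝓞 S.K) : S.K) = 3 by
        rw [RingOfIntegers.coe_eq_algebraMap, map_ofNat, map_ofNat]]
      exact mul_le_of_le_one_right' hy1
    · refine le_trans ?_ (D.exp_lvl_le_three v')
      rw [RingOfIntegers.coe_eq_algebraMap, map_mul, map_mul, map_mul,
        ← RingOfIntegers.coe_eq_algebraMap]
      exact mul_le_of_le_of_le_one (hsK.2 v' hv) (LT.CO.valued_int_le_one _)
  obtain ⟨a, ha, hna⟩ := hA _ h00
  obtain ⟨b, hb, hnb⟩ := hB _ h01.1.1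
  obtain ⟨d, hd, hnd⟩ := hA _ h11
  set M : v.adicCompletion S.K := loc v (((S.m ^ D.l : ℕ) : 𝓞 S.K) : S.K)
  have hM : S.inclOver w M = 3 * C.M := by
    rw [inclOver_loc_int, map_natCast]
    exact D.loc_pow_eq hσ w.1 hfix hm
  have hM0 : M ≠ 0 := fun h => by
    rw [h, map_zero, eq_comm, mul_eq_zero] at hM
    exact hM.elim C.three_ne_zero C.M_ne_zero
  have hc3 : S.inclOver w (k.val 1 0 / M / 3) = c / 3 := by
    rw [Matrix.one_apply_ne (by decide), sub_zero, map_div₀, map_ofNat] at h10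
    rw [map_div₀, map_div₀, map_ofNat, hM, show S.inclOver w (k.val 1 0) = 3 * (C.M * c) by
      rw [← h10, mul_div_cancel₀ _ C.three_ne_zero]]
    field_simp [C.three_ne_zero, C.M_ne_zero]
  obtain ⟨x, hx, hnx⟩ := hB (k.val 1 0 / M / 3) (by
    rw [hc3]; exact C.small_div_three hc.1 (by rw [zero_add]))
  refine ⟨_, a, ha, b, hb, x, hx, d, hd, k * g⁻¹, hz, ?_, ?_, rfl⟩
  · rwa [inv_mul_cancel_right]
  rw [inv_mul_cancel_right]
  intro i j
  show Valued.v (k.val i j - loc v (D.boxK.oBox a b x d i j : S.K)) ≤ _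
  rw [mul_div_cancel₀ _ h30] at hna hnb hnd hnx
  rw [Matrix.one_apply_eq] at hna hnd
  rw [Matrix.one_apply_ne (by decide), sub_zero] at hnb
  fin_cases i <;> fin_cases j <;>
    simp only [Box.oBox, Matrix.of_apply, Matrix.cons_val', Matrix.cons_val_zero,
      Matrix.cons_val_one, Matrix.empty_val', Matrix.cons_val_fin_one, Fin.zero_eta, Fin.mk_one,
      RingOfIntegers.coe_eq_algebraMap, map_add, map_one, map_mul] <;>
    simp only [← RingOfIntegers.coe_eq_algebraMap]
  · rw [show k.val 0 0 - (1 + loc v (a : S.K)) = k.val 0 0 - 1 - loc v (a : S.K) by ring]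
    exact hna
  · exact hnb
  · rw [show k.val 1 0 - M * loc v (x : S.K) = M * (k.val 1 0 / M - loc v (x : S.K)) by
      field_simp, map_mul]
    exact mul_le_of_le_one_of_le (LT.CO.valued_int_le_one _) hnx
  · rw [show k.val 1 1 - (1 + loc v (d : S.K)) = k.val 1 1 - 1 - loc v (d : S.K) by ring]
    exact hnd

/-- The kernel of the level on `K` at the place, at a cube. -/
theorem lKer_locOp_fixedK_of_cube (a b : GLv v) {x : PGL(2, w.1.adicCompletion S.F)}
    (hx : x ∈ (D.fixChar w.1 hσ hfix hm).pU) (hs : (D.fixChar w.1 hσ hfix hm).pS x = x)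
    (h3 : x * x * x = Pm (inclGL w (a⁻¹ * b))) :
    lKer (D.boxK.locOp v) (a : LCos (D.levelIdeal S.K) v) (b : LCos (D.levelIdeal S.K) v) =
      ((D.fixChar w.1 hσ hfix hm).chiP x)⁻¹ * D.boxK.locCst v := by
  obtain ⟨-, h2⟩ := D.isSplit_boxK.lKer_locOp_entries v a b
  obtain ⟨c, hc⟩ := D.meetsBox_of_cube hσ w hfix hm hx hs h3
  obtain ⟨c', hc', hval⟩ := h2 c hc
  obtain ⟨y, hy, -, hy3, hyc⟩ := D.cube_of_meetsBox hσ w hfix hm hc'
  rw [hval, ← hyc, (D.fixChar w.1 hσ hfix hm).pU_uniq y hy x hx (hy3.trans h3.symm)]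

/-- The kernel of the level on `K` at the place is supported on the cubes. -/
theorem exists_cube_of_lKer_ne_zero {a b : GLv v}
    (h : lKer (D.boxK.locOp v) (a : LCos (D.levelIdeal S.K) v)
      (b : LCos (D.levelIdeal S.K) v) ≠ 0) :
    ∃ x ∈ (D.fixChar w.1 hσ hfix hm).pU, (D.fixChar w.1 hσ hfix hm).pS x = x ∧
      x * x * x = Pm (inclGL w (a⁻¹ * b)) := by
  obtain ⟨c, hc⟩ := (D.isSplit_boxK.lKer_locOp_entries v a b).1 h
  obtain ⟨y, hy, hys, hy3, -⟩ := D.cube_of_meetsBox hσ w hfix hm hc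
  exact ⟨y, hy, hys, hy3⟩

end Setup.Level

end FermatAgent.LTG

end
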