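import Mathlib
import Fermat.Agent.LT.Descent.Local.Inert.Fund

set_option autoImplicit false

/-!
# Fundamental sets along equivariant maps with fibres of one size
-/

noncomputable section

namespace FermatAgent.LTG.Fixed

open FermatAgent.LT.Inert (IsFundSet)

variable {G α β : Type*} [Group G] [MulAction G α] [MulAction G β] {T U : Subgroup G}

theorem exists_fundSet (hUT : U ≤ T) :
    ∃ Ω : Set α, IsFundSet T U Set.univ Ω := by
  classical
  let r : Setoid α :=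
    { r := fun x y => ∃ t ∈ T, t • x = y
      iseqv :=
        { refl := fun x => ⟨1, T.one_mem, one_smul _ _⟩
          symm := fun {x y} ⟨t, ht, e⟩ => ⟨t⁻¹, T.inv_mem ht, by rw [← e, inv_smul_smul]⟩
          trans := fun {x y z} ⟨t, ht, e⟩ ⟨s, hs, e'⟩ =>
            ⟨s * t, T.mul_mem hs ht, by rw [mul_smul, e, e']⟩ } }
  refine ⟨{x | ∃ o : Quotient r, ∃ u ∈ U, u • o.out = x}, Set.subset_univ _, ?_, ?_, ?_⟩
  · rintro u hu _ ⟨o, u', hu', rfl⟩
    exact ⟨o, u * u', mul_mem hu hu', mul_smul _ _ _⟩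
  · intro x _
    obtain ⟨t, ht, htx⟩ := Quotient.exact (s := r) (Quotient.out_eq (Quotient.mk r x)).symm
    exact ⟨t, ht, Quotient.mk r x, 1, one_mem _, by rw [one_smul, htx]⟩
  · rintro _ ⟨o, u, hu, rfl⟩ t ht ⟨o', u', hu', e⟩
    have he : o' = o := by
      rw [← Quotient.out_eq o', ← Quotient.out_eq o]
      refine (Quotient.sound (s := r) ⟨u'⁻¹ * t * u, mul_mem (mul_mem (inv_mem (hUT hu')) ht)
        (hUT hu), ?_⟩).symm
      rw [mul_smul, mul_smul, ← e, inv_smul_smul]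
    subst he
    exact ⟨u' * u⁻¹, mul_mem hu' (inv_mem hu), by rw [← e, mul_smul, inv_smul_smul]⟩

/-- A set with finitely many orbits meets a fundamental set in a finite set. -/
theorem finite_inter_of_reps
    {Ω A R : Set α} (hΩ : IsFundSet T U Set.univ Ω) (hR : R.Finite)
    (hfin : ∀ x : α, ((fun g => g • x) '' (U : Set G)).Finite)
    (hA : ∀ x ∈ A, ∃ t ∈ T, ∃ r ∈ R, x = t • r) : (Ω ∩ A).Finite := by
  choose c hc hcΩ using fun r : α => hΩ.cover r (Set.mem_univ r)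
  refine (hR.biUnion fun r _ => hfin (c r • r)).subset ?_
  rintro x ⟨hx, hxA⟩
  obtain ⟨t, ht, r, hr, rfl⟩ := hA x hxA
  obtain ⟨u, hu, e⟩ := hΩ.unique _ (hcΩ r) (t * (c r)⁻¹) (mul_mem ht (inv_mem (hc r)))
    (by rwa [mul_smul, inv_smul_smul])
  rw [mul_smul, inv_smul_smul] at e
  exact Set.mem_iUnion₂.mpr ⟨r, hr, u, hu, e.symm⟩

variable (hUT : U ≤ T) (hcomm : ∀ a ∈ T, ∀ b ∈ T, a * b = b * a) {p : α → β}
  (hp : ∀ g ∈ T, ∀ x, p (g • x) = g • p x) (hstab : ∀ g ∈ T, ∀ q : β, g • q = q → g ∈ U)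
  {r : ℕ} (hfib : ∀ q ∈ Set.range p, (p ⁻¹' {q}).Finite ∧ Nat.card (p ⁻¹' {q}) = r)
include hUT hcomm hp hstab hfib

/-- The sum of a pulled back function. -/
theorem sum_pullback {Ω : Set α} {Ω₀ : Set β} (h : IsFundSet T U Set.univ Ω)
    (h₀ : IsFundSet T U Set.univ Ω₀) {f : β → ℂ} (hf : ∀ g ∈ T, ∀ q, f (g • q) = f q)
    (hfin : (Ω₀ ∩ f.support).Finite) (hsupp : f.support ⊆ Set.range p) :
    (Ω ∩ (f ∘ p).support).Finite ∧ ∑ᶠ x ∈ Ω, f (p x) = r * ∑ᶠ q ∈ Ω₀, f q := by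
  classical
  have h' : IsFundSet T U Set.univ (p ⁻¹' Ω₀) := by
    refine ⟨Set.subset_univ _, fun u hu x hx => ?_, fun x _ => ?_, fun x hx t ht htx => ?_⟩
    · show p (u • x) ∈ Ω₀
      rw [hp u (hUT hu)]
      exact h₀.stable u hu _ hx
    · obtain ⟨t, ht, htx⟩ := h₀.cover (p x) trivial
      exact ⟨t, ht, show p (t • x) ∈ Ω₀ by rw [hp t ht]; exact htx⟩
    · have htx' : t • p x ∈ Ω₀ := by rw [← hp t ht]; exact htx
      obtain ⟨u, hu, e⟩ := h₀.unique _ hx t ht htx'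
      have hs : (u⁻¹ * t) • p x = p x := by rw [mul_smul, e, inv_smul_smul]
      refine ⟨t, ?_, rfl⟩
      have := mul_mem hu (hstab _ (mul_mem (inv_mem (hUT hu)) ht) _ hs)
      rwa [mul_inv_cancel_left] at this
  set s := hfin.toFinset
  have hmem : ∀ {q}, q ∈ s ↔ q ∈ Ω₀ ∧ f q ≠ 0 := Set.Finite.mem_toFinset _
  have hrange : ∀ q ∈ s, q ∈ Set.range p := fun q hq => hsupp (hmem.mp hq).2
  have hfin' : (p ⁻¹' Ω₀ ∩ (f ∘ p).support).Finite := by
    refine (hfin.biUnion fun q hq => (hfib q (hsupp hq.2)).1).subset ?_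
    rintro x ⟨h1, h2⟩
    exact Set.mem_iUnion₂.mpr ⟨p x, ⟨h1, h2⟩, rfl⟩
  obtain ⟨hf1, hf2⟩ := IsFundSet.finsum_eq hUT hcomm h' h (Φ := f ∘ p) fun g hg x _ => by
    simp only [Function.comp_apply, hp g hg, hf g hg]
  refine ⟨hf1 hfin', ?_⟩
  rw [show ∑ᶠ x ∈ Ω, f (p x) = ∑ᶠ x ∈ p ⁻¹' Ω₀, f (p x) from hf2.symm,
    finsum_mem_eq_sum (fun x => f (p x)) hfin', finsum_mem_eq_sum _ hfin, Finset.mul_sum]
  rw [← Finset.sum_fiberwise_of_maps_to (t := s) (g := p) fun x hx => by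
    rw [Set.Finite.mem_toFinset] at hx
    exact hmem.mpr hx]
  refine Finset.sum_congr rfl fun q hq => ?_
  obtain ⟨hq1, hq2⟩ := hmem.mp hq
  obtain ⟨hfq, hcard⟩ := hfib q (hrange q hq)
  rw [Finset.sum_congr rfl (g := fun _ => f q) fun x hx => by rw [(Finset.mem_filter.mp hx).2],
    Finset.sum_const, nsmul_eq_mul]
  congr 2
  rw [← hcard, Nat.card_eq_card_finite_toFinset hfq]
  congr 1
  refine Finset.ext fun x => ?_
  simp only [Finset.mem_filter, Set.Finite.mem_toFinset, Set.mem_inter_iff, Set.mem_preimage,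
    Function.mem_support, Set.mem_singleton_iff]
  exact ⟨fun hx => hx.2, fun hx => ⟨⟨hx ▸ hq1, hx ▸ hq2⟩, hx⟩⟩

end FermatAgent.LTG.Fixed

end
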