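import Mathlib
import Fermat.Agent.LT.General.Geom.Local.Fixed.BoxesK
import Fermat.Agent.LT.General.Geom.Local.Fixed.FundSum
import Fermat.Agent.LT.General.Geom.Local.InertPlace
import Fermat.Agent.LT.General.Local.Fixed.Twist
import Fermat.Agent.LT.Descent.Geom.Local.TameAlgebra
import Fermat.Agent.LT.Descent.Geom.Local.TameGroup

set_option autoImplicit false

/-!
# Projective classes modulo the deep group at a fixed place over `m`

The maps from the cosets, their fibres, and the action of the local group of `K`.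
-/

noncomputable section

open NumberField IsDedekindDomain WithZero
open scoped MatrixGroups

namespace FermatAgent.LTG

open FermatAgent.LT (galPlace loc GLv LCos locMat locLevel BddMod BddAt)
open FermatAgent.LTG.Fixed (LocChar)

local notation "Pm" => Matrix.ProjGenLinGroup.mk

section Act

variable {S : Setup} {v : HeightOneSpectrum (𝓞 S.K)} (w : S.OverK v)

/-- The local group of `K` acts through the projective group of `F`. -/
@[reducible] def pglAct (P : Subgroup PGL(2, w.1.adicCompletion S.F)) :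
    MulAction (GLv v) (PGL(2, w.1.adicCompletion S.F) ⧸ P) :=
  MulAction.compHom _ ((Matrix.ProjGenLinGroup.mk).comp (inclGL w))

theorem regular_locMat_F {t : GL (Fin 2) S.K}
    (ht : (t : Matrix (Fin 2) (Fin 2) S.K).trace ^ 2 ≠ 4 * (t : Matrix (Fin 2) (Fin 2) S.K).det) :
    ((Matrix.GeneralLinearGroup.map S.inclKF.toRingHom t : GL (Fin 2) S.F) :
        Matrix (Fin 2) (Fin 2) S.F).trace ^ 2 ≠
      4 * ((Matrix.GeneralLinearGroup.map S.inclKF.toRingHom t : GL (Fin 2) S.F) :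
        Matrix (Fin 2) (Fin 2) S.F).det := by
  intro h0
  apply ht
  apply S.inclKF.toRingHom.injective
  rw [map_pow, map_mul, map_ofNat, RingHom.map_det]
  rw [show S.inclKF.toRingHom (t : Matrix (Fin 2) (Fin 2) S.K).trace =
    (S.inclKF.toRingHom.mapMatrix (t : Matrix (Fin 2) (Fin 2) S.K)).trace from
      AddMonoidHom.map_trace S.inclKF.toRingHom.toAddMonoidHom _]
  exact h0

theorem torus_comm_delta {σ : S.F ≃+* S.F} (hσ : S.IsGalGen σ) {t : GL (Fin 2) S.K}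
    {δ : GL (Fin 2) S.F} (h : S.IsNormPair σ t δ) {g : GLv v} (hg : g ∈ torusAt v t) :
    inclGL w g * locMat w.1 δ = locMat w.1 δ * inclGL w g := by
  obtain ⟨a, b, hab⟩ := exists_eq_of_mem_torusAt h.regular hg
  have hc : locMat w.1 δ * inclGL w (locMat v t) = inclGL w (locMat v t) * locMat w.1 δ := by
    rw [inclGL_locMat w t, ← map_mul, ← map_mul, h.commute hσ]
  have e : (inclGL w g).val = S.inclOver w a • 1 + S.inclOver w b • (inclGL w (locMat v t)).val := by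
    refine Matrix.ext fun i j => ?_
    show S.inclOver w (g.val i j) = _
    rw [show g.val i j = (a • (1 : Matrix (Fin 2) (Fin 2) (v.adicCompletion S.K)) +
      b • (locMat v t).val) i j from congrFun (congrFun hab i) j]
    simp [Matrix.one_apply, apply_ite (S.inclOver w), inclGL]
  refine Units.ext ?_
  rw [Units.val_mul, Units.val_mul, e, add_mul, mul_add, Matrix.smul_mul, Matrix.mul_smul,
    Matrix.smul_mul, Matrix.mul_smul, one_mul, mul_one, ← Units.val_mul, ← Units.val_mul, hc]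

end Act

namespace Setup.Level

variable {S : Setup} (D : S.Level) {σ : S.F ≃+* S.F} (hσ : S.IsGalGen σ)
  {v : HeightOneSpectrum (𝓞 S.K)} (w : S.OverK v) (hfix : galPlace σ w.1 = w.1)
  (hm : (S.m : 𝓞 S.F) ∈ w.1.asIdeal)

set_option quotPrecheck false
local notation "CC" => D.fixChar (Subtype.val w) hσ hfix hm
local notation "Fw" => HeightOneSpectrum.adicCompletion (↥(Setup.F S)) (Subtype.val w)

attribute [local instance] pglAct

theorem grpU_of_lvl {g : GLv w.1} (hg : ∀ i j, Valued.v ((g.val - 1) i j) ≤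
    exp (-(LT.CO.lvl (D.levelIdeal S.F) w.1 : ℤ))) : g ∈ (CC).grpU := by
  refine ⟨(D.boxes_of_lvl hσ w.1 hfix hm (hg 0 0)).1, (D.boxes_of_lvl hσ w.1 hfix hm (hg 0 1)).2.1,
    ⟨_, (D.boxes_of_lvl hσ w.1 hfix hm (hg 1 0)).2.2, ?_⟩,
    (D.boxes_of_lvl hσ w.1 hfix hm (hg 1 1)).1⟩
  rw [mul_div_cancel₀ _ (CC).M_ne_zero]

theorem locLevel_le_pU {g : GLv w.1} (hg : g ∈ locLevel (D.levelIdeal S.F) w.1) :
    Pm g ∈ (CC).pU := by
  obtain ⟨c, hc, z, hz, rfl⟩ := Subgroup.mem_sup_of_normal_right.mp hg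
  rw [Box.locCongr_eq (P := D.boxF σ) D.lvl_pos] at hc
  rw [map_mul, Matrix.ProjGenLinGroup.mk_eq_one.mpr hz, mul_one]
  exact ⟨c, D.grpU_of_lvl hσ w hfix hm hc.1, rfl⟩

theorem locLevelK_le_pU {g : GLv v} (hg : g ∈ locLevel (D.levelIdeal S.K) v) :
    Pm (inclGL w g) ∈ (CC).pU := by
  obtain ⟨c, hc, z, hz, rfl⟩ := Subgroup.mem_sup_of_normal_right.mp hg
  rw [Box.locCongr_eq (P := D.boxK) D.lvl_pos] at hc
  rw [map_mul, map_mul, Matrix.ProjGenLinGroup.mk_eq_one.mpr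
    (show inclGL w z ∈ Subgroup.center _ from Matrix.GeneralLinearGroup.map_center_le _ hz), mul_one]
  refine ⟨inclGL w c, D.grpU_of_lvl hσ w hfix hm fun i j => ?_, rfl⟩
  rw [show ((inclGL w c).val - 1) i j =
      S.inclOver w ((c.val - 1 : Matrix (Fin 2) (Fin 2) (v.adicCompletion S.K)) i j) by
    fin_cases i <;> fin_cases j <;> simp [inclGL], D.valued_incl_lvl_iff hσ]
  exact hc.1 i j

/-- The class of a coset of `F`. -/
def pF (q : LCos (D.levelIdeal S.F) w.1) : PGL(2, Fw) ⧸ (CC).pU := QuotientGroup.mk (Pm q.out)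

theorem pF_mk (g : GLv w.1) :
    D.pF hσ w hfix hm (g : LCos (D.levelIdeal S.F) w.1) = QuotientGroup.mk (Pm g) := by
  refine QuotientGroup.eq.mpr ?_
  rw [← map_inv, ← map_mul]
  exact D.locLevel_le_pU hσ w hfix hm (QuotientGroup.eq.mp (QuotientGroup.out_eq' _))

/-- The class of a coset of `K`. -/
def pK (y : LCos (D.levelIdeal S.K) v) : PGL(2, Fw) ⧸ (CC).pU :=
  QuotientGroup.mk (Pm (inclGL w y.out))

theorem pK_mk (g : GLv v) :
    D.pK hσ w hfix hm (g : LCos (D.levelIdeal S.K) v) = QuotientGroup.mk (Pm (inclGL w g)) := by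
  refine QuotientGroup.eq.mpr ?_
  rw [← map_inv, ← map_mul, ← map_inv, ← map_mul]
  exact D.locLevelK_le_pU hσ w hfix hm (QuotientGroup.eq.mp (QuotientGroup.out_eq' _))

theorem smul_mk (g : GLv v) (x : PGL(2, Fw)) :
    g • (x : PGL(2, Fw) ⧸ (CC).pU) = ((Pm (inclGL w g) * x : PGL(2, Fw)) : PGL(2, Fw) ⧸ (CC).pU) :=
  rfl

theorem pF_smul (g : GLv v) (x : D.XF v) :
    D.pF hσ w hfix hm ((g • x) w) = g • D.pF hσ w hfix hm (x w) := by
  obtain ⟨a, ha⟩ := QuotientGroup.mk_surjective (x w)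
  rw [XF_smul_apply, ← ha, MulAction.Quotient.smul_coe, smul_eq_mul, pF_mk, pF_mk, smul_mk,
    ← map_mul]
  rfl

theorem pK_smul (g : GLv v) (y : LCos (D.levelIdeal S.K) v) :
    D.pK hσ w hfix hm (g • y) = g • D.pK hσ w hfix hm y := by
  rw [← QuotientGroup.out_eq' y, MulAction.Quotient.smul_coe, smul_eq_mul, pK_mk, pK_mk, smul_mk,
    map_mul, map_mul]

theorem bddAt_grp {A B C : AddSubgroup Fw} (h : (CC).IsBox A B C) {g : GLv w.1}
    (hg : g ∈ (CC).boxGrp h) : BddMod 0 g := by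
  refine ⟨1, one_mem _, ?_⟩
  rw [one_mul]
  have hk := Fixed.Radii.mem_locInt_of_mem h hg
  refine ⟨fun i j => ?_, ?_⟩
  · simpa using (LT.CO.smallM_of_mem hk).le_one i j
  · rw [LT.CO.valued_det_eq_one hk, neg_zero, exp_zero]

theorem finite_bdd_image (N : ℤ) :
    {q : PGL(2, Fw) ⧸ (CC).pU | ∃ b, BddMod N b ∧ ((Pm b : PGL(2, Fw)) : PGL(2, Fw) ⧸ (CC).pU) = q}.Finite := by
  refine ((LT.finite_bddMod_image (D.levelIdeal_ne_bot S.F) N (1 : GLv w.1)).image
    (D.pF hσ w hfix hm)).subset ?_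
  rintro _ ⟨b, hb, rfl⟩
  exact ⟨_, ⟨b, hb, rfl⟩, by rw [one_mul, pF_mk]⟩

/-- The fibre of the classes over the trivial one on `F`. -/
def cardF : ℕ := Nat.card (D.pF hσ w hfix hm ⁻¹' {((1 : PGL(2, Fw)) : PGL(2, Fw) ⧸ (CC).pU)})

/-- The fibre of the classes over the trivial one on `K`. -/
def cardK : ℕ := Nat.card (D.pK hσ w hfix hm ⁻¹' {((1 : PGL(2, Fw)) : PGL(2, Fw) ⧸ (CC).pU)})

theorem fib_one_F : (D.pF hσ w hfix hm ⁻¹'
    {((1 : PGL(2, Fw)) : PGL(2, Fw) ⧸ (CC).pU)}).Finite := by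
  refine (LT.finite_bddMod_image (D.levelIdeal_ne_bot S.F) 0 (1 : GLv w.1)).subset ?_
  intro q hq
  obtain ⟨g, rfl⟩ := QuotientGroup.mk_surjective q
  rw [Set.mem_preimage, Set.mem_singleton_iff, pF_mk, QuotientGroup.eq, mul_one, inv_mem_iff] at hq
  obtain ⟨u, hu, hug⟩ := hq
  exact ⟨u, D.bddAt_grp hσ w hfix hm (CC).isBox_J₀ hu, by rw [one_mul]; exact LT.mk_eq_of_pgl hug⟩

theorem fib_one_K : (D.pK hσ w hfix hm ⁻¹'
    {((1 : PGL(2, Fw)) : PGL(2, Fw) ⧸ (CC).pU)}).Finite := by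
  refine (LT.finite_bddMod_image (D.levelIdeal_ne_bot S.K) (|(0 : ℤ)| + 3 * S.ramAt w.1)
    (1 : GLv v)).subset ?_
  intro q hq
  obtain ⟨g, rfl⟩ := QuotientGroup.mk_surjective q
  rw [Set.mem_preimage, Set.mem_singleton_iff, pK_mk, QuotientGroup.eq, mul_one, inv_mem_iff] at hq
  obtain ⟨u, hu, hug⟩ := hq
  obtain ⟨z, hz, hb⟩ := D.bddAt_grp hσ w hfix hm (CC).isBox_J₀ hu
  have hc : inclGL w g * u⁻¹ ∈ Subgroup.center (GLv w.1) := by
    rw [← Matrix.ProjGenLinGroup.mk_eq_one, map_mul, map_inv, hug, mul_inv_cancel]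
  refine ⟨g, bddMod_of_incl hσ w ⟨z * (inclGL w g * u⁻¹)⁻¹, mul_mem hz (inv_mem hc), ?_⟩,
    by rw [one_mul]⟩
  rwa [show z * (inclGL w g * u⁻¹)⁻¹ * inclGL w g = z * u by group]

theorem pF_fib (q : PGL(2, Fw) ⧸ (CC).pU) :
    (D.pF hσ w hfix hm ⁻¹' {q}).Finite ∧
      Nat.card (D.pF hσ w hfix hm ⁻¹' {q}) = D.cardF hσ w hfix hm := by
  obtain ⟨x, rfl⟩ := QuotientGroup.mk_surjective q
  induction x using Matrix.ProjGenLinGroup.induction_on with | mk g => ?_
  have e : D.pF hσ w hfix hm ⁻¹' {((Pm g : PGL(2, Fw)) : PGL(2, Fw) ⧸ (CC).pU)} =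
      (fun y => g • y) '' (D.pF hσ w hfix hm ⁻¹'
        {((1 : PGL(2, Fw)) : PGL(2, Fw) ⧸ (CC).pU)}) := by
    ext y
    obtain ⟨a, rfl⟩ := QuotientGroup.mk_surjective y
    rw [Set.mem_preimage, Set.mem_singleton_iff, pF_mk]
    refine ⟨fun h => ⟨((g⁻¹ * a : GLv w.1) : LCos _ w.1), ?_, ?_⟩, ?_⟩
    · rw [Set.mem_preimage, Set.mem_singleton_iff, pF_mk, map_mul, map_inv, ← smul_eq_mul,
        ← MulAction.Quotient.smul_coe, h, MulAction.Quotient.smul_coe, smul_eq_mul, inv_mul_cancel]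
    · show g • ((g⁻¹ * a : GLv w.1) : LCos _ w.1) = _
      rw [MulAction.Quotient.smul_coe, smul_eq_mul, mul_inv_cancel_left]
    · rintro ⟨y, hy, he⟩
      obtain ⟨b, rfl⟩ := QuotientGroup.mk_surjective y
      rw [Set.mem_preimage, Set.mem_singleton_iff, pF_mk] at hy
      simp only at he
      rw [← pF_mk, ← he, MulAction.Quotient.smul_coe, smul_eq_mul, pF_mk, map_mul, ← smul_eq_mul,
        ← MulAction.Quotient.smul_coe, hy, MulAction.Quotient.smul_coe, smul_eq_mul, mul_one]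
  rw [e]
  exact ⟨(D.fib_one_F hσ w hfix hm).image _, Nat.card_image_of_injective (MulAction.injective g) _⟩

theorem pK_fib (g : GLv v) :
    (D.pK hσ w hfix hm ⁻¹' {((Pm (inclGL w g) : PGL(2, Fw)) : PGL(2, Fw) ⧸ (CC).pU)}).Finite ∧
      Nat.card (D.pK hσ w hfix hm ⁻¹'
        {((Pm (inclGL w g) : PGL(2, Fw)) : PGL(2, Fw) ⧸ (CC).pU)}) = D.cardK hσ w hfix hm := by
  have e : D.pK hσ w hfix hm ⁻¹'
        {((Pm (inclGL w g) : PGL(2, Fw)) : PGL(2, Fw) ⧸ (CC).pU)} =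
      (fun y => g • y) '' (D.pK hσ w hfix hm ⁻¹'
        {((1 : PGL(2, Fw)) : PGL(2, Fw) ⧸ (CC).pU)}) := by
    ext y
    obtain ⟨a, rfl⟩ := QuotientGroup.mk_surjective y
    rw [Set.mem_preimage, Set.mem_singleton_iff, pK_mk]
    refine ⟨fun h => ⟨((g⁻¹ * a : GLv v) : LCos _ v), ?_, ?_⟩, ?_⟩
    · rw [Set.mem_preimage, Set.mem_singleton_iff, pK_mk, map_mul, map_mul, map_inv, map_inv,
        ← smul_eq_mul, ← MulAction.Quotient.smul_coe, h, MulAction.Quotient.smul_coe, smul_eq_mul,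
        inv_mul_cancel]
    · show g • ((g⁻¹ * a : GLv v) : LCos _ v) = _
      rw [MulAction.Quotient.smul_coe, smul_eq_mul, mul_inv_cancel_left]
    · rintro ⟨y, hy, he⟩
      rw [Set.mem_preimage, Set.mem_singleton_iff] at hy
      rw [← pK_mk, ← he, pK_smul, hy, smul_mk, mul_one]
  rw [e]
  exact ⟨(D.fib_one_K hσ w hfix hm).image _, Nat.card_image_of_injective (MulAction.injective g) _⟩

theorem cardK_ne_zero : D.cardK hσ w hfix hm ≠ 0 := by
  have : Finite (D.pK hσ w hfix hm ⁻¹' {((1 : PGL(2, Fw)) : PGL(2, Fw) ⧸ (CC).pU)}) :=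
    (D.fib_one_K hσ w hfix hm).to_subtype
  have : Nonempty (D.pK hσ w hfix hm ⁻¹' {((1 : PGL(2, Fw)) : PGL(2, Fw) ⧸ (CC).pU)}) :=
    ⟨⟨((1 : GLv v) : LCos _ v), by rw [Set.mem_preimage, pK_mk, map_one, map_one]; rfl⟩⟩
  exact Nat.card_pos.ne'

/-- The cubes on `K` are classes of `K`. -/
theorem mem_range_pK {x : PGL(2, Fw)} (hx : (CC).pS x = x) :
    ∃ g : GLv v, Pm (inclGL w g) = x := exists_inclGL_of_pgl hσ w hfix hx

/-- The stabilisers of the classes consist of units. -/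
theorem mem_torusU_of_smul_eq_Q {t : GL (Fin 2) S.K} {g : GLv v} (hg : g ∈ torusAt v t)
    {q : PGL(2, Fw) ⧸ (CC).pU} (h : g • q = q) : g ∈ torusU v t := by
  obtain ⟨x, rfl⟩ := QuotientGroup.mk_surjective q
  induction x using Matrix.ProjGenLinGroup.induction_on with | mk a => ?_
  rw [smul_mk, QuotientGroup.eq, ← inv_mem_iff] at h
  obtain ⟨u, hu, hua⟩ := h
  refine Subgroup.subset_closure ⟨hg, isUnitElt_of_incl hσ w
    (isUnitElt_of_conj_level (𝔫 := (⊤ : Ideal (𝓞 S.F))) (y := a) ?_)⟩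
  have hc : a⁻¹ * inclGL w g * a * u⁻¹ ∈ Subgroup.center (GLv w.1) := by
    rw [← Matrix.ProjGenLinGroup.mk_eq_one, map_mul, map_inv _ u, hua]
    simp only [map_mul, map_inv]
    group
  rw [show a⁻¹ * inclGL w g * a = a⁻¹ * inclGL w g * a * u⁻¹ * u by group]
  refine mul_mem (Subgroup.mem_sup_right hc) (Subgroup.mem_sup_left ?_)
  have hu0 := Fixed.Radii.mem_locInt_of_mem (CC).isBox_J₀ hu
  rw [LT.locCongr_eq_int (fun h => w.1.isPrime.ne_top (top_le_iff.mp h))]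
  exact LT.mem_locInt_of_entries _ (fun i j => (LT.CO.smallM_of_mem hu0).le_one i j)
    (LT.CO.valued_det_eq_one hu0)

end Setup.Level

end FermatAgent.LTG

end
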