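import Mathlib
import Fermat.Agent.LT.General.Geom.Local.Fixed.QSpace
import Fermat.Agent.LT.General.Geom.Local.Generalities

set_option autoImplicit false

/-!
# The twisted classes at a fixed place over `m` form finitely many orbits

A class is a translate by the torus of `F` of finitely many; two translates with the same twist
modulo the deep group differ by an element fixed up to the normalising group, hence by `K`.
-/

noncomputable section

open NumberField IsDedekindDomain WithZero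
open scoped MatrixGroups

namespace FermatAgent.LTG

open FermatAgent.LT (galPlace loc GLv LCos locMat locLevel BddMod exists_bddAt)
open FermatAgent.LT.Inert (IsFundSet)
open FermatAgent.LTG.Fixed (LocChar)

local notation "Pm" => Matrix.ProjGenLinGroup.mk

theorem bddMod_of_mk_eq {L : Type*} [Field L] [NumberField L] {u : HeightOneSpectrum (𝓞 L)}
    {a b : GLv u} (h : Pm a = Pm b) {N : ℤ} (hb : BddMod N b) : BddMod N a := by
  obtain ⟨z, hz, hbb⟩ := hb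
  have hc : b * a⁻¹ ∈ Subgroup.center (GLv u) := by
    rw [← Matrix.ProjGenLinGroup.mk_eq_one, map_mul, map_inv, h, mul_inv_cancel]
  refine ⟨z * (b * a⁻¹), mul_mem hz hc, ?_⟩
  rwa [show z * (b * a⁻¹) * a = z * b by group]

theorem exists_bddMod_of_finite {L : Type*} [Field L] [NumberField L]
    {u : HeightOneSpectrum (𝓞 L)} {ι : Type*} {s : Set ι} (hs : s.Finite) (f : ι → GLv u) :
    ∃ N : ℤ, ∀ i ∈ s, BddMod N (f i) := by
  induction s, hs using Set.Finite.induction_on with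
  | empty => exact ⟨0, fun i h => h.elim⟩
  | @insert i s _ _ ih =>
    obtain ⟨N, hN⟩ := ih
    obtain ⟨M, hM⟩ := exists_bddAt (f i)
    refine ⟨max M N, fun j hj => ?_⟩
    rcases hj with rfl | hj
    · exact LT.BddMod.mono (le_max_left _ _) ⟨1, one_mem _, by rwa [one_mul]⟩
    · exact (hN j hj).mono (le_max_right _ _)

namespace Setup.Level

variable {S : Setup} (D : S.Level) {σ : S.F ≃+* S.F} (hσ : S.IsGalGen σ)
  {v : HeightOneSpectrum (𝓞 S.K)} (w : S.OverK v) (hfix : galPlace σ w.1 = w.1)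
  (hm : (S.m : 𝓞 S.F) ∈ w.1.asIdeal) {t : GL (Fin 2) S.K} {δ : GL (Fin 2) S.F}

set_option quotPrecheck false
local notation "CC" => D.fixChar (Subtype.val w) hσ hfix hm
local notation "Fw" => HeightOneSpectrum.adicCompletion (↥(Setup.F S)) (Subtype.val w)
local notation "δw" => (Pm (locMat (Subtype.val w) δ) : PGL(2, Fw))

attribute [local instance] pglAct

variable (δ) in
/-- The classes with twist in the group of the level. -/
def setPJ : Set (PGL(2, Fw) ⧸ (CC).pU) :=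
  {q | ∃ x, ((x : PGL(2, Fw)) : PGL(2, Fw) ⧸ (CC).pU) = q ∧ x⁻¹ * δw * (CC).pS x ∈ (CC).pJ}

theorem twist_mem_pJ {x : PGL(2, Fw)}
    (hx : (x : PGL(2, Fw) ⧸ (CC).pU) ∈ D.setPJ hσ w hfix hm δ) :
    x⁻¹ * δw * (CC).pS x ∈ (CC).pJ := by
  obtain ⟨y, hy, hyJ⟩ := hx
  have hu : y⁻¹ * x ∈ (CC).pU := QuotientGroup.eq.mp hy
  rw [show x⁻¹ * δw * (CC).pS x =
    (y⁻¹ * x)⁻¹ * (y⁻¹ * δw * (CC).pS y) * (CC).pS (y⁻¹ * x) by rw [map_mul, map_inv]; group]
  exact mul_mem (mul_mem ((CC).pU_le_pJ (inv_mem hu)) hyJ) ((CC).pU_le_pJ ((CC).pS_mem_pU hu))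

theorem pS_inclGL (g : GLv v) : (CC).pS (Pm (inclGL w g)) = Pm (inclGL w g) := by
  rw [(CC).pS_mk]
  exact congrArg _ (inclGL_fixLoc hσ w hfix g)

theorem pS_locMat (g : GL (Fin 2) S.F) :
    (CC).pS (Pm (locMat w.1 g)) = Pm (locMat w.1 (Matrix.GeneralLinearGroup.map σ.toRingHom g)) := by
  rw [(CC).pS_mk]
  exact congrArg _ (Matrix.GeneralLinearGroup.ext fun _ _ => fixLocHom_loc hfix _)

theorem nm_delta (h : S.IsNormPair σ t δ) :
    LT.TF.nm (CC).pS δw = Pm (inclGL w (locMat v t)) := by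
  rw [LT.TF.nm, pS_locMat, pS_locMat, ← map_mul, ← map_mul, ← map_mul, ← map_mul, h.norm,
    inclGL_locMat w t]

theorem isTorus_pgl (h : S.IsNormPair σ t δ) :
    LT.TF.IsTorus (CC).pS (LT.Classes.torus (Pm (inclGL w (locMat v t)))) := by
  have hreg : LT.Classes.IsReg (Pm (inclGL w (locMat v t))) :=
    LT.Classes.isReg_mk.mpr (regular_inclGL w h.regular)
  have h2 : (2 : Fw) ≠ 0 := by
    rw [← map_ofNat (loc w.1) 2]; simp
  exact LT.Cyc.isTorus_of_fixed (fixLoc hσ hfix) (fixLoc_three hσ w hfix)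
    (exists_fixLoc_ne hσ w hfix) hreg (inclGL_fixLoc hσ w hfix _) h2

include hσ in
theorem delta_mem_torus (h : S.IsNormPair σ t δ) :
    δw ∈ LT.Classes.torus (Pm (inclGL w (locMat v t))) := by
  refine LT.Classes.mem_torus_mk.mpr ⟨locMat w.1 δ, ?_, rfl⟩
  rw [inclGL_locMat w t, ← Units.val_mul, ← Units.val_mul, ← map_mul, ← map_mul, h.commute hσ]

theorem mem_torus_of_mem_torusAt_F {τ : GLv w.1}
    (hτ : τ ∈ torusAt w.1 (Matrix.GeneralLinearGroup.map S.inclKF.toRingHom t)) :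
    Pm τ ∈ LT.Classes.torus (Pm (inclGL w (locMat v t))) := by
  refine LT.Classes.mem_torus_mk.mpr ⟨τ, ?_, rfl⟩
  rw [inclGL_locMat w t]
  simpa only [Units.val_mul] using congrArg Units.val (mem_torusAt.mp hτ)

theorem smul_setPJ (h : S.IsNormPair σ t δ) {g : GLv v} (hg : g ∈ torusAt v t)
    {q : PGL(2, Fw) ⧸ (CC).pU} (hq : q ∈ D.setPJ hσ w hfix hm δ) :
    g • q ∈ D.setPJ hσ w hfix hm δ := by
  obtain ⟨x, rfl, hx⟩ := hq
  refine ⟨Pm (inclGL w g) * x, (D.smul_mk hσ w hfix hm g x).symm, ?_⟩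
  have hc : Pm (inclGL w g) * δw = δw * Pm (inclGL w g) := by
    rw [← map_mul, ← map_mul, torus_comm_delta w hσ h hg]
  rw [map_mul, pS_inclGL]
  calc _ ∈ (CC).pJ := by
        rw [show (Pm (inclGL w g) * x)⁻¹ * δw * (Pm (inclGL w g) * (CC).pS x) =
          x⁻¹ * ((Pm (inclGL w g))⁻¹ * (δw * Pm (inclGL w g))) * (CC).pS x by group, ← hc,
          inv_mul_cancel_left]
        exact hx

theorem finite_torusU_orbit_Q (ht : (t : Matrix (Fin 2) (Fin 2) S.K).trace ^ 2 ≠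
    4 * (t : Matrix (Fin 2) (Fin 2) S.K).det) (q : PGL(2, Fw) ⧸ (CC).pU) :
    ((fun g => g • q) '' (torusU v t : Set (GLv v))).Finite := by
  obtain ⟨N, hN⟩ := exists_bddMod_torusU (u := v) ht
  obtain ⟨x, rfl⟩ := QuotientGroup.mk_surjective q
  induction x using Matrix.ProjGenLinGroup.induction_on with | mk a => ?_
  obtain ⟨M, hM⟩ := exists_bddAt a
  refine (D.finite_bdd_image hσ w hfix hm ((S.ramAt w.1 : ℤ) * N + M)).subset ?_
  rintro _ ⟨g, hg, rfl⟩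
  exact ⟨inclGL w g * a, (bddMod_incl (hN g hg) w).mul ⟨1, one_mem _, by rwa [one_mul]⟩,
    by rw [map_mul]; rfl⟩

/-- A twisted class is the translate by the torus of `F` of finitely many. -/
theorem exists_reps_F (h : S.IsNormPair σ t δ) :
    ∃ R : Set (GLv w.1), R.Finite ∧ ∀ q ∈ D.setPJ hσ w hfix hm δ,
      ∃ τ, τ ∈ LT.Classes.torus (Pm (inclGL w (locMat v t))) ∧ ∃ r ∈ R,
        q = ((τ * Pm r : PGL(2, Fw)) : PGL(2, Fw) ⧸ (CC).pU) := by
  obtain ⟨R, hR, hRx⟩ := exists_finite_orbit_reps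
    (t := Matrix.GeneralLinearGroup.map S.inclKF.toRingHom t) (u := w.1)
    (regular_locMat_F h.regular) (D.levelIdeal_ne_bot S.F) 0
  refine ⟨(fun r => r.out) '' R, hR.image _, ?_⟩
  intro q hq
  obtain ⟨x, rfl⟩ := QuotientGroup.mk_surjective q
  induction x using Matrix.ProjGenLinGroup.induction_on with | mk a => ?_
  have hj := D.twist_mem_pJ hσ w hfix hm hq
  have hn : LT.TF.nm (CC).pS ((Pm a)⁻¹ * δw * (CC).pS (Pm a)) ∈ (CC).pJ :=
    mul_mem (mul_mem hj ((CC).pS_mem_pJ hj)) ((CC).pS_mem_pJ ((CC).pS_mem_pJ hj))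
  rw [LT.TF.nm_conj (CC).sliceHyp.three, D.nm_delta hσ w hfix hm h] at hn
  obtain ⟨k, hk, hka⟩ := hn
  have hb : BddMod 0 (a⁻¹ * inclGL w (locMat v t) * a) :=
    bddMod_of_mk_eq (b := k) (by rw [map_mul, map_mul, map_inv, hka])
      (D.bddAt_grp hσ w hfix hm (CC).isBox_J hk)
  rw [inclGL_locMat w t] at hb
  obtain ⟨τ, hτ, r, hr, e⟩ := hRx a hb
  refine ⟨Pm τ, mem_torus_of_mem_torusAt_F w hτ, _, ⟨r, hr, rfl⟩, ?_⟩
  rw [← map_mul]
  refine (D.pF_mk hσ w hfix hm a).symm.trans ?_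
  rw [e, ← QuotientGroup.out_eq' r, MulAction.Quotient.smul_coe, smul_eq_mul, pF_mk,
    QuotientGroup.out_eq']

set_option maxHeartbeats 500000 in
/-- The classes with twist in the group of the level form finitely many orbits. -/
theorem exists_reps_PJ (h : S.IsNormPair σ t δ) :
    ∃ R : Set (PGL(2, Fw) ⧸ (CC).pU), R.Finite ∧ ∀ q ∈ D.setPJ hσ w hfix hm δ,
      ∃ g ∈ torusAt v t, ∃ r ∈ R, q = g • r := by
  classical
  have hT := D.isTorus_pgl hσ w hfix hm h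
  obtain ⟨R, hR, hRq⟩ := D.exists_reps_F hσ w hfix hm h
  set T := LT.Classes.torus (Pm (inclGL w (locMat v t)))
  set S' := (CC).pS
  -- the twist of a translating element modulo the deep group
  let β : PGL(2, Fw) → PGL(2, Fw) := fun τ => τ⁻¹ * δw * S' τ
  let B : GLv w.1 → Set (PGL(2, Fw) ⧸ (CC).pU) := fun r =>
    {c | ∃ τ ∈ T, ((τ * Pm r : PGL(2, Fw)) : PGL(2, Fw) ⧸ (CC).pU) ∈ D.setPJ hσ w hfix hm δ ∧
      ((β τ : PGL(2, Fw)) : PGL(2, Fw) ⧸ (CC).pU) = c}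
  have hB : ∀ r, (B r).Finite := by
    intro r
    obtain ⟨N, hN⟩ := exists_bddMod_of_finite
      (Set.toFinite ({r, ((CC).sMap r)⁻¹} : Set (GLv w.1))) id
    refine (D.finite_bdd_image hσ w hfix hm (N + 0 + N)).subset ?_
    rintro _ ⟨τ, -, hτ, rfl⟩
    obtain ⟨j, hj, hje⟩ := D.twist_mem_pJ hσ w hfix hm hτ
    refine ⟨r * j * ((CC).sMap r)⁻¹, ((hN r (by simp)).mul
      (D.bddAt_grp hσ w hfix hm (CC).isBox_J hj)).mul (hN _ (by simp)), ?_⟩
    rw [map_mul, map_mul, map_inv, hje, ← (CC).pS_mk, map_mul]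
    congr 1
    show _ = τ⁻¹ * δw * S' τ
    simp only [S']
    group
  -- translates with one twist form finitely many orbits
  obtain ⟨Nγ, hγ⟩ := exists_bddAt (inclGL w (locMat v t))
  obtain ⟨RK, hRK, hRKx⟩ := exists_finite_orbit_reps (u := v) h.regular (D.levelIdeal_ne_bot S.K)
    (|(2 * 0 + Nγ + 0 : ℤ)| + 3 * S.ramAt w.1)
  obtain ⟨NK, hNK⟩ := exists_bddMod_of_finite hRK fun r => inclGL w r.out
  have key : ∀ r, ∀ c ∈ B r, ∃ Q : Set (PGL(2, Fw) ⧸ (CC).pU), Q.Finite ∧ ∀ τ ∈ T,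
      ((τ * Pm r : PGL(2, Fw)) : PGL(2, Fw) ⧸ (CC).pU) ∈ D.setPJ hσ w hfix hm δ →
      ((β τ : PGL(2, Fw)) : PGL(2, Fw) ⧸ (CC).pU) = c →
      ∃ g ∈ torusAt v t, ∃ q ∈ Q,
        ((τ * Pm r : PGL(2, Fw)) : PGL(2, Fw) ⧸ (CC).pU) = g • q := by
    intro r c hc
    obtain ⟨τ₁, hτ₁, -, hc₁⟩ := hc
    obtain ⟨a₁, rfl⟩ := Matrix.ProjGenLinGroup.mk_surjective τ₁
    obtain ⟨M, hM⟩ := exists_bddAt (a₁ * r)
    refine ⟨_, D.finite_bdd_image hσ w hfix hm (NK + 0 + 2 * 0 + M), fun τ hτ _ hcτ => ?_⟩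
    set τ' := τ * (Pm a₁)⁻¹
    have hτ' : τ' ∈ T := mul_mem hτ (inv_mem hτ₁)
    set u := τ'⁻¹ * S' τ'
    have hu : u ∈ (CC).pU := by
      have h1 : (β (Pm a₁))⁻¹ * β τ ∈ (CC).pU := QuotientGroup.eq.mp (hc₁.trans hcτ.symm)
      have h2 : β τ = β (Pm a₁) * u := by
        have hs₁ : S' (Pm a₁) ∈ T := hT.stable _ hτ₁
        have e : S' τ = S' τ' * S' (Pm a₁) := by rw [← map_mul, inv_mul_cancel_right]
        show τ⁻¹ * δw * S' τ = (Pm a₁)⁻¹ * δw * S' (Pm a₁) * (τ'⁻¹ * S' τ')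
        have hAB : (Pm a₁)⁻¹ * δw * S' (Pm a₁) * (τ'⁻¹ * S' τ') =
            τ'⁻¹ * ((Pm a₁)⁻¹ * δw * S' (Pm a₁)) * S' τ' := by
          rw [← mul_assoc, hT.comm _ (mul_mem (mul_mem (inv_mem hτ₁)
            (delta_mem_torus hσ w h)) hs₁) _ (inv_mem hτ')]
        rw [hAB, e]
        have hcomm : S' τ' * S' (Pm a₁) = S' (Pm a₁) * S' τ' :=
          hT.comm _ (hT.stable _ hτ') _ hs₁
        rw [hcomm]
        simp only [τ', mul_inv_rev, inv_inv]
        have h3 : τ⁻¹ = (Pm a₁ * τ⁻¹) * (Pm a₁)⁻¹ := by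
          rw [hT.comm _ hτ₁ _ (inv_mem hτ), mul_inv_cancel_right]
        conv_lhs => rw [h3]
        group
      rwa [h2, inv_mul_cancel_left] at h1
    have hnu : LT.TF.nm S' u = 1 := by
      show τ'⁻¹ * S' τ' * S' (τ'⁻¹ * S' τ') * S' (S' (τ'⁻¹ * S' τ')) = 1
      simp only [map_mul, map_inv, (CC).sliceHyp.three, S']
      group
    obtain ⟨hh, hhH, hhe⟩ := (CC).sliceHyp.h90 u hu hnu
    have hfixy : S' (τ' * hh) = τ' * hh := by
      rw [map_mul, show S' τ' = τ' * u by simp [u], hhe]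
      simp only [S']
      group
    obtain ⟨y, hy⟩ := D.mem_range_pK hσ w hfix hm hfixy
    obtain ⟨k, hk, hkh⟩ := id hhH
    have hbk := D.bddAt_grp hσ w hfix hm (CC).isBox_H hk
    have hγc : Pm (inclGL w (locMat v t)) * τ' = τ' * Pm (inclGL w (locMat v t)) := by
      refine hT.comm _ (LT.Classes.mem_torus_mk.mpr ⟨_, rfl, rfl⟩) _ hτ'
    have hconj : BddMod (2 * 0 + Nγ + 0) (inclGL w (y⁻¹ * locMat v t * y)) := by
      refine bddMod_of_mk_eq (b := k⁻¹ * inclGL w (locMat v t) * k) ?_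
        (((LT.BddMod.inv hbk).mul ⟨1, one_mem _, by rwa [one_mul]⟩).mul hbk)
      simp only [map_mul, map_inv, hy, hkh]
      rw [mul_inv_rev, show hh⁻¹ * τ'⁻¹ * Pm (inclGL w (locMat v t)) * (τ' * hh) =
        hh⁻¹ * (τ'⁻¹ * (Pm (inclGL w (locMat v t)) * τ')) * hh by group, hγc, inv_mul_cancel_left]
    obtain ⟨g, hg, rK, hrK, eg⟩ := hRKx y (bddMod_of_incl hσ w hconj)
    rw [← QuotientGroup.out_eq' rK, MulAction.Quotient.smul_coe, smul_eq_mul, QuotientGroup.eq] at eg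
    obtain ⟨l, hl, hle⟩ := D.locLevelK_le_pU hσ w hfix hm eg
    refine ⟨g, hg, _, ⟨inclGL w rK.out * l⁻¹ * k⁻¹ * (a₁ * r), ?_, rfl⟩, ?_⟩
    · refine LT.BddMod.mono le_rfl ((((hNK rK hrK).mul ?_).mul (LT.BddMod.inv hbk)).mul
        ⟨1, one_mem _, by rwa [one_mul]⟩)
      exact D.bddAt_grp hσ w hfix hm (CC).isBox_J₀ (inv_mem hl)
    · rw [smul_mk]
      congr 1
      simp only [map_mul, map_inv, hle, hkh, hy]
      simp only [τ']
      group
  choose Q hQ hQτ using key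
  refine ⟨⋃ r ∈ R, ⋃ c : B r, Q r c.1 c.2, hR.biUnion fun r _ => ?_, fun q hq => ?_⟩
  · have := (hB r).to_subtype
    exact Set.finite_iUnion fun c => hQ r c.1 c.2
  · obtain ⟨τ, hτ, r, hr, rfl⟩ := hRq q hq
    have hc : ((β τ : PGL(2, Fw)) : PGL(2, Fw) ⧸ (CC).pU) ∈ B r := ⟨τ, hτ, hq, rfl⟩
    obtain ⟨g, hg, q', hq', e⟩ := hQτ r _ hc τ hτ hq rfl
    exact ⟨g, hg, q', Set.mem_iUnion₂.mpr ⟨r, hr, Set.mem_iUnion.mpr ⟨⟨_, hc⟩, hq'⟩⟩, e⟩

/-- A fundamental set meets the twisted classes in a finite set. -/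
theorem finite_inter_setPJ (h : S.IsNormPair σ t δ) {Ω : Set (PGL(2, Fw) ⧸ (CC).pU)}
    (hΩ : IsFundSet (torusAt v t) (torusU v t) Set.univ Ω) :
    (Ω ∩ D.setPJ hσ w hfix hm δ).Finite := by
  obtain ⟨R, hR, hRq⟩ := D.exists_reps_PJ hσ w hfix hm h
  exact Fixed.finite_inter_of_reps hΩ hR (D.finite_torusU_orbit_Q hσ w hfix hm h.regular) hRq

end Setup.Level

end FermatAgent.LTG

end
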