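import Mathlib
import Fermat.Agent.LT.General.Geom.Local.Fixed.Finite

set_option autoImplicit false

/-!
# The twisted orbital sum on the classes

Over the twisted classes it is a multiple of the sum over the cubes of `K`; the other classes with
twist in the group of the level cancel under the shifts of the normalising group.
-/

noncomputable section

open NumberField IsDedekindDomain WithZero
open scoped MatrixGroups

namespace FermatAgent.LTG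

open FermatAgent.LT (galPlace loc GLv locMat)
open FermatAgent.LT.Inert (IsFundSet)
open FermatAgent.LT.TF (twistedSet twisted_mem_iff)
open FermatAgent.LTG.Fixed (LocChar hwSet cubeSet)

local notation "Pm" => Matrix.ProjGenLinGroup.mk

namespace Fixed.LocChar

variable {L : Type*} [Field L] [NumberField L] {u : HeightOneSpectrum (𝓞 L)} (c : LocChar u)

theorem chiP_one : c.chiP 1 = 1 := by
  rw [← map_one Pm, c.chiP_mk (one_mem _)]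
  simp [c.psi_zero]

theorem chiP_inv_mul_pS {x : PGL(2, u.adicCompletion L)} (hx : x ∈ c.pU) :
    c.chiP x⁻¹ * c.chiP (c.pS x) = 1 := by
  rw [c.chiP_pS (c.pU_le_pJ hx), ← c.chiP_mul (c.pU_le_pJ (inv_mem hx)) (c.pU_le_pJ hx),
    inv_mul_cancel, chiP_one]

/-- The upper entry of a product, tested against a shift. -/
theorem psi_upperP_mul {x y : PGL(2, u.adicCompletion L)} (hx : x ∈ c.pJ) (hy : y ∈ c.pJ)
    {ν : u.adicCompletion L} (hν : Fixed.Small c.eH ν) :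
    c.psi (ν * c.upperP (x * y)) = c.psi (ν * c.upperP x) * c.psi (ν * c.upperP y) := by
  obtain ⟨g, hg, rfl⟩ := hx
  obtain ⟨h, hh, rfl⟩ := hy
  rw [← map_mul, c.psi_upperP (mul_mem hg hh) hν, c.psi_upperP hg hν, c.psi_upperP hh hν]
  obtain ⟨hb, ha, -⟩ := c.inBox_entry hg
  obtain ⟨hb', -, hd'⟩ := c.inBox_entry hh
  have hν0 : Fixed.Small 0 ν := hν.anti (Nat.zero_le _)
  have hb0 : Fixed.Small 0 (g.val 0 1) := hb.1
  have hb0' : Fixed.Small 0 (h.val 0 1) := hb'.1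
  have e : ν * (g * h).val 0 1 = (ν * g.val 0 1 + ν * h.val 0 1) +
      ν * ((g.val 0 0 - 1) * h.val 0 1 + (h.val 1 1 - 1) * g.val 0 1) := by
    rw [Units.val_mul, Matrix.mul_apply, Fin.sum_univ_two]
    ring
  have hsmall : Fixed.Small c.e1
      (ν * ((g.val 0 0 - 1) * h.val 0 1 + (h.val 1 1 - 1) * g.val 0 1)) :=
    hν.mul_le (((c.small_boxA ha).mul_le hb0' (k := c.eA) (by omega)).add
      ((c.small_boxA hd').mul_le hb0 (by omega))) (by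
        have := c.e1_le; have := c.eH_add_e3; omega)
  rw [e, c.psi_congr ((hν0.mul hb0).add (hν0.mul hb0')) (by rw [add_sub_cancel_left]; exact hsmall),
    c.psi_add _ _ (hν0.mul hb0) (hν0.mul hb0')]

theorem psi_upperP_twist {x z : PGL(2, u.adicCompletion L)} (hx : x ∈ c.pJ) (hz : z ∈ c.pU)
    {ν : u.adicCompletion L} (hν : c.IsShift ν) :
    c.psi (ν * c.upperP (z⁻¹ * x * c.pS z)) = c.psi (ν * c.upperP x) := by
  have hs : Fixed.Small c.eH ν := (c.mem_boxAp.mp hν.1).1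
  have hν0 : Fixed.Small 0 ν := hs.anti (Nat.zero_le _)
  have hzJ := c.pU_le_pJ hz
  rw [c.psi_upperP_mul (mul_mem (inv_mem hzJ) hx) (c.pS_mem_pJ hzJ) hs,
    c.psi_upperP_mul (inv_mem hzJ) hx hs]
  have h1 : c.psi (ν * c.upperP (c.pS z)) = c.psi (ν * c.upperP z) := by
    obtain ⟨g, hg, rfl⟩ := hzJ
    obtain ⟨hb, -, -⟩ := c.inBox_entry hg
    rw [pS_mk, c.psi_upperP (c.sMap_grpJ hg) hs, c.psi_upperP hg hs,
      show (c.sMap g).val 0 1 = c.s (g.val 0 1) from rfl]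
    have hb0 : Fixed.Small 0 (g.val 0 1) := hb.1
    have hd : c.s (c.s ν) - ν ∈ c.boxA := by
      have := c.s_boxA (c.s_boxA hν.2)
      rwa [map_sub, map_sub, c.s_three] at this
    rw [c.psi_mul_gal hν0 hb0, show c.s (c.s ν) * g.val 0 1 =
      ν * g.val 0 1 + (c.s (c.s ν) - ν) * g.val 0 1 by ring,
      c.psi_add _ _ (hν0.mul hb0) (hd.1.mul hb0), hd.2 _ hb, mul_one]
  have h2 : c.psi (ν * c.upperP 1) = 1 := by
    rw [← map_one Pm, c.psi_upperP (one_mem _) hs]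
    simp [c.psi_zero]
  have h3 := c.psi_upperP_mul (inv_mem hzJ) hzJ hs
  rw [inv_mul_cancel, h2] at h3
  rw [h1, mul_right_comm, ← h3, one_mul]

end Fixed.LocChar

namespace Setup.Level

variable {S : Setup} (D : S.Level) {σ : S.F ≃+* S.F} (hσ : S.IsGalGen σ)
  {v : HeightOneSpectrum (𝓞 S.K)} (w : S.OverK v) (hfix : galPlace σ w.1 = w.1)
  (hm : (S.m : 𝓞 S.F) ∈ w.1.asIdeal) {t : GL (Fin 2) S.K} {δ : GL (Fin 2) S.F}

set_option quotPrecheck false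
local notation "CC" => D.fixChar (Subtype.val w) hσ hfix hm
local notation "Fw" => HeightOneSpectrum.adicCompletion (↥(Setup.F S)) (Subtype.val w)
local notation "δw" => (Pm (locMat (Subtype.val w) δ) : PGL(2, Fw))

attribute [local instance] pglAct

variable (δ) in
/-- The twist of the chosen representative. -/
def twistOut (q : PGL(2, Fw) ⧸ (CC).pU) : PGL(2, Fw) := q.out⁻¹ * δw * (CC).pS q.out

variable (δ) in
open Classical in
/-- The twisted kernel on the classes. -/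
def fX (q : PGL(2, Fw) ⧸ (CC).pU) : ℂ :=
  if q ∈ D.setPJ hσ w hfix hm δ then ((CC).chiP (D.twistOut hσ w hfix hm δ q))⁻¹ else 0

theorem exists_out_eq (x : PGL(2, Fw)) :
    ∃ u ∈ (CC).pU, (x : PGL(2, Fw) ⧸ (CC).pU).out = x * u ∧
      D.twistOut hσ w hfix hm δ (x : PGL(2, Fw) ⧸ (CC).pU) =
        u⁻¹ * (x⁻¹ * δw * (CC).pS x) * (CC).pS u := by
  obtain ⟨⟨u, hu⟩, e⟩ := QuotientGroup.mk_out_eq_mul (CC).pU x
  refine ⟨u, hu, e, ?_⟩
  show (x : PGL(2, Fw) ⧸ (CC).pU).out⁻¹ * δw * (CC).pS (x : PGL(2, Fw) ⧸ (CC).pU).out = _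
  simp only [e, map_mul]
  group

theorem fX_mk {x : PGL(2, Fw)} (hx : x⁻¹ * δw * (CC).pS x ∈ (CC).pJ) :
    D.fX hσ w hfix hm δ (x : PGL(2, Fw) ⧸ (CC).pU) = ((CC).chiP (x⁻¹ * δw * (CC).pS x))⁻¹ := by
  rw [fX, if_pos (show (x : PGL(2, Fw) ⧸ (CC).pU) ∈ D.setPJ hσ w hfix hm δ from ⟨x, rfl, hx⟩)]
  obtain ⟨u, hu, -, e⟩ := D.exists_out_eq (δ := δ) hσ w hfix hm x
  have huJ := (CC).pU_le_pJ hu
  rw [e, (CC).chiP_mul (mul_mem (inv_mem huJ) hx) ((CC).pS_mem_pJ huJ),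
    (CC).chiP_mul (inv_mem huJ) hx, mul_right_comm, (CC).chiP_inv_mul_pS hu, one_mul]

theorem fX_eq_zero {q : PGL(2, Fw) ⧸ (CC).pU} (hq : q ∉ D.setPJ hσ w hfix hm δ) :
    D.fX hσ w hfix hm δ q = 0 := if_neg hq

theorem twist_smul (h : S.IsNormPair σ t δ) {g : GLv v} (hg : g ∈ torusAt v t) (x : PGL(2, Fw)) :
    (Pm (inclGL w g) * x)⁻¹ * δw * (CC).pS (Pm (inclGL w g) * x) = x⁻¹ * δw * (CC).pS x := by
  have hc : Pm (inclGL w g) * δw = δw * Pm (inclGL w g) := by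
    rw [← map_mul, ← map_mul, torus_comm_delta w hσ h hg]
  rw [map_mul, pS_inclGL,
    show (Pm (inclGL w g) * x)⁻¹ * δw * (Pm (inclGL w g) * (CC).pS x) =
      x⁻¹ * ((Pm (inclGL w g))⁻¹ * (δw * Pm (inclGL w g))) * (CC).pS x by group, ← hc,
    inv_mul_cancel_left]

theorem fX_smul (h : S.IsNormPair σ t δ) {g : GLv v} (hg : g ∈ torusAt v t)
    (q : PGL(2, Fw) ⧸ (CC).pU) : D.fX hσ w hfix hm δ (g • q) = D.fX hσ w hfix hm δ q := by
  obtain ⟨x, rfl⟩ := QuotientGroup.mk_surjective q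
  by_cases hq : (x : PGL(2, Fw) ⧸ (CC).pU) ∈ D.setPJ hσ w hfix hm δ
  · have hj := D.twist_mem_pJ hσ w hfix hm hq
    rw [smul_mk, fX_mk _ _ _ _ _ (by rwa [D.twist_smul hσ w hfix hm h hg]),
      D.twist_smul hσ w hfix hm h hg, fX_mk _ _ _ _ _ hj]
  · rw [D.fX_eq_zero hσ w hfix hm hq, D.fX_eq_zero hσ w hfix hm fun hc => hq ?_]
    have := D.smul_setPJ hσ w hfix hm h (inv_mem hg) hc
    rwa [inv_smul_smul] at this

open Classical in
/-- The kernel of `K` on the cubes. -/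
def fC (γ : PGL(2, Fw)) (q : PGL(2, Fw) ⧸ (CC).pU) : ℂ :=
  if h : q ∈ cubeSet (CC).pS (CC).pU γ then ((CC).chiP h.choose_spec.choose)⁻¹ else 0

set_option maxHeartbeats 500000 in
theorem fC_eq {γ y c : PGL(2, Fw)} (hy : (CC).pS y = y) (hc : c ∈ (CC).pU)
    (hcs : (CC).pS c = c) (h3 : c * c * c = y⁻¹ * γ * y) :
    D.fC hσ w hfix hm γ (y : PGL(2, Fw) ⧸ (CC).pU) = ((CC).chiP c)⁻¹ := by
  have hq : (y : PGL(2, Fw) ⧸ (CC).pU) ∈ cubeSet (CC).pS (CC).pU γ :=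
    ⟨y, c, hy, rfl, hc, hcs, h3⟩
  rw [fC, dif_pos hq]
  obtain ⟨a1, a2, a3, a4, a5⟩ := hq.choose_spec.choose_spec
  set y' := hq.choose
  set c' := hq.choose_spec.choose
  have hu : y⁻¹ * y' ∈ (CC).pU := QuotientGroup.eq.mp a2.symm
  set u := y⁻¹ * y'
  have e : c' = u⁻¹ * c * u := by
    refine (CC).pU_uniq _ a3 _ (mul_mem (mul_mem (inv_mem hu) hc) hu) ?_
    calc c' * c' * c' = u⁻¹ * (y⁻¹ * γ * y) * u := by
          rw [show c' * c' * c' = y'⁻¹ * γ * y' from a5]; simp only [u]; group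
      _ = u⁻¹ * (c * c * c) * u := by rw [h3]
      _ = _ := by group
  rw [e, ((CC).chiP_conj hc hcs ((CC).sliceHyp.le hu)).2]

/-- A weight on the classes invariant under the torus and the normalising group. -/
structure IsWeight (t : GL (Fin 2) S.K) (W : PGL(2, Fw) ⧸ (CC).pU → ℂ) : Prop where
  torus : ∀ z ∈ LT.Classes.torus (Pm (inclGL w (locMat v t))), ∀ x : PGL(2, Fw),
    W ((z * x : PGL(2, Fw)) : PGL(2, Fw) ⧸ (CC).pU) = W (x : PGL(2, Fw) ⧸ (CC).pU)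
  right : ∀ k ∈ (CC).pH, ∀ x : PGL(2, Fw),
    W ((x * k : PGL(2, Fw)) : PGL(2, Fw) ⧸ (CC).pU) = W (x : PGL(2, Fw) ⧸ (CC).pU)

theorem mem_pgl_torus {g : GLv v} (hg : g ∈ torusAt v t) :
    Pm (inclGL w g) ∈ LT.Classes.torus (Pm (inclGL w (locMat v t))) := by
  refine LT.Classes.mem_torus_mk.mpr ⟨inclGL w g, ?_, rfl⟩
  rw [← Units.val_mul, ← Units.val_mul, ← map_mul, ← map_mul,
    Subgroup.mem_centralizer_singleton_iff.mp hg]

theorem weight_smul {W : PGL(2, Fw) ⧸ (CC).pU → ℂ} (hW : D.IsWeight hσ w hfix hm t W) {g : GLv v} (hg : g ∈ torusAt v t)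
    (q : PGL(2, Fw) ⧸ (CC).pU) : W (g • q) = W q := by
  obtain ⟨x, rfl⟩ := QuotientGroup.mk_surjective q
  rw [smul_mk]
  exact hW.torus _ (mem_pgl_torus w hg) x

theorem twistedSet_subset : twistedSet (CC).pS (CC).pU δw ⊆ D.setPJ hσ w hfix hm δ :=
  fun _ ⟨x, e, hx⟩ => ⟨x, e, (CC).pU_le_pJ hx⟩

variable (h : S.IsNormPair σ t δ)
include h

theorem cube_sum {Ω : Set (PGL(2, Fw) ⧸ (CC).pU)}
    (hΩ : IsFundSet (torusAt v t) (torusU v t) Set.univ Ω) {W : PGL(2, Fw) ⧸ (CC).pU → ℂ} (hW : D.IsWeight hσ w hfix hm t W) :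
    ∃ H : ℕ,
      H = Nat.card (hwSet (CC).pS (CC).pU (CC).pH) ∧
      (Ω ∩ cubeSet (CC).pS (CC).pU (Pm (inclGL w (locMat v t)))).Finite ∧
      ∑ᶠ q ∈ Ω ∩ twistedSet (CC).pS (CC).pU δw, D.fX hσ w hfix hm δ q * W q =
        H * ∑ᶠ q ∈ Ω ∩ cubeSet (CC).pS (CC).pU (Pm (inclGL w (locMat v t))),
          D.fC hσ w hfix hm (Pm (inclGL w (locMat v t))) q * W q := by
  classical
  refine ⟨_, rfl, ?_⟩
  set γ := Pm (inclGL w (locMat v t))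
  have hT := D.isTorus_pgl hσ w hfix hm h
  have hnm := D.nm_delta hσ w hfix hm h
  have hcent : ∀ x, x * x * x = LT.TF.nm (CC).pS δw → x ∈ LT.Classes.torus γ := by
    intro x hx
    rw [hnm] at hx
    induction x using Matrix.ProjGenLinGroup.induction_on with | mk X => ?_
    rw [← map_mul, ← map_mul, LT.Classes.mk_eq_mk_iff_smul] at hx
    obtain ⟨c, hc⟩ := hx
    refine LT.Classes.mem_torus_mk.mpr ⟨X, ?_, rfl⟩
    rw [← hc, Matrix.mul_smul, Matrix.smul_mul, Units.val_mul, Units.val_mul]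
    simp only [Matrix.mul_assoc]
  obtain ⟨Φ, hbij, heq, hrep⟩ :=
    Fixed.exists_slice (CC).sliceHyp hT (delta_mem_torus hσ w h) hcent
  rw [hnm] at hbij heq hrep
  have hCT : ∀ g ∈ torusAt v t, ∀ q ∈ cubeSet (CC).pS (CC).pU γ,
      g • q ∈ cubeSet (CC).pS (CC).pU γ ∧ ∀ r ∈ hwSet (CC).pS (CC).pU (CC).pH,
        Φ (g • q) r = g • Φ q r := by
    intro g hg q hq
    have hfx := D.pS_inclGL hσ w hfix hm g
    refine ⟨?_, fun r hr => (heq _ (mem_pgl_torus w hg) hfx q hq r hr).2⟩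
    exact (heq _ (mem_pgl_torus w hg) hfx q hq ((1 : PGL(2, Fw)) : PGL(2, Fw) ⧸ (CC).pU)
      ⟨1, one_mem _, by simp, rfl⟩).1
  have hw : (hwSet (CC).pS (CC).pU (CC).pH).Finite := by
    refine (D.finite_bdd_image hσ w hfix hm 0).subset ?_
    rintro _ ⟨k, ⟨g, hg, rfl⟩, -, rfl⟩
    exact ⟨g, D.bddAt_grp hσ w hfix hm (CC).isBox_H hg, rfl⟩
  have hone : ((1 : PGL(2, Fw)) : PGL(2, Fw) ⧸ (CC).pU) ∈ hwSet (CC).pS (CC).pU (CC).pH :=
    ⟨1, one_mem _, by simp, rfl⟩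
  set Ωc := Ω ∩ cubeSet (CC).pS (CC).pU γ with hΩc_def
  set Ωt := Ω ∩ twistedSet (CC).pS (CC).pU δw
  have htwT : ∀ g ∈ torusAt v t, ∀ q ∈ twistedSet (CC).pS (CC).pU δw,
      g • q ∈ twistedSet (CC).pS (CC).pU δw := by
    rintro g hg _ ⟨x, rfl, hx⟩
    exact ⟨Pm (inclGL w g) * x, (D.smul_mk hσ w hfix hm g x).symm, by
      rwa [D.twist_smul hσ w hfix hm h hg]⟩
  have hle := (torusU_le' (u := v) h.regular).1
  have h1 : IsFundSet (torusAt v t) (torusU v t) (twistedSet (CC).pS (CC).pU δw) Ωt := by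
    refine ⟨Set.inter_subset_right, fun u hu x hx => ⟨hΩ.stable u hu x hx.1,
      htwT u (hle hu) x hx.2⟩, fun x hx => ?_, fun x hx g hg hgx => hΩ.unique x hx.1 g hg hgx.1⟩
    obtain ⟨g, hg, hgx⟩ := hΩ.cover x trivial
    exact ⟨g, hg, hgx, htwT g hg x hx⟩
  set Ω' := (fun p : (PGL(2, Fw) ⧸ (CC).pU) × (PGL(2, Fw) ⧸ (CC).pU) => Φ p.1 p.2) ''
    (Ωc ×ˢ hwSet (CC).pS (CC).pU (CC).pH) with hΩ'_def
  have h2 : IsFundSet (torusAt v t) (torusU v t) (twistedSet (CC).pS (CC).pU δw) Ω' := by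
    refine ⟨?_, ?_, fun x hx => ?_, ?_⟩
    · rintro _ ⟨⟨q, r⟩, ⟨hq, hr⟩, rfl⟩
      exact hbij.mapsTo ⟨hq.2, hr⟩
    · rintro u hu _ ⟨⟨q, r⟩, ⟨hq, hr⟩, rfl⟩
      exact ⟨(u • q, r), ⟨⟨hΩ.stable u hu q hq.1, (hCT u (hle hu) q hq.2).1⟩, hr⟩,
        (hCT u (hle hu) q hq.2).2 r hr⟩
    · obtain ⟨⟨q, r⟩, ⟨hq, hr⟩, rfl⟩ := hbij.surjOn hx
      obtain ⟨g, hg, hgq⟩ := hΩ.cover q trivial
      exact ⟨g, hg, (g • q, r), ⟨⟨hgq, (hCT g hg q hq).1⟩, hr⟩, (hCT g hg q hq).2 r hr⟩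
    · rintro _ ⟨⟨q, r⟩, ⟨hq, hr⟩, rfl⟩ g hg ⟨⟨q', r'⟩, ⟨hq', hr'⟩, e⟩
      simp only at e
      rw [← (hCT g hg q hq.2).2 r hr] at e
      have he : (q', r') = (g • q, r) :=
        hbij.injOn (⟨hq'.2, hr'⟩ : (q', r') ∈ cubeSet (CC).pS (CC).pU γ ×ˢ _)
          ⟨(hCT g hg q hq.2).1, hr⟩ e
      rw [Prod.mk.injEq] at he
      obtain ⟨u, hu, hgu⟩ := hΩ.unique q hq.1 g hg (he.1 ▸ hq'.1)
      refine ⟨u, hu, ?_⟩
      show g • Φ q r = u • Φ q r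
      rw [← (hCT g hg q hq.2).2 r hr, ← (hCT u (hle hu) q hq.2).2 r hr, hgu]
  have hinjP : Set.InjOn (fun p : (PGL(2, Fw) ⧸ (CC).pU) × (PGL(2, Fw) ⧸ (CC).pU) => Φ p.1 p.2)
      (Ωc ×ˢ hwSet (CC).pS (CC).pU (CC).pH) :=
    hbij.injOn.mono (Set.prod_mono Set.inter_subset_right subset_rfl)
  obtain ⟨hf1, hf2⟩ := IsFundSet.finsum_eq hle (torusAt_comm' h.regular) h1 h2
    (Φ := fun q => D.fX hσ w hfix hm δ q * W q) fun g hg x _ => by
      rw [D.fX_smul hσ w hfix hm h hg, D.weight_smul hσ w hfix hm hW hg]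
  have hΩtf : Ωt.Finite := (D.finite_inter_setPJ hσ w hfix hm h hΩ).subset
    (Set.inter_subset_inter_right _ (D.twistedSet_subset hσ w hfix hm))
  have hne : ∀ q ∈ twistedSet (CC).pS (CC).pU δw, D.fX hσ w hfix hm δ q ≠ 0 := by
    rintro _ ⟨x, rfl, hx⟩
    rw [fX_mk _ _ _ _ _ ((CC).pU_le_pJ hx)]
    obtain ⟨g, hg, hgx⟩ := (CC).pU_le_pJ hx
    rw [← hgx, (CC).chiP_mk hg]
    exact inv_ne_zero ((CC).psi_ne_zero ((CC).inBox_entry hg).1.1)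
  have hΩ'f : Ω'.Finite := by
    have h4 := (IsFundSet.finsum_eq hle (torusAt_comm' h.regular) h1 h2
      (Φ := fun q => D.fX hσ w hfix hm δ q) fun g hg x _ => D.fX_smul hσ w hfix hm h hg x).1
      (hΩtf.inter_of_left _)
    exact h4.subset fun q hq => ⟨hq, hne q (h2.subset hq)⟩
  have hΩcf : Ωc.Finite := by
    refine Set.Finite.of_finite_image (f := fun q => Φ q ((1 : PGL(2, Fw)) : _ ⧸ (CC).pU))
      (hΩ'f.subset ?_) fun a ha b hb e => (Prod.mk.inj (hinjP (⟨ha, hone⟩ : (a, _) ∈ Ωc ×ˢ _)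
        (⟨hb, hone⟩ : (b, _) ∈ Ωc ×ˢ _) e)).1
    rintro _ ⟨q, hq, rfl⟩
    exact ⟨(q, _), ⟨hq, hone⟩, rfl⟩
  refine ⟨hΩcf, ?_⟩
  rw [hf2, hΩ'_def, finsum_mem_image hinjP,
    finsum_mem_eq_finite_toFinset_sum _ (hΩcf.prod hw),
    finsum_mem_eq_finite_toFinset_sum _ hΩcf, ← Set.Finite.toFinset_prod hΩcf hw,
    Finset.sum_product, Finset.mul_sum]
  refine Finset.sum_congr rfl fun q hq => ?_
  rw [Set.Finite.mem_toFinset] at hq
  rw [Nat.card_eq_card_finite_toFinset hw]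
  rw [Finset.sum_congr rfl (g := fun _ => D.fC hσ w hfix hm γ q * W q) fun r hr => ?_,
    Finset.sum_const, nsmul_eq_mul]
  rw [Set.Finite.mem_toFinset] at hr
  obtain ⟨y, c, z, k, hy, hyq, hc, hcs, hc3, hz, hk, hkw, hkr, hΦ, hv⟩ := hrep q hq.2 r hr
  show D.fX hσ w hfix hm δ (Φ q r) * W (Φ q r) = _
  have hval : k⁻¹ * c * (CC).pS k = k⁻¹ * c * k * (k⁻¹ * (CC).pS k) := by group
  obtain ⟨hcU, hcχ⟩ := (CC).chiP_conj hc hcs hk
  have hmem : k⁻¹ * c * (CC).pS k ∈ (CC).pU := by rw [hval]; exact mul_mem hcU hkw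
  rw [hΦ, fX_mk _ _ _ _ _ (by rw [hv]; exact (CC).pU_le_pJ hmem), hv, hval,
    (CC).chiP_mul ((CC).pU_le_pJ hcU) ((CC).pU_le_pJ hkw), hcχ, (CC).chiP_twist hk hkw, mul_one,
    hW.right k hk, hW.torus z hz, ← hyq, D.fC_eq hσ w hfix hm hy hc hcs hc3]

/-- The classes outside the twisted ones cancel. -/
theorem sum_outside_eq_zero {Ω : Set (PGL(2, Fw) ⧸ (CC).pU)}
    (hΩ : IsFundSet (torusAt v t) (torusU v t) Set.univ Ω) {W : PGL(2, Fw) ⧸ (CC).pU → ℂ} (hW : D.IsWeight hσ w hfix hm t W) :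
    ∑ᶠ q ∈ Ω ∩ (D.setPJ hσ w hfix hm δ \ twistedSet (CC).pS (CC).pU δw),
      D.fX hσ w hfix hm δ q * W q = 0 := by
  classical
  set P := D.setPJ hσ w hfix hm δ \ twistedSet (CC).pS (CC).pU δw
  have hfin : (Ω ∩ P).Finite := (D.finite_inter_setPJ hσ w hfix hm h hΩ).subset
    (Set.inter_subset_inter_right _ Set.sdiff_subset)
  -- the classes separated by the shifts
  let cl : PGL(2, Fw) ⧸ (CC).pU → Fw → ℂ := fun q ν =>
    if (CC).IsShift ν then (CC).psi (ν * (CC).upperP (D.twistOut hσ w hfix hm δ q)) else 1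
  have hcl : ∀ {x : PGL(2, Fw)}, x⁻¹ * δw * (CC).pS x ∈ (CC).pJ → ∀ {ν}, (CC).IsShift ν →
      cl (x : PGL(2, Fw) ⧸ (CC).pU) ν =
        (CC).psi (ν * (CC).upperP (x⁻¹ * δw * (CC).pS x)) := by
    intro x hx ν hν
    obtain ⟨u, hu, -, e⟩ := D.exists_out_eq (δ := δ) hσ w hfix hm x
    simp only [cl, if_pos hν, e]
    exact (CC).psi_upperP_twist hx hu hν
  have hclx : ∀ {x y : PGL(2, Fw)}, x⁻¹ * δw * (CC).pS x ∈ (CC).pJ →
      y⁻¹ * δw * (CC).pS y ∈ (CC).pJ →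
      (∀ ν, (CC).IsShift ν → (CC).psi (ν * (CC).upperP (x⁻¹ * δw * (CC).pS x)) =
        (CC).psi (ν * (CC).upperP (y⁻¹ * δw * (CC).pS y))) →
      cl (x : PGL(2, Fw) ⧸ (CC).pU) = cl (y : PGL(2, Fw) ⧸ (CC).pU) := fun {x y} hx hy hxy => by
    funext ν
    by_cases hν : (CC).IsShift ν
    · rw [hcl hx hν, hcl hy hν]; exact hxy ν hν
    · simp only [cl, if_neg hν]
  have hP : ∀ {x : PGL(2, Fw)}, (x : PGL(2, Fw) ⧸ (CC).pU) ∈ P ↔
      x⁻¹ * δw * (CC).pS x ∈ (CC).pJ ∧ x⁻¹ * δw * (CC).pS x ∉ (CC).pU := fun {x} => by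
    refine ⟨fun hx => ⟨D.twist_mem_pJ hσ w hfix hm hx.1, fun hU => hx.2 ⟨x, rfl, hU⟩⟩,
      fun hx => ⟨⟨x, rfl, hx.1⟩, ?_⟩⟩
    rintro ⟨y, hy, hyU⟩
    exact hx.2 (twisted_mem_iff (CC).pS (fun _ => (CC).pS_mem_pU) hy hyU)
  rw [finsum_mem_eq_finite_toFinset_sum _ hfin,
    ← Finset.sum_fiberwise_of_maps_to (t := hfin.toFinset.image cl) (g := cl)
      fun x hx => Finset.mem_image_of_mem cl hx]
  refine Finset.sum_eq_zero fun c hc => ?_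
  obtain ⟨q₀, hq₀, rfl⟩ := Finset.mem_image.mp hc
  rw [Set.Finite.mem_toFinset] at hq₀
  obtain ⟨x₀, rfl⟩ := QuotientGroup.mk_surjective q₀
  obtain ⟨hJ₀, hU₀⟩ := hP.mp hq₀.2
  obtain ⟨ν, hν, -, hne⟩ := (CC).exists_shift_ne hJ₀ hU₀
  obtain ⟨k, hk, hks, hkv⟩ := (CC).exists_shift_elt hν
  set a := ((CC).psi (ν * (CC).upperP (x₀⁻¹ * δw * (CC).pS x₀)))⁻¹
  set Pc := {q ∈ P | cl q = cl (x₀ : PGL(2, Fw) ⧸ (CC).pU)}
  set F := fun q => D.fX hσ w hfix hm δ q * W q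
  rw [show ∑ q ∈ hfin.toFinset with cl q = cl (x₀ : PGL(2, Fw) ⧸ (CC).pU), F q =
      ∑ᶠ q ∈ Ω ∩ Pc, F q by
    rw [finsum_mem_eq_finite_toFinset_sum _ (hfin.subset fun q hq => ⟨hq.1, hq.2.1⟩)]
    refine Finset.sum_congr (Finset.ext fun q => ?_) fun _ _ => rfl
    simp only [Finset.mem_filter, Set.Finite.mem_toFinset, Pc, Set.mem_inter_iff,
      Set.mem_ofPred_eq]
    tauto]
  -- the translation by the shift
  have hkH : Pm k ∈ (CC).pH := ⟨k, hk, rfl⟩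
  let R : PGL(2, Fw) ⧸ (CC).pU → PGL(2, Fw) ⧸ (CC).pU := fun q =>
    ((q.out * Pm k : PGL(2, Fw)) : PGL(2, Fw) ⧸ (CC).pU)
  have hR : ∀ x : PGL(2, Fw), R (x : PGL(2, Fw) ⧸ (CC).pU) =
      ((x * Pm k : PGL(2, Fw)) : PGL(2, Fw) ⧸ (CC).pU) := fun x => by
    obtain ⟨u, hu, e, -⟩ := D.exists_out_eq (δ := δ) hσ w hfix hm x
    show (((x : PGL(2, Fw) ⧸ (CC).pU).out * Pm k : PGL(2, Fw)) : PGL(2, Fw) ⧸ (CC).pU) = _
    rw [e, show x * u * Pm k = x * Pm k * ((Pm k)⁻¹ * u * Pm k) by group,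
      QuotientGroup.mk_mul_of_mem _ ((CC).sliceHyp.normal _ hkH u hu)]
  have htw : ∀ x : PGL(2, Fw), (x * Pm k)⁻¹ * δw * (CC).pS (x * Pm k) =
      (Pm k)⁻¹ * (x⁻¹ * δw * (CC).pS x) * (CC).pS (Pm k) := fun x => by rw [map_mul]; group
  have hσk : (Pm k)⁻¹ * (CC).pS (Pm k) ∈ (CC).pU :=
    ⟨_, hks, by rw [(CC).pS_mk, map_mul, map_inv]⟩
  have hfwd : ∀ {x : PGL(2, Fw)}, (x : PGL(2, Fw) ⧸ (CC).pU) ∈ Pc →
      ((x * Pm k : PGL(2, Fw)) : PGL(2, Fw) ⧸ (CC).pU) ∈ Pc ∧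
        F ((x * Pm k : PGL(2, Fw)) : PGL(2, Fw) ⧸ (CC).pU) = a * F (x : PGL(2, Fw) ⧸ (CC).pU) := by
    intro x hx
    obtain ⟨hJ, hU⟩ := hP.mp hx.1
    obtain ⟨m1, m2, m3⟩ := (CC).shift_mul hν hk hks hkv hJ
    rw [← htw] at m1 m2 m3
    refine ⟨⟨hP.mpr ⟨m1, fun hc => hU ?_⟩, ?_⟩, ?_⟩
    · have h1 : x⁻¹ * δw * (CC).pS x = Pm k * ((x * Pm k)⁻¹ * δw * (CC).pS (x * Pm k)) *
          (Pm k)⁻¹ * (Pm k * ((Pm k)⁻¹ * (CC).pS (Pm k))⁻¹ * (Pm k)⁻¹) := by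
        rw [htw]; group
      rw [h1]
      have hn : ∀ z ∈ (CC).pU, Pm k * z * (Pm k)⁻¹ ∈ (CC).pU := fun z hz => by
        simpa using (CC).sliceHyp.normal _ (inv_mem hkH) z hz
      exact mul_mem (hn _ hc) (hn _ (inv_mem hσk))
    · rw [← hx.2]
      exact hclx m1 hJ fun μ hμ => m3 μ ((CC).mem_boxAp.mp hμ.1).1
    · simp only [F]
      rw [fX_mk _ _ _ _ _ m1, fX_mk _ _ _ _ _ hJ, m2, hW.right _ hkH, mul_inv]
      have he : ((CC).psi (ν * (CC).upperP (x⁻¹ * δw * (CC).pS x)))⁻¹ = a := by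
        rw [← hcl hJ hν, hx.2, hcl hJ₀ hν]
      rw [he]
      ring
  have hle := (torusU_le' (u := v) h.regular).1
  have hPT : ∀ g ∈ torusAt v t, ∀ q ∈ Pc, g • q ∈ Pc := by
    intro g hg q hq
    obtain ⟨x, rfl⟩ := QuotientGroup.mk_surjective q
    obtain ⟨hJ, hU⟩ := hP.mp hq.1
    have e := D.twist_smul hσ w hfix hm h hg x
    rw [smul_mk]
    refine ⟨hP.mpr (by rw [e]; exact ⟨hJ, hU⟩), ?_⟩
    rw [← hq.2]
    exact hclx (by rwa [e]) hJ fun μ _ => by rw [e]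
  have h1 : IsFundSet (torusAt v t) (torusU v t) Pc (Ω ∩ Pc) := by
    refine ⟨Set.inter_subset_right, fun u hu x hx => ⟨hΩ.stable u hu x hx.1,
      hPT u (hle hu) x hx.2⟩, fun x hx => ?_, fun x hx g hg hgx => hΩ.unique x hx.1 g hg hgx.1⟩
    obtain ⟨g, hg, hgx⟩ := hΩ.cover x trivial
    exact ⟨g, hg, hgx, hPT g hg x hx⟩
  have hRsmul : ∀ g ∈ torusAt v t, ∀ q, R (g • q) = g • R q := fun g _ q => by
    obtain ⟨x, rfl⟩ := QuotientGroup.mk_surjective q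
    rw [smul_mk, hR, hR, smul_mk, mul_assoc]
  have hRinj : Function.Injective R := fun q q' e => by
    obtain ⟨x, rfl⟩ := QuotientGroup.mk_surjective q
    obtain ⟨y, rfl⟩ := QuotientGroup.mk_surjective q'
    rw [hR, hR, QuotientGroup.eq] at e
    rw [QuotientGroup.eq]
    have := (CC).sliceHyp.normal _ (inv_mem hkH) _ e
    simpa [mul_assoc] using this
  have hRsurj : ∀ q ∈ Pc, ∃ q' ∈ Pc, R q' = q := by
    intro q hq
    obtain ⟨y, rfl⟩ := QuotientGroup.mk_surjective q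
    obtain ⟨hJ, hU⟩ := hP.mp hq.1
    set x := y * (Pm k)⁻¹
    have hxy : x * Pm k = y := inv_mul_cancel_right _ _
    have e : x⁻¹ * δw * (CC).pS x = Pm k * (y⁻¹ * δw * (CC).pS y) * (Pm k)⁻¹ *
        (Pm k * ((Pm k)⁻¹ * (CC).pS (Pm k))⁻¹ * (Pm k)⁻¹) := by
      simp only [x, map_mul, map_inv]; group
    have hn : ∀ z ∈ (CC).pU, Pm k * z * (Pm k)⁻¹ ∈ (CC).pU := fun z hz => by
      simpa using (CC).sliceHyp.normal _ (inv_mem hkH) z hz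
    have hxJ : x⁻¹ * δw * (CC).pS x ∈ (CC).pJ := by
      rw [e]
      refine mul_mem ?_ ((CC).pU_le_pJ (hn _ (inv_mem hσk)))
      obtain ⟨g, hg, hge⟩ := hJ
      refine ⟨k * g * k⁻¹, ?_, by rw [map_mul, map_mul, map_inv, hge]⟩
      simpa using (CC).normal_grpJ hk hg
    have hxU : x⁻¹ * δw * (CC).pS x ∉ (CC).pU := fun hc => hU (by
      have h3 : y⁻¹ * δw * (CC).pS y =
          (Pm k)⁻¹ * (x⁻¹ * δw * (CC).pS x) * Pm k * ((Pm k)⁻¹ * (CC).pS (Pm k)) := by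
        rw [← hxy]; simp only [map_mul]; group
      rw [h3]
      exact mul_mem ((CC).sliceHyp.normal _ hkH _ hc) hσk)
    refine ⟨(x : PGL(2, Fw) ⧸ (CC).pU), ⟨hP.mpr ⟨hxJ, hxU⟩, ?_⟩, by rw [hR, hxy]⟩
    rw [← hq.2]
    obtain ⟨-, -, m3⟩ := (CC).shift_mul hν hk hks hkv hxJ
    rw [← htw, hxy] at m3
    exact hclx hxJ hJ fun μ hμ => (m3 μ ((CC).mem_boxAp.mp hμ.1).1).symm
  have hRmem : ∀ q ∈ Pc, R q ∈ Pc := fun q hq => by
    obtain ⟨x, rfl⟩ := QuotientGroup.mk_surjective q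
    rw [hR]; exact (hfwd hq).1
  have h2 : IsFundSet (torusAt v t) (torusU v t) Pc (R '' (Ω ∩ Pc)) := by
    refine ⟨?_, ?_, fun y hy => ?_, ?_⟩
    · rintro _ ⟨q, hq, rfl⟩; exact hRmem q hq.2
    · rintro u hu _ ⟨q, hq, rfl⟩
      exact ⟨u • q, h1.stable u hu q hq, hRsmul u (hle hu) q⟩
    · obtain ⟨q, hq, rfl⟩ := hRsurj y hy
      obtain ⟨g, hg, hgq⟩ := h1.cover q hq
      exact ⟨g, hg, g • q, hgq, hRsmul g hg q⟩
    · rintro _ ⟨q, hq, rfl⟩ g hg ⟨q', hq', e⟩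
      rw [← hRsmul g hg] at e
      obtain ⟨u, hu, he⟩ := h1.unique q hq g hg (hRinj e ▸ hq')
      exact ⟨u, hu, by rw [← hRsmul g hg, he, hRsmul u (hle hu)]⟩
  have hmain : ∑ᶠ q ∈ Ω ∩ Pc, F q = a * ∑ᶠ q ∈ Ω ∩ Pc, F q := by
    conv_lhs => rw [(IsFundSet.finsum_eq hle (torusAt_comm' h.regular) h1 h2 (Φ := F)
      fun g hg x _ => by
        simp only [F]
        rw [D.fX_smul hσ w hfix hm h hg, D.weight_smul hσ w hfix hm hW hg]).2,
      finsum_mem_image hRinj.injOn]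
    rw [mul_finsum_mem]
    refine finsum_mem_congr rfl fun q hq => ?_
    obtain ⟨x, rfl⟩ := QuotientGroup.mk_surjective q
    rw [hR]; exact (hfwd hq.2).2
  by_contra hne0
  exact hne (inv_eq_one.mp (mul_eq_right₀ hne0 |>.mp hmain.symm))

end Setup.Level

end FermatAgent.LTG

end
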