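import Mathlib
import Fermat.Agent.LT.General.Geom.Local.Fixed.Twisted
import Fermat.Agent.LT.General.Level.LocalOps

set_option autoImplicit false

/-!
# The weighted orbital sums at a fixed place over `m`

Both local kernels are pulled back from the classes; the ratio of the sums does not depend on the
orbit or on the weight.
-/

noncomputable section

open NumberField IsDedekindDomain WithZero
open scoped MatrixGroups

namespace FermatAgent.LTG

open FermatAgent.LT (galPlace galLoc loc GLv LCos locMat lKer)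
open FermatAgent.LT.Inert (IsFundSet)
open FermatAgent.LTG.Fixed (LocChar hwSet cubeSet)

local notation "Pm" => Matrix.ProjGenLinGroup.mk

namespace Setup.Level

variable {S : Setup} (D : S.Level) {σ : S.F ≃+* S.F} (hσ : S.IsGalGen σ)
  {v : HeightOneSpectrum (𝓞 S.K)} (w : S.OverK v) (hfix : galPlace σ w.1 = w.1)
  (hm : (S.m : 𝓞 S.F) ∈ w.1.asIdeal) {t : GL (Fin 2) S.K} {δ : GL (Fin 2) S.F}

set_option quotPrecheck false
local notation "CC" => D.fixChar (Subtype.val w) hσ hfix hm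
local notation "Fw" => HeightOneSpectrum.adicCompletion (↥(Setup.F S)) (Subtype.val w)
local notation "δw" => (Pm (locMat (Subtype.val w) δ) : PGL(2, Fw))

attribute [local instance] pglAct

theorem galLCos_next (x : D.XF v) :
    galLCos σ w.1 (x (S.nextOver hσ w)) =
      ((((CC).sMap (x w).out) : GLv w.1) : LCos (D.levelIdeal S.F) w.1) := by
  have hsub := subsingleton_overK_fixed hσ w hfix
  show ((Matrix.GeneralLinearGroup.map (galLoc σ w.1) (x (S.nextOver hσ w)).out : GLv w.1) :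
    LCos (D.levelIdeal S.F) w.1) = _
  rw [← out_cast x (Subsingleton.elim (S.nextOver hσ w) w)]
  rfl

/-- The twisted kernel is pulled back from the classes. -/
theorem baseF_eq (x : D.XF v) :
    (D.localOps hσ).baseF hσ δ v x =
      (D.boxF σ).locCst w.1 * D.fX hσ w hfix hm δ (D.pF hσ w hfix hm (x w)) := by
  have hsub := subsingleton_overK_fixed hσ w hfix
  rw [LocalOps.baseF, finprod_eq_single _ w (fun w' hw' => absurd (Subsingleton.elim w' w) hw'),
    galLCos_next D hσ w hfix hm]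
  obtain ⟨a, ha⟩ : ∃ a, a = (x w).out := ⟨_, rfl⟩
  rw [← ha]
  rw [MulAction.Quotient.smul_coe, smul_eq_mul,
    show x w = (a : LCos (D.levelIdeal S.F) w.1) by rw [ha, QuotientGroup.out_eq'], pF_mk]
  show lKer ((D.boxF σ).locOp w.1) _ _ = _
  rw [D.lKer_locOp_fixed hσ w.1 hfix hm, map_mul, map_inv, map_mul, ← (CC).pS_mk, ← mul_assoc]
  by_cases h : (Pm a)⁻¹ * δw * (CC).pS (Pm a) ∈ (CC).pJ
  · rw [if_pos h, D.fX_mk hσ w hfix hm h, mul_comm]
  · rw [if_neg h, D.fX_eq_zero hσ w hfix hm fun hq => h (D.twist_mem_pJ hσ w hfix hm hq), mul_zero]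

theorem fC_zero {γ : PGL(2, Fw)} {q : PGL(2, Fw) ⧸ (CC).pU}
    (hq : q ∉ cubeSet (CC).pS (CC).pU γ) : D.fC hσ w hfix hm γ q = 0 := dif_neg hq

/-- The kernel of `K` is pulled back from the classes. -/
theorem baseK_eq (t : GL (Fin 2) S.K) (y : LCos (D.levelIdeal S.K) v) :
    (D.localOps hσ).baseK t v y = D.boxK.locCst v *
      D.fC hσ w hfix hm (Pm (inclGL w (locMat v t))) (D.pK hσ w hfix hm y) := by
  set γ := Pm (inclGL w (locMat v t))
  obtain ⟨a, rfl⟩ := QuotientGroup.mk_surjective y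
  rw [pK_mk]
  show lKer (D.boxK.locOp v) (a : LCos (D.levelIdeal S.K) v)
    ((locMat v t * a : GLv v) : LCos (D.levelIdeal S.K) v) = _
  set y₀ := Pm (inclGL w a)
  have hy₀ : (CC).pS y₀ = y₀ := D.pS_inclGL hσ w hfix hm a
  have he : Pm (inclGL w (a⁻¹ * (locMat v t * a))) = y₀⁻¹ * γ * y₀ := by
    rw [map_mul, map_mul, map_inv, map_mul, map_inv, map_mul, mul_assoc]
  by_cases hq : (y₀ : PGL(2, Fw) ⧸ (CC).pU) ∈ cubeSet (CC).pS (CC).pU γ
  · obtain ⟨y', c', h1, h2, h3, h4, h5⟩ := hq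
    have hu : y'⁻¹ * y₀ ∈ (CC).pU := QuotientGroup.eq.mp h2
    set u := y'⁻¹ * y₀
    have hus : (CC).pS u = u := by rw [map_mul, map_inv, h1, hy₀]
    have hcU : u⁻¹ * c' * u ∈ (CC).pU := mul_mem (mul_mem (inv_mem hu) h3) hu
    have hcS : (CC).pS (u⁻¹ * c' * u) = u⁻¹ * c' * u := by
      rw [map_mul, map_mul, map_inv, hus, h4]
    have hc3 : u⁻¹ * c' * u * (u⁻¹ * c' * u) * (u⁻¹ * c' * u) = y₀⁻¹ * γ * y₀ := by
      rw [show u⁻¹ * c' * u * (u⁻¹ * c' * u) * (u⁻¹ * c' * u) = u⁻¹ * (c' * c' * c') * u by group,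
        h5]
      simp only [u]
      group
    rw [D.lKer_locOp_fixedK_of_cube hσ w hfix hm _ _ hcU hcS (hc3.trans he.symm),
      D.fC_eq hσ w hfix hm hy₀ hcU hcS hc3, mul_comm]
  · rw [D.fC_zero hσ w hfix hm hq, mul_zero]
    by_contra hne
    obtain ⟨c, hc, hcs, hc3⟩ := D.exists_cube_of_lKer_ne_zero hσ w hfix hm hne
    exact hq ⟨y₀, c, hy₀, rfl, hc, hcs, hc3.trans he⟩

theorem cubeSet_subset_range (γ : PGL(2, Fw)) :
    cubeSet (CC).pS (CC).pU γ ⊆ Set.range (D.pK hσ w hfix hm) := by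
  rintro q ⟨y, c, hy, hq, -⟩
  obtain ⟨g, hg⟩ := D.mem_range_pK hσ w hfix hm hy
  exact ⟨(g : LCos (D.levelIdeal S.K) v), by rw [pK_mk, hg, hq]⟩

theorem smul_cubeSet (t : GL (Fin 2) S.K) {g : GLv v} (hg : g ∈ torusAt v t)
    {q : PGL(2, Fw) ⧸ (CC).pU}
    (hq : q ∈ cubeSet (CC).pS (CC).pU (Pm (inclGL w (locMat v t)))) :
    g • q ∈ cubeSet (CC).pS (CC).pU (Pm (inclGL w (locMat v t))) := by
  obtain ⟨y, c, hy, rfl, hc, hcs, hc3⟩ := hq
  refine ⟨Pm (inclGL w g) * y, c, by rw [map_mul, pS_inclGL, hy], (D.smul_mk hσ w hfix hm g y).symm,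
    hc, hcs, ?_⟩
  rw [hc3, show (Pm (inclGL w g) * y)⁻¹ * Pm (inclGL w (locMat v t)) * (Pm (inclGL w g) * y) =
    y⁻¹ * ((Pm (inclGL w g))⁻¹ * (Pm (inclGL w (locMat v t)) * Pm (inclGL w g))) * y by group,
    show Pm (inclGL w (locMat v t)) * Pm (inclGL w g) = Pm (inclGL w g) * Pm (inclGL w (locMat v t))
      by rw [← map_mul, ← map_mul, ← map_mul, ← map_mul,
        Subgroup.mem_centralizer_singleton_iff.mp hg], inv_mul_cancel_left]

theorem fC_smul (t : GL (Fin 2) S.K) {g : GLv v} (hg : g ∈ torusAt v t)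
    (q : PGL(2, Fw) ⧸ (CC).pU) :
    D.fC hσ w hfix hm (Pm (inclGL w (locMat v t))) (g • q) =
      D.fC hσ w hfix hm (Pm (inclGL w (locMat v t))) q := by
  set γ := Pm (inclGL w (locMat v t))
  by_cases hq : q ∈ cubeSet (CC).pS (CC).pU γ
  · obtain ⟨y, c, hy, rfl, hc, hcs, hc3⟩ := hq
    have hcomm : γ * Pm (inclGL w g) = Pm (inclGL w g) * γ := by
      simp only [γ]
      rw [← map_mul, ← map_mul, ← map_mul, ← map_mul,
        Subgroup.mem_centralizer_singleton_iff.mp hg]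
    rw [smul_mk, D.fC_eq hσ w hfix hm hy hc hcs hc3,
      D.fC_eq hσ w hfix hm (by rw [map_mul, pS_inclGL, hy]) hc hcs (by
        rw [hc3, show (Pm (inclGL w g) * y)⁻¹ * γ * (Pm (inclGL w g) * y) =
          y⁻¹ * ((Pm (inclGL w g))⁻¹ * (γ * Pm (inclGL w g))) * y by group, hcomm,
          inv_mul_cancel_left])]
  · rw [D.fC_zero hσ w hfix hm hq, D.fC_zero hσ w hfix hm fun hc => hq ?_]
    have := D.smul_cubeSet hσ w hfix hm t (inv_mem hg) hc
    rwa [inv_smul_smul] at this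

/-- The ratio of the orbital sums. -/
def fixRatio : ℂ :=
  ((D.boxF σ).locCst w.1 * D.cardF hσ w hfix hm *
    Nat.card (hwSet (CC).pS (CC).pU (CC).pH)) / (D.boxK.locCst v * D.cardK hσ w hfix hm)

theorem one_isWeight (t : GL (Fin 2) S.K) : D.IsWeight hσ w hfix hm t fun _ => 1 :=
  ⟨fun _ _ _ => rfl, fun _ _ _ => rfl⟩

/-- The weighted sums over fundamental sets. -/
theorem sum_fixed (h : S.IsNormPair σ t δ) {W : PGL(2, Fw) ⧸ (CC).pU → ℂ}
    (hW : D.IsWeight hσ w hfix hm t W) {ΩF : Set (D.XF v)}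
    {ΩK : Set (LCos (D.levelIdeal S.K) v)}
    (hF : IsFundSet (torusAt v t) (torusU v t) Set.univ ΩF)
    (hK : IsFundSet (torusAt v t) (torusU v t) Set.univ ΩK) :
    (ΩF ∩ Function.support fun x => (D.localOps hσ).baseF hσ δ v x *
        W (D.pF hσ w hfix hm (x w))).Finite ∧
      ∑ᶠ x ∈ ΩF, (D.localOps hσ).baseF hσ δ v x * W (D.pF hσ w hfix hm (x w)) =
        D.fixRatio hσ w hfix hm *
          ∑ᶠ y ∈ ΩK, (D.localOps hσ).baseK t v y * W (D.pK hσ w hfix hm y) := by
  classical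
  have hle := (torusU_le' (u := v) h.regular).1
  have hcomm := torusAt_comm' (u := v) h.regular
  have hstab : ∀ g ∈ torusAt v t, ∀ q : PGL(2, Fw) ⧸ (CC).pU, g • q = q → g ∈ torusU v t :=
    fun g hg q hq => D.mem_torusU_of_smul_eq_Q hσ w hfix hm hg hq
  obtain ⟨Ω, hΩ⟩ := Fixed.exists_fundSet (α := PGL(2, Fw) ⧸ (CC).pU) hle
  obtain ⟨H, hH, hcf, hcs⟩ := D.cube_sum hσ w hfix hm h hΩ hW
  set γ := Pm (inclGL w (locMat v t))
  set fF := fun q => D.fX hσ w hfix hm δ q * W q with hfF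
  set fK := fun q => D.fC hσ w hfix hm γ q * W q with hfK
  have hsF : fF.support ⊆ D.setPJ hσ w hfix hm δ := fun q hq => by
    by_contra hc
    exact hq (by simp only [fF, D.fX_eq_zero hσ w hfix hm hc, zero_mul])
  have hsK : fK.support ⊆ cubeSet (CC).pS (CC).pU γ := fun q hq => by
    by_contra hc
    exact hq (by simp only [fK, D.fC_zero hσ w hfix hm hc, zero_mul])
  have hsum : ∑ᶠ q ∈ Ω, fF q = H * ∑ᶠ q ∈ Ω, fK q := by
    set A := LT.TF.twistedSet (CC).pS (CC).pU δw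
    rw [← finsum_mem_inter_support fK, show Ω ∩ fK.support =
      (Ω ∩ cubeSet (CC).pS (CC).pU γ) ∩ fK.support by
        rw [Set.inter_assoc, Set.inter_eq_right.mpr hsK],
      finsum_mem_inter_support, ← finsum_mem_inter_support fF, show Ω ∩ fF.support =
        (Ω ∩ D.setPJ hσ w hfix hm δ) ∩ fF.support by
        rw [Set.inter_assoc, Set.inter_eq_right.mpr hsF],
      finsum_mem_inter_support, ← hcs]
    have e : Ω ∩ D.setPJ hσ w hfix hm δ =
        (Ω ∩ A) ∪ (Ω ∩ (D.setPJ hσ w hfix hm δ \ A)) := by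
      rw [← Set.inter_union_distrib_left,
        Set.union_sdiff_cancel (D.twistedSet_subset hσ w hfix hm)]
    have hfin := D.finite_inter_setPJ hσ w hfix hm h hΩ
    rw [e, finsum_mem_union (Set.disjoint_sdiff_right.mono Set.inter_subset_right
        Set.inter_subset_right)
      (hfin.subset (Set.inter_subset_inter_right _ (D.twistedSet_subset hσ w hfix hm)))
      (hfin.subset (Set.inter_subset_inter_right _ Set.sdiff_subset))]
    simp only [fF]
    rw [D.sum_outside_eq_zero hσ w hfix hm h hΩ hW, add_zero]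
  -- the side of `F`
  have hsub := subsingleton_overK_fixed hσ w hfix
  let : Unique (S.OverK v) := { default := w, uniq := fun a => Subsingleton.elim a w }
  let ev : D.XF v ≃ LCos (D.levelIdeal S.F) w.1 :=
    Equiv.piUnique fun u : S.OverK v => LCos (D.levelIdeal S.F) u.1
  let p : D.XF v → PGL(2, Fw) ⧸ (CC).pU := fun x => D.pF hσ w hfix hm (ev x)
  have hfibF : ∀ q ∈ Set.range p, (p ⁻¹' {q}).Finite ∧
      Nat.card (p ⁻¹' {q}) = D.cardF hσ w hfix hm := fun q _ => by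
    obtain ⟨h1, h2⟩ := D.pF_fib hσ w hfix hm q
    rw [show p ⁻¹' {q} = ev ⁻¹' (D.pF hσ w hfix hm ⁻¹' {q}) from rfl]
    exact ⟨h1.preimage ev.injective.injOn,
      (Nat.card_preimage_of_injective ev.injective (by
        rw [ev.surjective.range_eq]; exact fun _ _ => trivial)).trans h2⟩
  have hpF₀ : Function.Surjective (D.pF hσ w hfix hm) := fun q => by
    obtain ⟨x, rfl⟩ := QuotientGroup.mk_surjective q
    induction x using Matrix.ProjGenLinGroup.induction_on with | mk g => ?_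
    exact ⟨(g : LCos _ w.1), D.pF_mk hσ w hfix hm g⟩
  have hpF : Function.Surjective p := hpF₀.comp ev.surjective
  obtain ⟨hF1, hF2⟩ := Fixed.sum_pullback hle hcomm (p := p)
    (fun g _ x => D.pF_smul hσ w hfix hm g x) hstab hfibF hF hΩ (f := fF)
    (fun g hg q => by
      simp only [fF, D.fX_smul hσ w hfix hm h hg, D.weight_smul hσ w hfix hm hW hg])
    ((D.finite_inter_setPJ hσ w hfix hm h hΩ).subset (Set.inter_subset_inter_right _ hsF))
    (by rw [hpF.range_eq]; exact fun _ _ => trivial)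
  -- the side of `K`
  obtain ⟨-, hK2⟩ := Fixed.sum_pullback hle hcomm (p := D.pK hσ w hfix hm)
    (fun g _ y => D.pK_smul hσ w hfix hm g y) hstab (r := D.cardK hσ w hfix hm)
    (fun q hq => by
      obtain ⟨y, rfl⟩ := hq
      obtain ⟨g, rfl⟩ := QuotientGroup.mk_surjective y
      rw [pK_mk]
      exact D.pK_fib hσ w hfix hm g) hK hΩ (f := fK)
    (fun g hg q => by
      simp only [fK, γ, D.fC_smul hσ w hfix hm t hg, D.weight_smul hσ w hfix hm hW hg])
    (hcf.subset (Set.inter_subset_inter_right _ hsK))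
    (hsK.trans (D.cubeSet_subset_range hσ w hfix hm γ))
  have hcF : ∀ x : D.XF v, (D.localOps hσ).baseF hσ δ v x * W (D.pF hσ w hfix hm (x w)) =
      (D.boxF σ).locCst w.1 * fF (p x) := fun x => by
    rw [D.baseF_eq hσ w hfix hm, mul_assoc]; rfl
  refine ⟨hF1.subset fun x ⟨h1, h2⟩ => ⟨h1, ?_⟩, ?_⟩
  · rw [Function.mem_support] at h2
    rw [hcF] at h2
    exact right_ne_zero_of_mul h2
  have hcK : ∀ y, (D.localOps hσ).baseK t v y * W (D.pK hσ w hfix hm y) =
      D.boxK.locCst v * fK (D.pK hσ w hfix hm y) := fun y => by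
    rw [D.baseK_eq hσ w hfix hm, mul_assoc]
  rw [finsum_mem_congr rfl fun x _ => hcF x, ← mul_finsum_mem, hF2, hsum,
    finsum_mem_congr rfl fun y _ => hcK y, ← mul_finsum_mem, hK2, fixRatio, ← hH]
  have h1 : D.boxK.locCst v ≠ 0 := D.isSplit_boxK.locCst_ne_zero v
  have h2 : (D.cardK hσ w hfix hm : ℂ) ≠ 0 := by exact_mod_cast D.cardK_ne_zero hσ w hfix hm
  field_simp

end Setup.Level

end FermatAgent.LTG

end
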