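import Mathlib
import Fermat.Agent.LT.General.Geom.Local.Fixed.Match
import Fermat.Agent.LT.General.Geom.Local.FixedUni

set_option autoImplicit false

/-!
# The matching at the fixed places over `m`

The part at the place is a weight on the classes for a diagonal torus; on those of `K` it is three
times the part at the place below.
-/

noncomputable section

open NumberField IsDedekindDomain WithZero
open scoped MatrixGroups

namespace FermatAgent.LTG

open FermatAgent.LT (galPlace loc GLv LCos locMat lKer IsDiag2 partFin partCos hLoc antiGL)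
open FermatAgent.LT.Inert (IsFundSet)
open FermatAgent.LTG.Fixed (LocChar)

local notation "Pm" => Matrix.ProjGenLinGroup.mk

section Norm

variable {S : Setup} {σ : S.F ≃+* S.F} (hσ : S.IsGalGen σ) {v : HeightOneSpectrum (𝓞 S.K)}
  (w : S.OverK v) (hfix : galPlace σ w.1 = w.1)

include hσ hfix in
theorem hLoc_inclGL (M : GLv v) : hLoc w.1 (inclGL w M) = hLoc v M ^ 3 := by
  have hn := norm_inclOver_fixed hσ w hfix
  have hd : (inclGL w M).val.det = S.inclOver w M.val.det := ((S.inclOver w).map_det _).symm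
  have he : ∀ i j, (inclGL w M).val i j = S.inclOver w (M.val i j) := fun _ _ => rfl
  have hmax : ∀ x y : ℝ, 0 ≤ x → 0 ≤ y → max (x ^ 3) (y ^ 3) = max x y ^ 3 := fun x y hx hy => by
    rcases le_total x y with h | h
    · rw [max_eq_right h, max_eq_right (pow_le_pow_left₀ hx h 3)]
    · rw [max_eq_left h, max_eq_left (pow_le_pow_left₀ hy h 3)]
  rw [hLoc, hLoc, hd, he, he, hn, hn, hn, hmax _ _ (norm_nonneg _) (norm_nonneg _), div_pow,
    ← pow_mul, ← pow_mul]

include hσ hfix in
theorem partFin_inclGL (M : GLv v) : partFin w.1 (inclGL w M) = 3 * partFin v M := by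
  rw [partFin, partFin, show antiGL _ * inclGL w M = inclGL w (antiGL _ * M) by
    rw [map_mul]; congr 1; exact (LT.map_antiGL (S.inclOver w)).symm,
    hLoc_inclGL hσ w hfix, hLoc_inclGL hσ w hfix, ← mul_pow, Real.log_pow]
  push_cast
  ring

end Norm

namespace Setup.Level

variable {S : Setup} (D : S.Level) {σ : S.F ≃+* S.F} (hσ : S.IsGalGen σ)
  {v : HeightOneSpectrum (𝓞 S.K)} (w : S.OverK v) (hfix : galPlace σ w.1 = w.1)
  (hm : (S.m : 𝓞 S.F) ∈ w.1.asIdeal) {t : GL (Fin 2) S.K} {δ : GL (Fin 2) S.F}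

set_option quotPrecheck false
local notation "CC" => D.fixChar (Subtype.val w) hσ hfix hm
local notation "Fw" => HeightOneSpectrum.adicCompletion (↥(Setup.F S)) (Subtype.val w)

attribute [local instance] pglAct

theorem partFin_mul_grp {A B C : AddSubgroup Fw} (h : (CC).IsBox A B C) {k : GLv w.1}
    (hk : k ∈ (CC).boxGrp h) {z : GLv w.1} (hz : z ∈ Subgroup.center (GLv w.1)) (g : GLv w.1) :
    partFin w.1 (g * (k * z)) = partFin w.1 g := by
  refine LT.partFin_mul_level (𝔫 := (⊤ : Ideal (𝓞 S.F))) g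
    (mul_mem (Subgroup.mem_sup_left ?_) (Subgroup.mem_sup_right hz))
  have hu0 := Fixed.Radii.mem_locInt_of_mem h hk
  rw [LT.locCongr_eq_int (fun h => w.1.isPrime.ne_top (top_le_iff.mp h))]
  exact LT.mem_locInt_of_entries _ (fun i j => (LT.CO.smallM_of_mem hu0).le_one i j)
    (LT.CO.valued_det_eq_one hu0)

/-- The part at the place, on the classes. -/
def partClass (q : PGL(2, Fw) ⧸ (CC).pU) : ℂ :=
  (partFin w.1 (Matrix.ProjGenLinGroup.mk_surjective q.out).choose : ℂ)

theorem partClass_mk (g : GLv w.1) :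
    D.partClass hσ w hfix hm ((Pm g : PGL(2, Fw)) : PGL(2, Fw) ⧸ (CC).pU) =
      (partFin w.1 g : ℂ) := by
  obtain ⟨⟨u, k, hk, hku⟩, e⟩ := QuotientGroup.mk_out_eq_mul (CC).pU (Pm g : PGL(2, Fw))
  set q : PGL(2, Fw) ⧸ (CC).pU := ((Pm g : PGL(2, Fw)) : PGL(2, Fw) ⧸ (CC).pU)
  have ha : Pm (Matrix.ProjGenLinGroup.mk_surjective q.out).choose = q.out :=
    (Matrix.ProjGenLinGroup.mk_surjective q.out).choose_spec
  rw [partClass]
  set a := (Matrix.ProjGenLinGroup.mk_surjective q.out).choose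
  rw [e] at ha
  simp only at ha
  rw [← hku, ← map_mul] at ha
  have hz : (g * k)⁻¹ * a ∈ Subgroup.center (GLv w.1) := by
    rw [← Matrix.ProjGenLinGroup.mk_eq_one, map_mul, map_inv, ha, inv_mul_cancel]
  rw [show a = g * (k * ((g * k)⁻¹ * a)) by group,
    D.partFin_mul_grp hσ w hfix hm (CC).isBox_J₀ hk hz]

theorem partClass_pF (q : LCos (D.levelIdeal S.F) w.1) :
    D.partClass hσ w hfix hm (D.pF hσ w hfix hm q) = (partCos w.1 q : ℂ) :=
  D.partClass_mk hσ w hfix hm q.out

theorem partClass_pK (y : LCos (D.levelIdeal S.K) v) :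
    D.partClass hσ w hfix hm (D.pK hσ w hfix hm y) = 3 * (partCos v y : ℂ) := by
  rw [pK, D.partClass_mk hσ w hfix hm, partFin_inclGL hσ w hfix, Complex.ofReal_mul]
  norm_num [partCos]

theorem partClass_isWeight {a : S.K}
    (ht : (t : Matrix (Fin 2) (Fin 2) S.K).trace ^ 2 ≠ 4 * (t : Matrix (Fin 2) (Fin 2) S.K).det)
    (ha : (t : Matrix (Fin 2) (Fin 2) S.K) = Matrix.diagonal ![a, 1]) :
    D.IsWeight hσ w hfix hm t (D.partClass hσ w hfix hm) := by
  refine ⟨fun z hz x => ?_, fun k hk x => ?_⟩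
  · induction x using Matrix.ProjGenLinGroup.induction_on with | mk g => ?_
    obtain ⟨M, hM, rfl⟩ := LT.Classes.mem_torus_mk.mp hz
    have hd : IsDiag2 M := by
      set A : Fw := S.inclOver w (loc v a) with hA
      have ha1 : A - 1 ≠ 0 := sub_ne_zero.mpr fun e => torus_ne_one ha ht
        ((loc v).injective ((S.inclOver w).injective (e.trans (by rw [map_one, map_one]))))
      have e : (inclGL w (locMat v t)).val = !![A, 0; 0, 1] := by
        refine Matrix.ext fun i j => ?_
        show S.inclOver w (loc v ((t : Matrix (Fin 2) (Fin 2) S.K) i j)) = _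
        rw [ha]
        fin_cases i <;> fin_cases j <;> simp [A]
      rw [e] at hM
      have h01 := congrFun (congrFun hM 0) 1
      have h10 := congrFun (congrFun hM 1) 0
      simp [Matrix.mul_apply, Fin.sum_univ_two] at h01 h10
      exact ⟨(mul_eq_zero.mp
        (show (A - 1) * M.val 0 1 = 0 by linear_combination -h01)).resolve_left ha1,
        (mul_eq_zero.mp
        (show (A - 1) * M.val 1 0 = 0 by linear_combination h10)).resolve_left ha1⟩
    rw [← map_mul, D.partClass_mk hσ w hfix hm, D.partClass_mk hσ w hfix hm,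
      LT.partFin_diag_mul hd]
  · induction x using Matrix.ProjGenLinGroup.induction_on with | mk g => ?_
    obtain ⟨k, hk', rfl⟩ := hk
    rw [← map_mul, D.partClass_mk hσ w hfix hm, D.partClass_mk hσ w hfix hm]
    have h := D.partFin_mul_grp hσ w hfix hm (CC).isBox_H hk' (one_mem _) g
    rw [mul_one] at h
    rw [h]

include hσ hfix hm in
/-- A nonzero kernel at a fixed place forces a cube. -/
theorem exists_cube_root_of_baseK_ne_zero {y : LCos (D.levelIdeal S.K) v}
    (hy : (D.localOps hσ).baseK t v y ≠ 0) :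
    ∃ (d : GLv v) (c : v.adicCompletion S.K),
      (d : Matrix (Fin 2) (Fin 2) (v.adicCompletion S.K)) ^ 3 =
        c • (locMat v t : Matrix (Fin 2) (Fin 2) (v.adicCompletion S.K)) := by
  obtain ⟨a, rfl⟩ := QuotientGroup.mk_surjective y
  obtain ⟨x, -, hxs, hx3⟩ := D.exists_cube_of_lKer_ne_zero hσ w hfix hm (a := a)
    (b := locMat v t * a) hy
  obtain ⟨c₀, rfl⟩ := D.mem_range_pK hσ w hfix hm hxs
  have hz : c₀ * c₀ * c₀ * (a⁻¹ * (locMat v t * a))⁻¹ ∈ Subgroup.center (GLv v) := by
    refine center_of_inclGL w ?_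
    rw [← Matrix.ProjGenLinGroup.mk_eq_one]
    simp only [map_mul, map_inv] at hx3 ⊢
    rw [hx3, mul_inv_cancel]
  set z := c₀ * c₀ * c₀ * (a⁻¹ * (locMat v t * a))⁻¹
  have e : (a * c₀ * a⁻¹) ^ 3 = z * locMat v t := by
    rw [show (a * c₀ * a⁻¹) ^ 3 = a * (c₀ * c₀ * c₀) * a⁻¹ by rw [pow_three']; group,
      show c₀ * c₀ * c₀ = z * (a⁻¹ * (locMat v t * a)) by simp only [z]; group,
      ← mul_assoc a z, Subgroup.mem_center_iff.mp hz a]
    group
  rw [Matrix.GeneralLinearGroup.center_eq_range_scalar] at hz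
  obtain ⟨c, hc⟩ := hz
  refine ⟨a * c₀ * a⁻¹, c, ?_⟩
  rw [← Units.val_pow_eq_pow_val, e, ← hc, Units.val_mul, Matrix.GeneralLinearGroup.coe_scalar,
    Matrix.scalar_apply, ← Matrix.smul_eq_diagonal_mul]

end Setup.Level

namespace Setup.Level

variable {S : Setup} (D : S.Level) {σ : S.F ≃+* S.F} (hσ : S.IsGalGen σ)

open Classical in
/-- The ratio of the orbital sums at a place. -/
def fixCst (v : HeightOneSpectrum (𝓞 S.K)) : ℂ :=
  if h : (S.m : 𝓞 S.K) ∈ v.asIdeal ∧ S.IsFixed v then
    D.fixRatio hσ (exists_overK_place S v).some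
      ((isFixed_iff hσ).mp h.2 _) ((bad_over_iff _).mpr h.1)
  else 0

theorem fixCst_eq {v : HeightOneSpectrum (𝓞 S.K)} (hv : (S.m : 𝓞 S.K) ∈ v.asIdeal)
    (hf : S.IsFixed v) (w : S.OverK v) :
    D.fixCst hσ v = D.fixRatio hσ w ((isFixed_iff hσ).mp hf w) ((bad_over_iff w).mpr hv) := by
  obtain rfl : (exists_overK_place S v).some = w := Subtype.ext (hf _ _ (exists_overK_place S v).some.2 w.2)
  rw [fixCst, dif_pos ⟨hv, hf⟩]

/-- The matching at the fixed places over `m`. -/
def fixedMatch : FixedMatch (D.localOps hσ) hσ where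
  cst := D.fixCst hσ
  orbital v hv hf t δ h ΩF ΩK hF hK := by
    obtain ⟨w⟩ := exists_overK_place S v
    have hfix := (isFixed_iff hσ).mp hf w
    have hm := (bad_over_iff w).mpr hv
    obtain ⟨h1, h2⟩ := D.sum_fixed hσ w hfix hm h (D.one_isWeight hσ w hfix hm t) hF hK
    simp only [mul_one] at h1 h2
    exact ⟨h1, by rw [D.fixCst_eq hσ hv hf w]; exact h2⟩
  weight v hv hf t δ a h ha w ΩF ΩK hF hK := by
    have hfix := (isFixed_iff hσ).mp hf w
    have hm := (bad_over_iff w).mpr hv
    obtain ⟨-, h2⟩ := D.sum_fixed hσ w hfix hm h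
      (D.partClass_isWeight hσ w hfix hm h.regular ha) hF hK
    simp only [D.partClass_pF hσ w hfix hm, D.partClass_pK hσ w hfix hm] at h2
    rw [h2, D.fixCst_eq hσ hv hf w, mul_assoc (3 : ℂ), mul_left_comm (3 : ℂ), mul_finsum_mem,
      mul_finsum_mem, mul_finsum_mem]
    exact finsum_mem_congr rfl fun y _ => by ring
  nonnorm v hv hf t y hy := by
    obtain ⟨w⟩ := exists_overK_place S v
    exact D.exists_cube_root_of_baseK_ne_zero hσ w ((isFixed_iff hσ).mp hf w)
      ((bad_over_iff w).mpr hv) hy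

end Setup.Level

end FermatAgent.LTG

end
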